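import Mathlib

/-!
# (SU) SUPPORT-EIGEN: eigenvectors for characters of a faithful commutative algebra

* `exists_functional`: `M` a finite faithful module over a commutative ring `T`, `χ : T →+* K`
  a ring hom to a field.  Then there is a nonzero additive `F : M →+ K` with
  `F (t • m) = χ t * F m`.
* `exists_dual_functional`: `L` a finite free `ℤ`-module, `Θ : T →+* End_ℤ L` injective; the same for
  the transposed action on `Module.Dual ℤ L`.
* `exists_eigenvector`: a nonzero `u : K ⊗[ℤ] L` with `(Θ t).baseChange K u = χ t • u` for all `t`.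
-/

namespace Fermat.Agent.S30.H49

open scoped TensorProduct

/-- A character of a commutative ring acting faithfully on a finite module occurs in the module:
functional form. -/
theorem exists_functional {T M K : Type*} [CommRing T] [AddCommGroup M] [Module T M]
    [Module.Finite T M] [Field K]
    (hfaith : ∀ t : T, (∀ m : M, t • m = 0) → t = 0) (χ : T →+* K) :
    ∃ F : M →+ K, F ≠ 0 ∧ ∀ (t : T) (m : M), F (t • m) = χ t * F m := by
  classical
  have hprime : (RingHom.ker χ).IsPrime := RingHom.ker_isPrime χ
  let P : PrimeSpectrum T := ⟨RingHom.ker χ, hprime⟩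
  have hann : Module.annihilator T M = ⊥ := by
    rw [eq_bot_iff]
    intro t ht
    rw [Module.mem_annihilator] at ht
    exact hfaith t ht
  have hsupp : P ∈ Module.support T M := by
    rw [Module.mem_support_iff_of_finite, hann]
    exact bot_le
  rw [Module.mem_support_iff_nontrivial_residueField_tensorProduct] at hsupp
  change Nontrivial ((RingHom.ker χ).ResidueField ⊗[T] M) at hsupp
  obtain ⟨v, hv⟩ := exists_ne (0 : (RingHom.ker χ).ResidueField ⊗[T] M)
  have hφ : ∃ φ : Module.Dual (RingHom.ker χ).ResidueField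
      ((RingHom.ker χ).ResidueField ⊗[T] M), φ v ≠ 0 := by
    by_contra hcon
    push Not at hcon
    exact hv ((Module.forall_dual_apply_eq_zero_iff (RingHom.ker χ).ResidueField v).1 hcon)
  obtain ⟨φ, hφv⟩ := hφ
  have hunit : (RingHom.ker χ).primeCompl ≤ (IsUnit.submonoid K).comap χ := by
    intro t ht
    change IsUnit (χ t)
    rw [isUnit_iff_ne_zero]
    intro h0
    exact ht ((RingHom.mem_ker).2 h0)
  let ι : (RingHom.ker χ).ResidueField →+* K :=
    Ideal.ResidueField.lift (RingHom.ker χ) χ le_rfl hunit
  have hι : ∀ t : T, ι (algebraMap T (RingHom.ker χ).ResidueField t) = χ t := fun t =>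
    Ideal.ResidueField.lift_algebraMap (RingHom.ker χ) χ le_rfl hunit t
  let F : M →+ K :=
    { toFun := fun m => ι (φ ((1 : (RingHom.ker χ).ResidueField) ⊗ₜ[T] m))
      map_zero' := by simp
      map_add' := fun a b => by simp [TensorProduct.tmul_add] }
  have hF : ∀ m, F m = ι (φ ((1 : (RingHom.ker χ).ResidueField) ⊗ₜ[T] m)) := fun _ => rfl
  refine ⟨F, ?_, ?_⟩
  · intro h0
    apply hφv
    have hzero : ∀ m : M, φ ((1 : (RingHom.ker χ).ResidueField) ⊗ₜ[T] m) = 0 := by
      intro m
      have : F m = 0 := by rw [h0]; rfl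
      rw [hF] at this
      exact (map_eq_zero ι).1 this
    have hall : ∀ w : (RingHom.ker χ).ResidueField ⊗[T] M, φ w = 0 := by
      intro w
      induction w using TensorProduct.induction_on with
      | zero => simp
      | tmul a m =>
        have : a ⊗ₜ[T] m = a • ((1 : (RingHom.ker χ).ResidueField) ⊗ₜ[T] m) := by
          rw [TensorProduct.smul_tmul', smul_eq_mul, mul_one]
        rw [this, map_smul, hzero, smul_zero]
      | add x y hx hy => rw [map_add, hx, hy, add_zero]
    exact hall v
  · intro t m
    rw [hF, hF]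
    have : (1 : (RingHom.ker χ).ResidueField) ⊗ₜ[T] (t • m)
        = (algebraMap T (RingHom.ker χ).ResidueField t) •
          ((1 : (RingHom.ker χ).ResidueField) ⊗ₜ[T] m) := by
      rw [TensorProduct.tmul_smul, algebraMap_smul]
    rw [this, map_smul, smul_eq_mul, map_mul, hι]

/-- The transposed action of a commutative ring on the dual of a `ℤ`-module. -/
noncomputable def dualAction {T L : Type*} [CommRing T] [AddCommGroup L]
    (Θ : T →+* Module.End ℤ L) : T →+* Module.End ℤ (Module.Dual ℤ L) where
  toFun t := (Θ t).dualMap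
  map_one' := by
    ext f x
    simp [LinearMap.dualMap_apply]
  map_mul' s t := by
    ext f x
    rw [mul_comm s t]
    simp [LinearMap.dualMap_apply, map_mul]
  map_zero' := by
    ext f x
    simp [LinearMap.dualMap_apply]
  map_add' s t := by
    ext f x
    simp [LinearMap.dualMap_apply, map_add]

@[simp] theorem dualAction_apply {T L : Type*} [CommRing T] [AddCommGroup L]
    (Θ : T →+* Module.End ℤ L) (t : T) (f : Module.Dual ℤ L) (x : L) :
    dualAction Θ t f x = f (Θ t x) := rfl

/-- Functional form on the dual lattice: a nonzero additive `G : L^∨ → K` which is a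
`χ`-eigenvector for the transposed action. -/
theorem exists_dual_functional {T L K : Type*} [CommRing T] [AddCommGroup L]
    [Module.Free ℤ L] [Module.Finite ℤ L] (Θ : T →+* Module.End ℤ L)
    (hΘ : Function.Injective Θ) [Field K] (χ : T →+* K) :
    ∃ G : Module.Dual ℤ L →+ K, G ≠ 0 ∧
      ∀ (t : T) (f : Module.Dual ℤ L), G (f ∘ₗ Θ t) = χ t * G f := by
  classical
  let _ : Module T (Module.Dual ℤ L) := Module.compHom _ (dualAction Θ)
  have hsmul : ∀ (t : T) (f : Module.Dual ℤ L), t • f = f ∘ₗ Θ t := by
    intro t f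
    ext x
    rfl
  have hfin : Module.Finite T (Module.Dual ℤ L) :=
    Module.Finite.of_restrictScalars_finite ℤ T (Module.Dual ℤ L)
  have hfaith : ∀ t : T, (∀ f : Module.Dual ℤ L, t • f = 0) → t = 0 := by
    intro t ht
    apply hΘ
    rw [map_zero]
    ext x
    rw [LinearMap.zero_apply]
    apply (Module.forall_dual_apply_eq_zero_iff ℤ (Θ t x)).1
    intro f
    have := ht f
    rw [hsmul] at this
    have h2 := LinearMap.congr_fun this x
    simpa using h2
  obtain ⟨G, hG0, hG⟩ := exists_functional hfaith χ
  refine ⟨G, hG0, fun t f => ?_⟩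
  rw [← hsmul]
  exact hG t f

/-- **(SU) SUPPORT-EIGEN.**  `L` a finite free `ℤ`-module with a faithful action of a commutative
ring `T`; every ring hom `χ : T →+* K` to a field occurs as an eigencharacter in `K ⊗[ℤ] L`. -/
theorem exists_eigenvector {T L K : Type*} [CommRing T] [AddCommGroup L]
    [Module.Free ℤ L] [Module.Finite ℤ L] (Θ : T →+* Module.End ℤ L)
    (hΘ : Function.Injective Θ) [Field K] (χ : T →+* K) :
    ∃ u : K ⊗[ℤ] L, u ≠ 0 ∧ ∀ t : T, (Θ t).baseChange K u = χ t • u := by
  classical
  obtain ⟨G, hG0, hG⟩ := exists_dual_functional Θ hΘ χ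
  let b := Module.Free.chooseBasis ℤ L
  let B := Algebra.TensorProduct.basis K b
  have hB : ∀ i, B i = (1 : K) ⊗ₜ[ℤ] b i := fun i => Algebra.TensorProduct.basis_apply b i
  have hGlin : ∀ f : Module.Dual ℤ L, G f = ∑ i, f (b i) • G (b.coord i) := by
    intro f
    conv_lhs => rw [← b.sum_dual_apply_smul_coord f]
    rw [map_sum]
    refine Finset.sum_congr rfl fun i _ => ?_
    rw [map_zsmul]
  refine ⟨∑ i, G (b.coord i) • B i, ?_, ?_⟩
  · intro h0
    apply hG0
    have hli := B.linearIndependent
    rw [Fintype.linearIndependent_iff] at hli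
    have hz := hli (fun i => G (b.coord i)) h0
    ext f
    rw [hGlin f]
    simp [hz]
  · intro t
    have hcoef : ∀ j, ∑ i, (b.coord j (Θ t (b i))) • G (b.coord i) = χ t * G (b.coord j) := by
      intro j
      rw [← hG t (b.coord j), hGlin ((b.coord j) ∘ₗ Θ t)]
      rfl
    have hexp : ∀ i, (Θ t).baseChange K (B i) = ∑ j, ((b.coord j (Θ t (b i)) : ℤ) : K) • B j := by
      intro i
      rw [hB, LinearMap.baseChange_tmul]
      conv_lhs => rw [← b.sum_repr (Θ t (b i))]
      rw [TensorProduct.tmul_sum]
      refine Finset.sum_congr rfl fun j _ => ?_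
      rw [hB, TensorProduct.tmul_smul, TensorProduct.smul_tmul', TensorProduct.smul_tmul']
      simp [Module.Basis.coord_apply]
    rw [map_sum, Finset.smul_sum]
    simp_rw [map_smul, hexp, Finset.smul_sum, smul_smul]
    rw [Finset.sum_comm]
    refine Finset.sum_congr rfl fun j _ => ?_
    rw [← Finset.sum_smul, ← hcoef j]
    congr 1
    refine Finset.sum_congr rfl fun i _ => ?_
    rw [zsmul_eq_mul, mul_comm]

end Fermat.Agent.S30.H49
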