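import Mathlib
import Fermat.Agent.S30.H49_SupportEigen

/-!
# (SU') SUPPORT-EIGEN with values in a domain

`L` a finite free `ℤ`-module with a faithful action `Θ` of a commutative ring `T`, `O` an integral
domain and `χ : T →+* O` a ring homomorphism.  Then `χ` occurs as an eigencharacter in `O ⊗[ℤ] L`:

* `exists_eigen_coord` : COORDINATE form, with respect to `b := Module.Free.chooseBasis ℤ L`:
  a nonzero `a : ι → O` with `∑ i, (b.coord j (Θ t (b i)) : O) * a i = χ t * a j`.
* `exists_eigenvector_domain` : a nonzero `u : O ⊗[ℤ] L` with `(Θ t).baseChange O u = χ t • u`.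

(Clear the denominators of helper49's `H49.exists_dual_functional` over `FractionRing O`.)
-/

set_option autoImplicit false

namespace Fermat.Agent.S30.H10

open scoped TensorProduct

section Coord

variable {T L O : Type*} [CommRing T] [AddCommGroup L] [Module.Free ℤ L] [Module.Finite ℤ L]
  [CommRing O]

/-- The vector of `O ⊗[ℤ] L` with coordinates `a` in the basis `1 ⊗ b i`. -/
noncomputable def coordVec (a : Module.Free.ChooseBasisIndex ℤ L → O) : O ⊗[ℤ] L :=
  ∑ i, a i • ((1 : O) ⊗ₜ[ℤ] (Module.Free.chooseBasis ℤ L i))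

theorem coordVec_eq_zero_iff [Nontrivial O] (a : Module.Free.ChooseBasisIndex ℤ L → O) :
    coordVec (L := L) a = 0 ↔ a = 0 := by
  classical
  let b := Module.Free.chooseBasis ℤ L
  let B := Algebra.TensorProduct.basis O b
  have hB : ∀ i, B i = (1 : O) ⊗ₜ[ℤ] b i := fun i => Algebra.TensorProduct.basis_apply b i
  constructor
  · intro h0
    have hli := B.linearIndependent
    rw [Fintype.linearIndependent_iff] at hli
    funext i
    refine hli a ?_ i
    rw [← h0, coordVec]
    exact Finset.sum_congr rfl fun i _ => by rw [hB]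
  · rintro rfl
    simp [coordVec]

/-- A coordinate eigen-relation gives an eigenvector of the base-changed action. -/
theorem baseChange_coordVec (Θ : T →+* Module.End ℤ L) (χ : T →+* O)
    (a : Module.Free.ChooseBasisIndex ℤ L → O)
    (ha : ∀ (t : T) (j : Module.Free.ChooseBasisIndex ℤ L),
      ∑ i, ((Module.Free.chooseBasis ℤ L).coord j (Θ t (Module.Free.chooseBasis ℤ L i)) : O) * a i
        = χ t * a j) (t : T) :
    (Θ t).baseChange O (coordVec (L := L) a) = χ t • coordVec (L := L) a := by
  classical
  rw [coordVec]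
  set b := Module.Free.chooseBasis ℤ L with hb
  have hexp : ∀ i, (Θ t).baseChange O ((1 : O) ⊗ₜ[ℤ] b i) =
      ∑ j, ((b.coord j (Θ t (b i)) : ℤ) : O) • ((1 : O) ⊗ₜ[ℤ] b j) := by
    intro i
    rw [LinearMap.baseChange_tmul]
    conv_lhs => rw [← b.sum_repr (Θ t (b i))]
    rw [TensorProduct.tmul_sum]
    refine Finset.sum_congr rfl fun j _ => ?_
    rw [TensorProduct.tmul_smul, TensorProduct.smul_tmul', TensorProduct.smul_tmul']
    simp [Module.Basis.coord_apply]
  rw [map_sum, Finset.smul_sum]
  simp_rw [map_smul, hexp, Finset.smul_sum, smul_smul]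
  rw [Finset.sum_comm]
  refine Finset.sum_congr rfl fun j _ => ?_
  rw [← Finset.sum_smul, ← ha t j]
  congr 1
  refine Finset.sum_congr rfl fun i _ => ?_
  rw [mul_comm]

end Coord

section Domain

variable {T L O : Type*} [CommRing T] [AddCommGroup L] [Module.Free ℤ L] [Module.Finite ℤ L]
  [CommRing O] [IsDomain O]

/-- **(SU'), coordinate form.** -/
theorem exists_eigen_coord (Θ : T →+* Module.End ℤ L) (hΘ : Function.Injective Θ)
    (χ : T →+* O) :
    ∃ a : Module.Free.ChooseBasisIndex ℤ L → O, a ≠ 0 ∧
      ∀ (t : T) (j : Module.Free.ChooseBasisIndex ℤ L),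
        ∑ i, ((Module.Free.chooseBasis ℤ L).coord j (Θ t (Module.Free.chooseBasis ℤ L i)) : O) * a i
          = χ t * a j := by
  classical
  set K := FractionRing O with hK
  set b := Module.Free.chooseBasis ℤ L with hb
  have hinj : Function.Injective (algebraMap O K) := IsFractionRing.injective O K
  obtain ⟨G, hG0, hG⟩ := H49.exists_dual_functional Θ hΘ ((algebraMap O K).comp χ)
  have hGlin : ∀ f : Module.Dual ℤ L, G f = ∑ i, f (b i) • G (b.coord i) := by
    intro f
    conv_lhs => rw [← b.sum_dual_apply_smul_coord f]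
    rw [map_sum]
    refine Finset.sum_congr rfl fun i _ => ?_
    rw [map_zsmul]
  -- clear denominators
  obtain ⟨d, hd⟩ := IsLocalization.exist_integer_multiples (nonZeroDivisors O)
    (Finset.univ : Finset (Module.Free.ChooseBasisIndex ℤ L)) (fun i => G (b.coord i))
  choose! a ha using hd
  have ha' : ∀ i, algebraMap O K (a i) = algebraMap O K (d : O) * G (b.coord i) := by
    intro i
    rw [ha i (Finset.mem_univ i), Algebra.smul_def]
  have hd0 : algebraMap O K (d : O) ≠ 0 := by
    intro h
    have : (d : O) = 0 := hinj (by rw [h, map_zero])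
    exact nonZeroDivisors.coe_ne_zero d this
  refine ⟨a, ?_, fun t j => ?_⟩
  · intro h0
    apply hG0
    have hz : ∀ i, G (b.coord i) = 0 := by
      intro i
      have h1 := ha' i
      rw [h0, Pi.zero_apply, map_zero] at h1
      exact (mul_eq_zero.mp h1.symm).resolve_left hd0
    ext f
    rw [hGlin f]
    simp [hz]
  · apply hinj
    have hcoef : ∑ i, (b.coord j (Θ t (b i))) • G (b.coord i) =
        algebraMap O K (χ t) * G (b.coord j) := by
      have := hG t (b.coord j)
      rw [hGlin ((b.coord j) ∘ₗ Θ t)] at this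
      exact this
    rw [map_mul, ha' j, map_sum]
    calc ∑ i, algebraMap O K (((b.coord j (Θ t (b i)) : ℤ) : O) * a i)
        = ∑ i, algebraMap O K (d : O) * ((b.coord j (Θ t (b i))) • G (b.coord i)) := by
          refine Finset.sum_congr rfl fun i _ => ?_
          rw [map_mul, ha' i, map_intCast, zsmul_eq_mul]
          ring
      _ = algebraMap O K (d : O) * (algebraMap O K (χ t) * G (b.coord j)) := by
          rw [← Finset.mul_sum, hcoef]
      _ = algebraMap O K (χ t) * (algebraMap O K (d : O) * G (b.coord j)) := by ring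

/-- **(SU'), tensor form.**  Every ring hom `χ : T →+* O` to a domain occurs as an eigencharacter
in `O ⊗[ℤ] L`. -/
theorem exists_eigenvector_domain (Θ : T →+* Module.End ℤ L) (hΘ : Function.Injective Θ)
    (χ : T →+* O) :
    ∃ u : O ⊗[ℤ] L, u ≠ 0 ∧ ∀ t : T, (Θ t).baseChange O u = χ t • u := by
  obtain ⟨a, ha0, ha⟩ := exists_eigen_coord Θ hΘ χ
  exact ⟨coordVec (L := L) a, fun h => ha0 ((coordVec_eq_zero_iff a).1 h),
    fun t => baseChange_coordVec Θ χ a ha t⟩

end Domain

end Fermat.Agent.S30.H10
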