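import Mathlib

set_option autoImplicit false

/-!
# (Q3) DVR-EXT: the integral closure of a complete DVR in a finite extension of its fraction field

`O` a complete discrete valuation ring of characteristic zero with finite residue field,
`K` its fraction field, `K2 / K` a finite extension.  Then `B := integralClosure O K2` is again a
complete discrete valuation ring of characteristic zero with finite residue field, finite (free)
over `O`, the structure map is local and injective, and `K2 = Frac B`.
-/

namespace Fermat.Agent.S30.H94

open IsLocalRing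

universe u

section General

/-- A finite module over a Noetherian ring complete with respect to `I` is `I`-adically complete. -/
theorem isAdicComplete_of_moduleFinite {R : Type u} [CommRing R] [IsNoetherianRing R]
    (I : Ideal R) [IsAdicComplete I R] (M : Type u) [AddCommGroup M] [Module R M]
    [Module.Finite R M] : IsAdicComplete I M := by
  rw [← AdicCompletion.of_bijective_iff]
  have h1 : Function.Bijective (AdicCompletion.ofTensorProduct I M) :=
    AdicCompletion.ofTensorProduct_bijective_of_finite_of_isNoetherian I M
  let e : R ≃ₗ[R] AdicCompletion I R :=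
    LinearEquiv.ofBijective (AdicCompletion.of I R) (AdicCompletion.of_bijective I R)
  let e2 : M ≃ₗ[R] TensorProduct R (AdicCompletion I R) M :=
    (TensorProduct.lid R M).symm.trans (LinearEquiv.rTensor M e)
  have h2 : ∀ x : M, AdicCompletion.of I M x = AdicCompletion.ofTensorProduct I M (e2 x) := by
    intro x
    have h1' : AdicCompletion.of I R 1 = 1 := rfl
    simp [e2, e, AdicCompletion.ofTensorProduct_tmul, h1']
  have h3 : (AdicCompletion.of I M : M → AdicCompletion I M)
      = (AdicCompletion.ofTensorProduct I M) ∘ e2 := funext h2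
  rw [h3]
  exact h1.comp e2.bijective

/-- A finite module over `R` killed by an ideal `m` of finite index is finite. -/
theorem finite_of_moduleFinite_of_torsion {R : Type*} [CommRing R] (m : Ideal R) [Finite (R ⧸ m)]
    (M : Type*) [AddCommGroup M] [Module R M] [Module.Finite R M]
    (h : ∀ a ∈ m, ∀ x : M, a • x = 0) : Finite M := by
  have hT : Module.IsTorsionBySet R M m := fun x a => h a a.2 x
  letI := hT.module
  haveI : IsScalarTower R (R ⧸ m) M := hT.isScalarTower
  haveI : Module.Finite (R ⧸ m) M := Module.Finite.of_restrictScalars_finite R (R ⧸ m) M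
  exact Module.finite_of_finite (R ⧸ m)

/-- In a finite monoid some positive power of any element is idempotent. -/
theorem exists_pow_isIdempotentElem {M : Type*} [Monoid M] [Finite M] (x : M) :
    ∃ n : ℕ, 0 < n ∧ IsIdempotentElem (x ^ n) := by
  obtain ⟨a, b, hab, h⟩ := Finite.exists_ne_map_eq_of_infinite (fun n : ℕ => x ^ (n + 1))
  wlog hlt : a < b generalizing a b
  · exact this b a hab.symm h.symm (lt_of_le_of_ne (not_lt.mp hlt) hab.symm)
  obtain ⟨d, rfl⟩ : ∃ d, b = a + d := ⟨b - a, by omega⟩
  have hd : 0 < d := by omega
  have h' : x ^ (a + 1 + d) = x ^ (a + 1) := by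
    have : a + 1 + d = a + d + 1 := by ring
    rw [this]; exact h.symm
  have key : ∀ m, a + 1 ≤ m → x ^ (m + d) = x ^ m := by
    intro m hm
    obtain ⟨c, rfl⟩ : ∃ c, m = c + (a + 1) := ⟨m - (a + 1), by omega⟩
    rw [add_assoc, pow_add, h', ← pow_add]
  have key2 : ∀ k m, a + 1 ≤ m → x ^ (m + k * d) = x ^ m := by
    intro k
    induction k with
    | zero => intro m _; simp
    | succ k ih =>
      intro m hm
      have : m + (k + 1) * d = (m + k * d) + d := by ring
      rw [this, key _ (by omega), ih m hm]
  refine ⟨(a + 1) * d, Nat.mul_pos (Nat.succ_pos a) hd, ?_⟩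
  have hle : a + 1 ≤ (a + 1) * d := Nat.le_mul_of_pos_right _ hd
  unfold IsIdempotentElem
  rw [← pow_add]
  exact key2 (a + 1) _ hle

open Polynomial in
/-- A domain which is `I`-adically complete with `R ⧸ I` finite is local. -/
theorem isLocalRing_of_isAdicComplete_of_finite_quotient {R : Type*} [CommRing R] [IsDomain R]
    (I : Ideal R) [IsAdicComplete I R] [Finite (R ⧸ I)] : IsLocalRing R := by
  haveI : HenselianRing R I := inferInstance
  have hjac : I ≤ Ideal.jacobson ⊥ := IsAdicComplete.le_jacobson_bot I
  refine IsLocalRing.of_isUnit_or_isUnit_one_sub_self fun a => ?_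
  obtain ⟨n, hn, hidem⟩ := exists_pow_isIdempotentElem (Ideal.Quotient.mk I a)
  have h0 : (a ^ n) ^ 2 - a ^ n ∈ I := by
    rw [← Ideal.Quotient.eq_zero_iff_mem, map_sub, map_pow, map_pow, pow_two, hidem.eq, sub_self]
  have hmonic : (X ^ 2 - X : R[X]).Monic := by
    apply Polynomial.monic_X_pow_sub
    simp
  have hder : (X ^ 2 - X : R[X]).derivative.eval (a ^ n) = 2 * a ^ n - 1 := by
    simp [one_add_one_eq_two]
  obtain ⟨e, he_root, he_cong⟩ := HenselianRing.is_henselian (X ^ 2 - X : R[X]) hmonic (a ^ n)
    (by simpa using h0)
    (by
      rw [hder]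
      refine IsUnit.of_mul_eq_one (Ideal.Quotient.mk I (2 * a ^ n - 1)) ?_
      rw [← map_mul, ← map_one (Ideal.Quotient.mk I), Ideal.Quotient.eq]
      have : (2 * a ^ n - 1) * (2 * a ^ n - 1) - 1 = 4 * ((a ^ n) ^ 2 - a ^ n) := by ring
      rw [this]
      exact I.mul_mem_left _ h0)
  have he : e * (e - 1) = 0 := by
    have := he_root
    simp only [IsRoot.def, eval_sub, eval_pow, eval_X] at this
    rw [← this]; ring
  rcases mul_eq_zero.mp he with h1 | h1
  · -- e = 0, so a ^ n ∈ I
    right
    have hmem : a ^ n ∈ I := by
      rw [h1, zero_sub] at he_cong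
      simpa using I.neg_mem he_cong
    have hu : IsUnit (1 - a ^ n) := by
      have := Ideal.mem_jacobson_bot.mp (hjac hmem) (-1)
      convert this using 1
      ring
    rw [← mul_neg_geom_sum a n] at hu
    exact isUnit_of_mul_isUnit_left hu
  · -- e = 1
    left
    have he1 : e = 1 := sub_eq_zero.mp h1
    have hmem : 1 - a ^ n ∈ I := by rwa [he1] at he_cong
    have hu : IsUnit (a ^ n) := by
      have := Ideal.mem_jacobson_bot.mp (hjac hmem) (-1)
      convert this using 1
      ring
    exact (isUnit_pow_iff hn.ne').mp hu

/-- Completeness only depends on the adic topology: if `I ≤ J` and `J ^ e ≤ I`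
then `I`-adic completeness implies `J`-adic completeness. -/
theorem isAdicComplete_of_le_of_pow_le {R : Type*} [CommRing R] (I J : Ideal R) (e : ℕ)
    (he : 0 < e) (hIJ : I ≤ J) (hJI : J ^ e ≤ I) [IsAdicComplete I R] : IsAdicComplete J R := by
  have hpow : ∀ n, J ^ (e * n) ≤ I ^ n := fun n => by
    rw [pow_mul]; exact Ideal.pow_right_mono hJI n
  have hpow' : ∀ n, I ^ n ≤ J ^ n := fun n => Ideal.pow_right_mono hIJ n
  have hle : ∀ n, n ≤ e * n := fun n => Nat.le_mul_of_pos_left n he
  refine { toIsHausdorff := ⟨?_⟩, toIsPrecomplete := ⟨?_⟩ }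
  · intro x hx
    apply IsHausdorff.haus (I := I) (M := R) inferInstance x
    intro n
    have := hx (e * n)
    simp only [smul_eq_mul, Ideal.mul_top, SModEq.sub_mem, sub_zero] at this ⊢
    exact hpow n this
  · intro f hf
    have hg : ∀ {m n}, m ≤ n →
        f (e * m) ≡ f (e * n) [SMOD (I ^ m • ⊤ : Submodule R R)] := by
      intro m n hmn
      have := hf (Nat.mul_le_mul_left e hmn)
      simp only [smul_eq_mul, Ideal.mul_top, SModEq.sub_mem] at this ⊢
      exact hpow m this
    obtain ⟨L, hL⟩ := IsPrecomplete.prec (I := I) (M := R) inferInstance hg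
    refine ⟨L, fun n => ?_⟩
    have h1 := hf (hle n)
    have h2 := hL n
    simp only [smul_eq_mul, Ideal.mul_top, SModEq.sub_mem] at h1 h2 ⊢
    have : f n - L = (f n - f (e * n)) + (f (e * n) - L) := by ring
    rw [this]
    exact (J ^ n).add_mem h1 (hpow' n h2)

end General

section Main

variable (O : Type u) [CommRing O] [IsDomain O] [IsDiscreteValuationRing O]
  [IsAdicComplete (maximalIdeal O) O] [Finite (ResidueField O)] [CharZero O]
  (K : Type*) [Field K] [Algebra O K] [IsFractionRing O K]
  (K2 : Type u) [Field K2] [Algebra K K2] [Algebra O K2] [IsScalarTower O K K2]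
  [FiniteDimensional K K2]

include K in
theorem algebraMap_injective_K2 : Function.Injective (algebraMap O K2) := by
  rw [IsScalarTower.algebraMap_eq O K K2]
  exact (algebraMap K K2).injective.comp (IsFractionRing.injective O K)

include O K in
theorem charZero_K2 : CharZero K2 :=
  charZero_of_injective_algebraMap (algebraMap_injective_K2 O K K2)

include O in
theorem charZero_K : CharZero K :=
  charZero_of_injective_algebraMap (IsFractionRing.injective O K)

include K in
theorem algebraMap_integralClosure_injective :
    Function.Injective (algebraMap O (integralClosure O K2)) := by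
  intro x y h
  apply algebraMap_injective_K2 O K K2
  have := congrArg (algebraMap (integralClosure O K2) K2) h
  simpa [← IsScalarTower.algebraMap_apply] using this

include K in
theorem moduleFinite_integralClosure : Module.Finite O (integralClosure O K2) := by
  haveI := charZero_K O K
  exact IsIntegralClosure.finite O K K2 (integralClosure O K2)

include K in
theorem isDedekindDomain_integralClosure : IsDedekindDomain (integralClosure O K2) := by
  haveI := charZero_K O K
  exact integralClosure.isDedekindDomain O K K2

include K in
theorem isFractionRing_integralClosure : IsFractionRing (integralClosure O K2) K2 :=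
  integralClosure.isFractionRing_of_finite_extension K K2

include K in
theorem isAdicComplete_map_integralClosure :
    IsAdicComplete ((maximalIdeal O).map (algebraMap O (integralClosure O K2)))
      (integralClosure O K2) := by
  haveI := moduleFinite_integralClosure O K K2
  haveI : IsAdicComplete (maximalIdeal O) (integralClosure O K2) :=
    isAdicComplete_of_moduleFinite (maximalIdeal O) (integralClosure O K2)
  exact (IsAdicComplete.map_algebraMap_iff _ _).mpr this

include K in
theorem finite_quotient_map_integralClosure :
    Finite ((integralClosure O K2) ⧸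
      (maximalIdeal O).map (algebraMap O (integralClosure O K2))) := by
  haveI := moduleFinite_integralClosure O K K2
  set I := (maximalIdeal O).map (algebraMap O (integralClosure O K2)) with hI
  haveI : Module.Finite O ((integralClosure O K2) ⧸ I) :=
    Module.Finite.of_surjective (Ideal.Quotient.mkₐ O I).toLinearMap
      (Ideal.Quotient.mkₐ_surjective O I)
  haveI : Finite (O ⧸ maximalIdeal O) := ‹Finite (ResidueField O)›
  refine finite_of_moduleFinite_of_torsion (maximalIdeal O) _ ?_
  intro a ha x
  obtain ⟨b, rfl⟩ := Ideal.Quotient.mk_surjective x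
  rw [← Ideal.Quotient.mkₐ_eq_mk O, ← map_smul, Ideal.Quotient.mkₐ_eq_mk,
    Ideal.Quotient.eq_zero_iff_mem, Algebra.smul_def]
  exact Ideal.mul_mem_right _ _ (Ideal.mem_map_of_mem _ ha)

include K in
theorem isLocalRing_integralClosure : IsLocalRing (integralClosure O K2) := by
  haveI := isAdicComplete_map_integralClosure O K K2
  haveI := finite_quotient_map_integralClosure O K K2
  exact isLocalRing_of_isAdicComplete_of_finite_quotient
    ((maximalIdeal O).map (algebraMap O (integralClosure O K2)))

include K in
theorem not_isField_integralClosure : ¬ IsField (integralClosure O K2) := by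
  intro h
  haveI : Algebra.IsIntegral O (integralClosure O K2) :=
    IsIntegralClosure.isIntegral_algebra O K2
  exact IsDiscreteValuationRing.not_isField O
    (isField_of_isIntegral_of_isField (algebraMap_integralClosure_injective O K K2) h)

include K in
theorem isDiscreteValuationRing_integralClosure :
    IsDiscreteValuationRing (integralClosure O K2) := by
  haveI := isLocalRing_integralClosure O K K2
  have hD := isDedekindDomain_integralClosure O K K2
  exact ((IsDiscreteValuationRing.TFAE (integralClosure O K2)
    (not_isField_integralClosure O K K2)).out 0 2).mpr hD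

include K in
theorem isLocalHom_algebraMap_integralClosure :
    IsLocalHom (algebraMap O (integralClosure O K2)) := by
  haveI : Algebra.IsIntegral O (integralClosure O K2) :=
    IsIntegralClosure.isIntegral_algebra O K2
  haveI : FaithfulSMul O (integralClosure O K2) :=
    (faithfulSMul_iff_algebraMap_injective _ _).mpr (algebraMap_integralClosure_injective O K K2)
  infer_instance

include K in
theorem isAdicComplete_integralClosure :
    haveI := isLocalRing_integralClosure O K K2
    IsAdicComplete (maximalIdeal (integralClosure O K2)) (integralClosure O K2) := by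
  haveI := isLocalRing_integralClosure O K K2
  have hDVR := isDiscreteValuationRing_integralClosure O K K2
  haveI := isAdicComplete_map_integralClosure O K K2
  haveI := isLocalHom_algebraMap_integralClosure O K K2
  haveI : IsNoetherianRing (integralClosure O K2) :=
    (isDedekindDomain_integralClosure O K K2).toIsNoetherian
  set I := (maximalIdeal O).map (algebraMap O (integralClosure O K2)) with hI
  have hI_le : I ≤ maximalIdeal (integralClosure O K2) := by
    have h := (IsLocalRing.local_hom_TFAE (algebraMap O (integralClosure O K2))).out 0 2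
    exact h.mp ‹_›
  have hI_ne : I ≠ ⊥ := by
    rw [hI, Ne, Ideal.map_eq_bot_iff_of_injective (algebraMap_integralClosure_injective O K K2)]
    exact IsDiscreteValuationRing.not_a_field O
  have hpow : ∀ (J : Ideal (integralClosure O K2)), J ≠ ⊥ →
      ∃ n : ℕ, J = maximalIdeal (integralClosure O K2) ^ n := by
    have h := (IsDiscreteValuationRing.TFAE (integralClosure O K2)
      (not_isField_integralClosure O K K2)).out 0 6
    exact h.mp hDVR
  obtain ⟨n, hn⟩ := hpow I hI_ne
  have hn0 : 0 < n := by
    rcases Nat.eq_zero_or_pos n with h0 | h0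
    · exfalso
      rw [h0, pow_zero, Ideal.one_eq_top] at hn
      rw [hn] at hI_le
      exact (maximalIdeal.isMaximal (integralClosure O K2)).ne_top (top_le_iff.mp hI_le)
    · exact h0
  exact isAdicComplete_of_le_of_pow_le I (maximalIdeal (integralClosure O K2)) n hn0 hI_le
    (le_of_eq hn.symm)

include K in
theorem finite_residueField_integralClosure :
    haveI := isLocalRing_integralClosure O K K2
    Finite (ResidueField (integralClosure O K2)) := by
  haveI := isLocalRing_integralClosure O K K2
  haveI := isLocalHom_algebraMap_integralClosure O K K2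
  haveI := moduleFinite_integralClosure O K K2
  exact IsLocalRing.ResidueField.finite_of_finite (R := O) ‹Finite (ResidueField O)›

include K in
theorem charZero_integralClosure : CharZero (integralClosure O K2) :=
  charZero_of_injective_algebraMap (algebraMap_integralClosure_injective O K K2)

include K in
theorem moduleFree_integralClosure : Module.Free O (integralClosure O K2) := by
  haveI := charZero_K O K
  haveI : Module.IsTorsionFree O K2 := by
    haveI : FaithfulSMul O K2 :=
      (faithfulSMul_iff_algebraMap_injective _ _).mpr (algebraMap_injective_K2 O K K2)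
    infer_instance
  exact IsIntegralClosure.module_free O K K2 (integralClosure O K2)

include K in
/-- **(Q3) DVR-EXT.**  The instance bundle of the frozen statement S30 for the integral closure of
a complete DVR `O` in a finite extension `K2` of its fraction field `K`. -/
theorem exists_dvrExt :
    ∃ (O2 : Type u) (_ : CommRing O2) (_ : IsDomain O2) (_ : IsDiscreteValuationRing O2)
      (_ : IsAdicComplete (IsLocalRing.maximalIdeal O2) O2)
      (_ : Finite (IsLocalRing.ResidueField O2)) (_ : CharZero O2)
      (_ : Algebra O O2) (_ : Module.Finite O O2) (_ : IsLocalHom (algebraMap O O2))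
      (_ : Algebra O2 K2) (_ : IsScalarTower O O2 K2) (_ : IsFractionRing O2 K2)
      (_ : Module.Free O O2) (_ : IsIntegralClosure O2 O K2),
      Function.Injective (algebraMap O O2) :=
  ⟨integralClosure O K2, inferInstance, inferInstance,
    isDiscreteValuationRing_integralClosure O K K2,
    isAdicComplete_integralClosure O K K2,
    finite_residueField_integralClosure O K K2,
    charZero_integralClosure O K K2,
    inferInstance,
    moduleFinite_integralClosure O K K2,
    isLocalHom_algebraMap_integralClosure O K K2,
    inferInstance, inferInstance,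
    isFractionRing_integralClosure O K K2,
    moduleFree_integralClosure O K K2,
    inferInstance,
    algebraMap_integralClosure_injective O K K2⟩

end Main

section Variants

/-- Variant of `exists_dvrExt` where only `[Algebra K K2]` is given (no `Algebra O K2`):
the compatibility with `O → K → K2` is stated as an equation, and the integral closure property as
"every element of `K2` integral over `O` comes from `O2`". -/
theorem exists_dvrExt' (O : Type u) [CommRing O] [IsDomain O] [IsDiscreteValuationRing O]
    [IsAdicComplete (maximalIdeal O) O] [Finite (ResidueField O)] [CharZero O]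
    (K : Type*) [Field K] [Algebra O K] [IsFractionRing O K]
    (K2 : Type u) [Field K2] [Algebra K K2] [FiniteDimensional K K2] :
    ∃ (O2 : Type u) (_ : CommRing O2) (_ : IsDomain O2) (_ : IsDiscreteValuationRing O2)
      (_ : IsAdicComplete (IsLocalRing.maximalIdeal O2) O2)
      (_ : Finite (IsLocalRing.ResidueField O2)) (_ : CharZero O2)
      (_ : Algebra O O2) (_ : Module.Finite O O2) (_ : IsLocalHom (algebraMap O O2))
      (_ : Algebra O2 K2) (_ : IsFractionRing O2 K2) (_ : Module.Free O O2),
      Function.Injective (algebraMap O O2) ∧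
      (∀ x : O, algebraMap O2 K2 (algebraMap O O2 x) = algebraMap K K2 (algebraMap O K x)) ∧
      (∀ x : K2, ((algebraMap K K2).comp (algebraMap O K)).IsIntegralElem x →
        ∃ y : O2, algebraMap O2 K2 y = x) ∧
      (∀ y : O2, ((algebraMap K K2).comp (algebraMap O K)).IsIntegralElem (algebraMap O2 K2 y)) := by
  letI : Algebra O K2 := ((algebraMap K K2).comp (algebraMap O K)).toAlgebra
  haveI : IsScalarTower O K K2 := IsScalarTower.of_algebraMap_eq (fun _ => rfl)
  obtain ⟨O2, i1, i2, i3, i4, i5, i6, i7, i8, i9, i10, i11, i12, i13, i14, hinj⟩ :=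
    exists_dvrExt O K K2
  refine ⟨O2, i1, i2, i3, i4, i5, i6, i7, i8, i9, i10, i12, i13, hinj, ?_, ?_, ?_⟩
  · intro x
    rw [← IsScalarTower.algebraMap_apply O O2 K2]
    rfl
  · intro x hx
    exact (IsIntegralClosure.isIntegral_iff (A := O2) (R := O) (B := K2)).mp hx
  · intro y
    exact (IsIntegralClosure.isIntegral_iff (A := O2) (R := O) (B := K2)).mpr ⟨y, rfl⟩

/-- The literal instance bundle of the frozen statement S30 (everything in `Type`, fraction field
`FractionRing 𝒪'`): for any finite extension `K2` of `Frac 𝒪'`. -/
theorem exists_dvrExt_S30 (𝒪' : Type) [CommRing 𝒪'] [IsDomain 𝒪'] [IsDiscreteValuationRing 𝒪']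
    [IsAdicComplete (IsLocalRing.maximalIdeal 𝒪') 𝒪'] [Finite (IsLocalRing.ResidueField 𝒪')]
    [CharZero 𝒪'] (K2 : Type) [Field K2] [Algebra (FractionRing 𝒪') K2]
    [FiniteDimensional (FractionRing 𝒪') K2] :
    ∃ (𝒪'' : Type) (_ : CommRing 𝒪'') (_ : IsDomain 𝒪'') (_ : IsDiscreteValuationRing 𝒪'')
      (_ : IsAdicComplete (IsLocalRing.maximalIdeal 𝒪'') 𝒪'')
      (_ : Finite (IsLocalRing.ResidueField 𝒪'')) (_ : CharZero 𝒪'')
      (_ : Algebra 𝒪' 𝒪'') (_ : Module.Finite 𝒪' 𝒪'') (_ : IsLocalHom (algebraMap 𝒪' 𝒪''))
      (_ : Algebra 𝒪'' K2) (_ : IsFractionRing 𝒪'' K2) (_ : Module.Free 𝒪' 𝒪''),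
      Function.Injective (algebraMap 𝒪' 𝒪'') ∧
      (∀ x : 𝒪', algebraMap 𝒪'' K2 (algebraMap 𝒪' 𝒪'' x) =
        algebraMap (FractionRing 𝒪') K2 (algebraMap 𝒪' (FractionRing 𝒪') x)) ∧
      (∀ x : K2, ((algebraMap (FractionRing 𝒪') K2).comp
          (algebraMap 𝒪' (FractionRing 𝒪'))).IsIntegralElem x →
        ∃ y : 𝒪'', algebraMap 𝒪'' K2 y = x) ∧
      (∀ y : 𝒪'', ((algebraMap (FractionRing 𝒪') K2).comp
          (algebraMap 𝒪' (FractionRing 𝒪'))).IsIntegralElem (algebraMap 𝒪'' K2 y)) :=
  exists_dvrExt' 𝒪' (FractionRing 𝒪') K2

/-- If `(p : O) ∈ 𝔪_O` and `O → O2` is a local ring hom of local rings then `(p : O2) ∈ 𝔪_{O2}`. -/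
theorem natCast_mem_maximalIdeal_of_algebraMap {O O2 : Type*} [CommRing O] [IsLocalRing O]
    [CommRing O2] [IsLocalRing O2] [Algebra O O2] [IsLocalHom (algebraMap O O2)] (p : ℕ)
    (hp : (p : O) ∈ maximalIdeal O) : (p : O2) ∈ maximalIdeal O2 := by
  rw [mem_maximalIdeal, mem_nonunits_iff] at hp ⊢
  intro h
  apply hp
  have : (p : O2) = algebraMap O O2 (p : O) := by simp
  rw [this] at h
  exact isUnit_of_map_unit (algebraMap O O2) _ h

end Variants


end Fermat.Agent.S30.H94
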