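import Mathlib
import Fermat.Prelude.Def_EllipticCurve_FrobeniusTrace
import Fermat.Prelude.Def_FLTPrelim_Ramification
import Fermat.Prelude.Def_GaloisRep_ComplexConjugation
import Fermat.Agent.S14.H31_FrobCyclo

/-!
# The `p`-adic cyclotomic character with values in an adically complete ring

Package (D2) of the S30 blueprint.  `O` is a commutative ring which is adically complete with
respect to an ideal `I` containing `p` (e.g. a complete discrete valuation ring with `p` in its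
maximal ideal).

* `padicIntTo p I hp : ℤ_[p] →+* O` : the canonical ring homomorphism.
* `cycloAdic p I hp : (ℚ̄ ≃ₐ[ℚ] ℚ̄) →* Oˣ` : the `p`-adic cyclotomic character.
* `cycloAdic_sub_natCast_mem` : the defining congruences (in the shape of the prelude's
  `DetIsCyclotomic`).
* `cycloAdic_frobenius` : `ε(Frob_ℓ) = ℓ` for every Frobenius element at a place over `ℓ ≠ p`.
* `cycloAdic_inertia` : `ε` is trivial on inertia at places over `q ≠ p`.
* `cycloAdic_complexConjugation` : `ε(c) = -1`.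
* `cycloAdic_continuity` : `ε ≡ 1 mod p ^ n` on the subgroup fixing a finite extension.
-/

set_option autoImplicit false

noncomputable section

namespace Fermat.Agent.S30.H68

open Ideal

local notation "Qbar" => AlgebraicClosure ℚ
local notation "GQ" => (AlgebraicClosure ℚ ≃ₐ[ℚ] AlgebraicClosure ℚ)

section PadicIntTo

variable (p : ℕ) [hp : Fact p.Prime] {O : Type*} [CommRing O] (I : Ideal O)

omit hp in
/-- `(p ^ n : O ⧸ I ^ n) = 0` when `p ∈ I`. -/
theorem natCast_pow_quotient_eq_zero (hpI : (p : O) ∈ I) (n : ℕ) :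
    ((p ^ n : ℕ) : O ⧸ I ^ n) = 0 := by
  have h : ((p ^ n : ℕ) : O) ∈ I ^ n := by
    rw [Nat.cast_pow]
    exact Ideal.pow_mem_pow hpI n
  have h2 : ((p ^ n : ℕ) : O ⧸ I ^ n) = Ideal.Quotient.mk (I ^ n) ((p ^ n : ℕ) : O) := by
    rw [map_natCast]
  rw [h2, Ideal.Quotient.eq_zero_iff_mem]
  exact h

/-- Two ring homomorphisms out of `ℤ_[p]` into a ring in which `p ^ n = 0` agree. -/
theorem padicInt_ringHom_ext {R : Type*} [CommRing R] {n : ℕ} (hR : ((p ^ n : ℕ) : R) = 0)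
    (f g : ℤ_[p] →+* R) : f = g := by
  refine RingHom.ext fun x => ?_
  have hx := PadicInt.appr_spec n x
  rw [Ideal.mem_span_singleton] at hx
  obtain ⟨y, hy⟩ := hx
  have hx' : x = (x.appr n : ℤ_[p]) + (p : ℤ_[p]) ^ n * y := by rw [← hy]; ring
  have hp0f : f ((p : ℤ_[p]) ^ n) = 0 := by
    rw [← Nat.cast_pow, map_natCast]; exact hR
  have hp0g : g ((p : ℤ_[p]) ^ n) = 0 := by
    rw [← Nat.cast_pow, map_natCast]; exact hR
  rw [hx', map_add, map_add, map_mul, map_mul, hp0f, hp0g, zero_mul, zero_mul, map_natCast,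
    map_natCast]

/-- The level-`n` component `ℤ_[p] →+* O ⧸ I ^ n`. -/
def padicIntToQuot (hpI : (p : O) ∈ I) (n : ℕ) : ℤ_[p] →+* O ⧸ I ^ n :=
  (ZMod.castHom (ringChar.dvd (natCast_pow_quotient_eq_zero p I hpI n)) (O ⧸ I ^ n)).comp
    (PadicInt.toZModPow n)

variable [IsAdicComplete I O]

/-- The canonical ring homomorphism from `ℤ_[p]` to a ring which is adically complete with
respect to an ideal containing `p`. -/
def padicIntTo (hpI : (p : O) ∈ I) : ℤ_[p] →+* O :=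
  IsAdicComplete.liftRingHom I (padicIntToQuot p I hpI) (fun {m _} _ =>
    padicInt_ringHom_ext p (natCast_pow_quotient_eq_zero p I hpI m) _ _)

/-- If `x ≡ a mod p ^ n` in `ℤ_[p]` then `padicIntTo x ≡ a mod p ^ n` in `O`. -/
theorem padicIntTo_sub_natCast_mem (hpI : (p : O) ∈ I) {x : ℤ_[p]} {n a : ℕ}
    (h : PadicInt.toZModPow n x = (a : ZMod (p ^ n))) :
    padicIntTo p I hpI x - (a : O) ∈ Ideal.span {((p ^ n : ℕ) : O)} := by
  have h1 : x - (a : ℤ_[p]) ∈ RingHom.ker (PadicInt.toZModPow (p := p) n) := by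
    rw [RingHom.mem_ker, map_sub, h, map_natCast, sub_self]
  rw [PadicInt.ker_toZModPow, Ideal.mem_span_singleton] at h1
  obtain ⟨y, hy⟩ := h1
  rw [Ideal.mem_span_singleton]
  refine ⟨padicIntTo p I hpI y, ?_⟩
  have h2 := congrArg (padicIntTo p I hpI) hy
  rw [map_sub, map_natCast, map_mul, ← Nat.cast_pow, map_natCast] at h2
  exact h2

/-- If `x ≡ y mod p ^ n` in `ℤ_[p]` then `padicIntTo x ≡ padicIntTo y mod p ^ n` in `O`. -/
theorem padicIntTo_sub_mem (hpI : (p : O) ∈ I) {x y : ℤ_[p]} {n : ℕ}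
    (h : PadicInt.toZModPow n x = PadicInt.toZModPow n y) :
    padicIntTo p I hpI x - padicIntTo p I hpI y ∈ Ideal.span {((p ^ n : ℕ) : O)} := by
  have h1 : x - y ∈ RingHom.ker (PadicInt.toZModPow (p := p) n) := by
    rw [RingHom.mem_ker, map_sub, h, sub_self]
  rw [PadicInt.ker_toZModPow, Ideal.mem_span_singleton] at h1
  obtain ⟨z, hz⟩ := h1
  rw [Ideal.mem_span_singleton]
  refine ⟨padicIntTo p I hpI z, ?_⟩
  have h2 := congrArg (padicIntTo p I hpI) hz
  rw [map_sub, map_mul, ← Nat.cast_pow, map_natCast] at h2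
  exact h2

omit hp [IsAdicComplete I O] in
/-- `span {p ^ n} ≤ I ^ n` when `p ∈ I`. -/
theorem span_natCast_pow_le (hpI : (p : O) ∈ I) (n : ℕ) :
    Ideal.span {((p ^ n : ℕ) : O)} ≤ I ^ n := by
  rw [Ideal.span_singleton_le_iff_mem, Nat.cast_pow]
  exact Ideal.pow_mem_pow hpI n

omit hp in
/-- Separatedness: two elements congruent modulo every `p ^ n` are equal. -/
theorem eq_of_forall_sub_mem_span (hpI : (p : O) ∈ I) {x y : O}
    (h : ∀ n : ℕ, x - y ∈ Ideal.span {((p ^ n : ℕ) : O)}) : x = y := by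
  rw [← sub_eq_zero]
  refine IsHausdorff.haus' (I := I) (x - y) fun n => ?_
  rw [SModEq.zero, smul_eq_mul, Ideal.mul_top]
  exact span_natCast_pow_le p I hpI n (h n)

end PadicIntTo

section Roots

variable {K L : Type*} [Field K] [Field L] [Algebra K L]

/-- A root of unity `x` of order dividing `M` (a unit of `A`) which is congruent to `ζ ^ t` modulo
the maximal ideal of `A` equals `ζ ^ t`. -/
theorem eq_pow_of_sub_mem_nonunits {A : ValuationSubring L} {M : ℕ} (hMpos : 0 < M)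
    (hMA : (M : L) ∉ A.nonunits) {ζ : L} (hζ : IsPrimitiveRoot ζ M) {x : L} (hx : x ^ M = 1)
    (t : ℕ) (hsub : x - ζ ^ t ∈ A.nonunits) : x = ζ ^ t := by
  obtain ⟨n, rfl⟩ : ∃ n, M = n + 1 := ⟨M - 1, by omega⟩
  have hζA : ζ ∈ A :=
    Fermat.Agent.S14.H31.mem_valuationSubring_of_pow_eq_one A (Nat.succ_ne_zero n) hζ.pow_eq_one
  have hpowA : ∀ k : ℕ, ζ ^ k ∈ A := fun k => pow_mem hζA k
  obtain ⟨a, -, ha⟩ := hζ.eq_pow_of_pow_eq_one hx
  by_contra hne
  have hinv : ζ ^ t * ζ ^ (n * t) = 1 := by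
    rw [← pow_add, show t + n * t = (n + 1) * t by ring, pow_mul, hζ.pow_eq_one, one_pow]
  set η : L := x * ζ ^ (n * t) with hη
  have hη1 : η ≠ 1 := by
    intro h1
    apply hne
    have : x * ζ ^ (n * t) = ζ ^ t * ζ ^ (n * t) := by rw [hinv]; exact h1
    exact mul_right_cancel₀ (pow_ne_zero _ (hζ.ne_zero (Nat.succ_ne_zero n))) this
  have hηpow : η = ζ ^ (a + n * t) := by rw [hη, ← ha, pow_add]
  have hηmem : η - 1 ∈ A.nonunits := by
    have h1 : η - 1 = (x - ζ ^ t) * ζ ^ (n * t) := by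
      rw [sub_mul, hinv]
    rw [h1, ValuationSubring.mem_nonunits_iff, map_mul]
    rw [ValuationSubring.mem_nonunits_iff] at hsub
    exact mul_lt_one_of_lt_of_le hsub ((A.valuation_le_one_iff _).mpr (hpowA _))
  set m : ℕ := (a + n * t) % (n + 1) with hm
  have hηm : η = ζ ^ m := by
    rw [hηpow, hm]
    conv_lhs => rw [← Nat.div_add_mod (a + n * t) (n + 1), pow_add, pow_mul, hζ.pow_eq_one,
      one_pow, one_mul]
  have hmlt : m < n + 1 := Nat.mod_lt _ (Nat.succ_pos n)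
  have hm0 : m ≠ 0 := by
    intro h0
    rw [h0, pow_zero] at hηm
    exact hη1 hηm
  obtain ⟨k, hk⟩ : ∃ k, m = k + 1 := ⟨m - 1, by omega⟩
  have hkn : k ∈ Finset.range n := Finset.mem_range.mpr (by omega)
  have hprod := hζ.prod_one_sub_pow_eq_order
  apply hMA
  rw [Nat.cast_add, Nat.cast_one, ← hprod, ← Finset.mul_prod_erase _ _ hkn,
    ValuationSubring.mem_nonunits_iff, map_mul]
  have h1 : A.valuation (1 - ζ ^ (k + 1)) < 1 := by
    rw [← ValuationSubring.mem_nonunits_iff, ← hk, ← hηm]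
    have : (1 : L) - η = -(η - 1) := by ring
    rw [this]
    rw [ValuationSubring.mem_nonunits_iff, Valuation.map_neg,
      ← ValuationSubring.mem_nonunits_iff]
    exact hηmem
  have h2 : A.valuation (∏ x ∈ (Finset.range n).erase k, (1 - ζ ^ (x + 1))) ≤ 1 := by
    rw [A.valuation_le_one_iff]
    exact prod_mem fun i _ => sub_mem (one_mem A) (hpowA _)
  exact mul_lt_one_of_lt_of_le h1 h2

/-- Elements of the inertia group act trivially modulo the maximal ideal. -/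
theorem sub_mem_nonunits_of_mem_inertiaSubgroupIn {A : ValuationSubring L} {σ : L ≃ₐ[K] L}
    (hσ : σ ∈ A.inertiaSubgroupIn K) {x : L} (hx : x ∈ A) : σ x - x ∈ A.nonunits := by
  obtain ⟨τ, hτ, rfl⟩ := hσ
  have hker : MulSemiringAction.toRingAut (A.decompositionSubgroup K)
      (IsLocalRing.ResidueField A) τ = 1 := hτ
  have h1 : τ • (IsLocalRing.residue A ⟨x, hx⟩) = IsLocalRing.residue A ⟨x, hx⟩ := by
    have := congrArg (fun f : RingAut (IsLocalRing.ResidueField A) =>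
      f (IsLocalRing.residue A ⟨x, hx⟩)) hker
    simpa using this
  rw [← IsLocalRing.ResidueField.residue_smul] at h1
  have h2 : IsLocalRing.residue A (τ • (⟨x, hx⟩ : A) - ⟨x, hx⟩) = 0 := by
    rw [map_sub, h1, sub_self]
  rw [IsLocalRing.residue_eq_zero_iff] at h2
  exact (ValuationSubring.coe_mem_nonunits_iff (A := A)).2 h2

/-- Inertia at `A` fixes the roots of unity whose order is a unit at `A`. -/
theorem inertia_apply_of_pow_eq_one {A : ValuationSubring L} {σ : L ≃ₐ[K] L}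
    (hσ : σ ∈ A.inertiaSubgroupIn K) {M : ℕ} (hMpos : 0 < M) (hMA : (M : L) ∉ A.nonunits)
    {μ : L} (hμ : μ ^ M = 1) : σ μ = μ := by
  -- reduce to a primitive root: `μ` is primitive of order `d ∣ M`
  have hd : orderOf μ ∣ M := orderOf_dvd_of_pow_eq_one hμ
  have hdpos : 0 < orderOf μ := Nat.pos_of_dvd_of_pos hd hMpos
  have hprim : IsPrimitiveRoot μ (orderOf μ) := IsPrimitiveRoot.orderOf μ
  have hdA : ((orderOf μ : ℕ) : L) ∉ A.nonunits := by
    intro h
    apply hMA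
    obtain ⟨c, hc⟩ := hd
    rw [hc, Nat.cast_mul, ValuationSubring.mem_nonunits_iff, map_mul]
    rw [ValuationSubring.mem_nonunits_iff] at h
    exact mul_lt_one_of_lt_of_le h ((A.valuation_le_one_iff _).mpr (natCast_mem A c))
  have hμA : μ ∈ A :=
    Fermat.Agent.S14.H31.mem_valuationSubring_of_pow_eq_one A hMpos.ne' hμ
  have h1 : (σ μ) ^ orderOf μ = 1 := by rw [← map_pow, pow_orderOf_eq_one, map_one]
  have h2 := eq_pow_of_sub_mem_nonunits hdpos hdA hprim h1 1 (by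
    rw [pow_one]; exact sub_mem_nonunits_of_mem_inertiaSubgroupIn hσ hμA)
  rwa [pow_one] at h2

end Roots

section Cyclo

variable (p : ℕ) [hp : Fact p.Prime] {O : Type*} [CommRing O] (I : Ideal O) [IsAdicComplete I O]

local instance neZero_of_fact_prime : NeZero p := ⟨hp.out.ne_zero⟩

/-- Mathlib's `p`-adic cyclotomic character of `ℚ̄`, as a character of `G_ℚ`. -/
def cycloZp : GQ →* ℤ_[p]ˣ :=
  (cyclotomicCharacter Qbar p).comp (MulSemiringAction.toRingAut GQ Qbar)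

/-- The defining property of `cycloZp`. -/
theorem cycloZp_spec (σ : GQ) {n : ℕ} {μ : Qbar} (hμ : μ ^ p ^ n = 1) :
    σ μ = μ ^ (PadicInt.toZModPow n ((cycloZp p σ : ℤ_[p]ˣ) : ℤ_[p])).val :=
  cyclotomicCharacter.spec p (MulSemiringAction.toRingAut GQ Qbar σ) μ hμ

/-- `cycloZp σ mod p ^ n` is characterised by the action on `p ^ n`-th roots of unity. -/
theorem toZModPow_cycloZp_eq (n : ℕ) (σ : GQ) (a : ℕ)
    (h : ∀ μ : Qbar, μ ^ p ^ n = 1 → σ μ = μ ^ a) :
    PadicInt.toZModPow n ((cycloZp p σ : ℤ_[p]ˣ) : ℤ_[p]) = (a : ZMod (p ^ n)) := by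
  obtain ⟨ζ, hζ⟩ := HasEnoughRootsOfUnity.exists_primitiveRoot Qbar (p ^ n)
  have h1 := cycloZp_spec p σ hζ.pow_eq_one
  rw [h ζ hζ.pow_eq_one] at h1
  have hpos : 0 < p ^ n := pow_pos hp.out.pos n
  rw [(hζ.isOfFinOrder hpos.ne').pow_inj_mod, ← hζ.eq_orderOf] at h1
  have h2 : ((a : ℕ) : ZMod (p ^ n)) =
      (((PadicInt.toZModPow n ((cycloZp p σ : ℤ_[p]ˣ) : ℤ_[p])).val : ℕ) : ZMod (p ^ n)) := by
    rw [ZMod.natCast_eq_natCast_iff']
    exact h1
  rw [h2, ZMod.natCast_zmod_val]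

/-- The `p`-adic cyclotomic character of `G_ℚ` with values in `Oˣ`. -/
def cycloAdic (hpI : (p : O) ∈ I) : GQ →* Oˣ :=
  (Units.map (padicIntTo p I hpI : ℤ_[p] →* O)).comp (cycloZp p)

theorem coe_cycloAdic (hpI : (p : O) ∈ I) (σ : GQ) :
    ((cycloAdic p I hpI σ : Oˣ) : O) = padicIntTo p I hpI ((cycloZp p σ : ℤ_[p]ˣ) : ℤ_[p]) := rfl

/-- **(E1)** The defining congruences of the cyclotomic character (shape of the prelude's
`DetIsCyclotomic`). -/
theorem cycloAdic_sub_natCast_mem (hpI : (p : O) ∈ I) (n : ℕ) (σ : GQ) (a : ℕ)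
    (h : ∀ μ : Qbar, μ ^ p ^ n = 1 → σ μ = μ ^ a) :
    ((cycloAdic p I hpI σ : Oˣ) : O) - (a : O) ∈ Ideal.span {((p ^ n : ℕ) : O)} := by
  rw [coe_cycloAdic]
  exact padicIntTo_sub_natCast_mem p I hpI (toZModPow_cycloZp_eq p n σ a h)

/-- **(E2)** Elements agreeing on the `p ^ n`-th roots of unity have congruent values. -/
theorem cycloAdic_congr (hpI : (p : O) ∈ I) (n : ℕ) (σ τ : GQ)
    (h : ∀ μ : Qbar, μ ^ p ^ n = 1 → σ μ = τ μ) :
    ((cycloAdic p I hpI σ : Oˣ) : O) - ((cycloAdic p I hpI τ : Oˣ) : O) ∈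
      Ideal.span {((p ^ n : ℕ) : O)} := by
  rw [coe_cycloAdic, coe_cycloAdic]
  apply padicIntTo_sub_mem
  rw [toZModPow_cycloZp_eq p n σ
    (PadicInt.toZModPow n ((cycloZp p τ : ℤ_[p]ˣ) : ℤ_[p])).val
    (fun μ hμ => by rw [h μ hμ]; exact cycloZp_spec p τ hμ), ZMod.natCast_zmod_val]

/-- If `σ` acts on all `p`-power roots of unity as `μ ↦ μ ^ a` then `ε(σ) = a`. -/
theorem cycloAdic_eq_natCast (hpI : (p : O) ∈ I) (σ : GQ) (a : ℕ)
    (h : ∀ n : ℕ, ∀ μ : Qbar, μ ^ p ^ n = 1 → σ μ = μ ^ a) :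
    ((cycloAdic p I hpI σ : Oˣ) : O) = (a : O) :=
  eq_of_forall_sub_mem_span p I hpI fun n => cycloAdic_sub_natCast_mem p I hpI n σ a (h n)

/-- **(E3)** `ε(Frob_ℓ) = ℓ` for every Frobenius element at a place over `ℓ ≠ p`. -/
theorem cycloAdic_frobenius (hpI : (p : O) ∈ I) {ℓ : ℕ} (hℓ : ℓ.Prime) (hℓp : ℓ ≠ p)
    {A : ValuationSubring Qbar} (hA : A.LiesOverPrime ℓ) {σ : GQ} (hσ : A.IsFrobeniusAt σ ℓ) :
    ((cycloAdic p I hpI σ : Oˣ) : O) = (ℓ : O) := by
  refine cycloAdic_eq_natCast p I hpI σ ℓ fun n μ hμ => ?_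
  have hd : orderOf μ ∣ p ^ n := orderOf_dvd_of_pow_eq_one hμ
  have hcop : ℓ.Coprime (orderOf μ) :=
    Nat.Coprime.coprime_dvd_right hd
      (Nat.Coprime.pow_right n ((Nat.coprime_primes hℓ hp.out).mpr hℓp))
  exact Fermat.Agent.S14.H31.map_primitiveRoot_of_isFrobeniusAt hA hσ
    (IsPrimitiveRoot.orderOf μ) hcop

/-- `p ^ n` is a unit at every place over a prime `q ≠ p`. -/
theorem natCast_pow_not_mem_nonunits {q : ℕ} (hq : q.Prime) (hqp : q ≠ p)
    {A : ValuationSubring Qbar} (hA : A.LiesOverPrime q) (n : ℕ) :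
    ((p ^ n : ℕ) : Qbar) ∉ A.nonunits :=
  Fermat.Agent.S14.H31.natCast_not_mem_nonunits_of_coprime hA
    (Nat.Coprime.pow_right n ((Nat.coprime_primes hq hp.out).mpr hqp))

/-- **(E4)** `ε` is unramified at every prime `q ≠ p`. -/
theorem cycloAdic_inertia (hpI : (p : O) ∈ I) {q : ℕ} (hq : q.Prime) (hqp : q ≠ p)
    {A : ValuationSubring Qbar} (hA : A.LiesOverPrime q) {σ : GQ}
    (hσ : σ ∈ A.inertiaSubgroupIn ℚ) : cycloAdic p I hpI σ = 1 := by
  apply Units.ext
  rw [Units.val_one]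
  have h := cycloAdic_eq_natCast p I hpI σ 1 fun n μ hμ => by
    rw [pow_one]
    exact inertia_apply_of_pow_eq_one hσ (pow_pos hp.out.pos n)
      (natCast_pow_not_mem_nonunits p hq hqp hA n) hμ
  rw [h, Nat.cast_one]

/-- Complex conjugation inverts roots of unity. -/
theorem complexConjugation_apply_of_pow_eq_one {M : ℕ} (hM : 0 < M) {μ : Qbar}
    (hμ : μ ^ M = 1) : complexConjugation μ = μ ^ (M - 1) := by
  apply complexEmbedding.toRingHom.injective
  change complexEmbedding (complexConjugation μ) = complexEmbedding (μ ^ (M - 1))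
  rw [complexEmbedding_complexConjugation, map_pow]
  set z : ℂ := complexEmbedding μ with hz
  have hzM : z ^ M = 1 := by rw [hz, ← map_pow, hμ, map_one]
  have hnorm : ‖z‖ = 1 := Complex.norm_eq_one_of_pow_eq_one hzM hM.ne'
  have hz0 : z ≠ 0 := by
    intro h0
    rw [h0, norm_zero] at hnorm
    exact zero_ne_one hnorm
  have hinv : (starRingEnd ℂ) z = z⁻¹ := by
    rw [Complex.inv_def, Complex.normSq_eq_norm_sq, hnorm]
    simp
  rw [hinv]
  have h1 : z ^ (M - 1) * z = 1 := by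
    rw [← pow_succ, Nat.sub_add_cancel hM, hzM]
  exact (eq_inv_of_mul_eq_one_left h1).symm

/-- **(E5)** `ε(c) = -1` for the prelude's complex conjugation `c`. -/
theorem cycloAdic_complexConjugation (hpI : (p : O) ∈ I) :
    cycloAdic p I hpI complexConjugation = -1 := by
  apply Units.ext
  rw [Units.val_neg, Units.val_one]
  refine eq_of_forall_sub_mem_span p I hpI fun n => ?_
  have hpos : 0 < p ^ n := pow_pos hp.out.pos n
  have h := cycloAdic_sub_natCast_mem p I hpI n complexConjugation (p ^ n - 1) fun μ hμ =>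
    complexConjugation_apply_of_pow_eq_one hpos hμ
  have h2 : ((cycloAdic p I hpI complexConjugation : Oˣ) : O) - (-1 : O) =
      (((cycloAdic p I hpI complexConjugation : Oˣ) : O) - ((p ^ n - 1 : ℕ) : O)) +
        ((p ^ n : ℕ) : O) := by
    rw [Nat.cast_sub hpos, Nat.cast_one]
    ring
  rw [h2]
  exact Ideal.add_mem _ h (Ideal.subset_span rfl)

/-- **(E6)** Finite-level continuity: `ε ≡ 1 mod p ^ n` on the subgroup fixing `ℚ(ζ_{p^n})`. -/
theorem cycloAdic_continuity (hpI : (p : O) ∈ I) (n : ℕ) :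
    ∃ L : IntermediateField ℚ Qbar, FiniteDimensional ℚ L ∧
      ∀ σ : GQ, (∀ x ∈ L, σ x = x) →
        ((cycloAdic p I hpI σ : Oˣ) : O) - 1 ∈ Ideal.span {((p ^ n : ℕ) : O)} := by
  obtain ⟨ζ, hζ⟩ := HasEnoughRootsOfUnity.exists_primitiveRoot Qbar (p ^ n)
  have hpos : 0 < p ^ n := pow_pos hp.out.pos n
  refine ⟨IntermediateField.adjoin ℚ {ζ},
    IntermediateField.adjoin.finiteDimensional ((hζ.isIntegral hpos).tower_top), fun σ hσ => ?_⟩
  have hfix : σ ζ = ζ := hσ ζ (IntermediateField.mem_adjoin_simple_self ℚ ζ)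
  have h := cycloAdic_sub_natCast_mem p I hpI n σ 1 fun μ hμ => by
    obtain ⟨i, -, rfl⟩ := hζ.eq_pow_of_pow_eq_one hμ
    rw [map_pow, hfix, pow_one]
  rwa [Nat.cast_one] at h

/-- **(E7)** Uniqueness: a character satisfying the congruences (E1) is `cycloAdic`. -/
theorem eq_cycloAdic_of_spec (hpI : (p : O) ∈ I) (d : GQ →* Oˣ)
    (h : ∀ (n : ℕ) (σ : GQ) (a : ℕ), (∀ μ : Qbar, μ ^ p ^ n = 1 → σ μ = μ ^ a) →
      ((d σ : Oˣ) : O) - (a : O) ∈ Ideal.span {((p ^ n : ℕ) : O)}) :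
    d = cycloAdic p I hpI := by
  refine MonoidHom.ext fun σ => Units.ext ?_
  refine eq_of_forall_sub_mem_span p I hpI fun n => ?_
  set a : ℕ := (PadicInt.toZModPow n ((cycloZp p σ : ℤ_[p]ˣ) : ℤ_[p])).val with ha
  have h1 := h n σ a fun μ hμ => cycloZp_spec p σ hμ
  have h2 := cycloAdic_sub_natCast_mem p I hpI n σ a fun μ hμ => cycloZp_spec p σ hμ
  have h3 : ((d σ : Oˣ) : O) - ((cycloAdic p I hpI σ : Oˣ) : O) =
      (((d σ : Oˣ) : O) - (a : O)) - (((cycloAdic p I hpI σ : Oˣ) : O) - (a : O)) := by ring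
  rw [h3]
  exact Ideal.sub_mem _ h1 h2

end Cyclo

end Fermat.Agent.S30.H68
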