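/-
S30 (coordinator helper57): the MIDPOINT interface.

`Midpoint p N S 𝒪' χ` is what the TATE layer (`H57_Tate`, `H57_TateRep`, Stage 2/3 inputs) produces
and what the algebra layer (helper31's `H31_AdicQuad`, `H31_OddQuadRep`, `H31_AdicLattice`,
density instance, cyclotomic character) consumes: a nonzero finite free `𝒪'`-module with an
adic-continuous Galois action, unramified outside `Np`, on which every Frobenius lift at a good
prime `ℓ` satisfies `X² - χ(T_ℓ) X + ℓ = 0`.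

The final assembly is `Midpoint p N S 𝒪' χ → (frozen S30 conclusion with 𝒪'' := 𝒪')`.
-/
import Fermat.Prelude.Def_CuspForm_HeckeGaloisRepDatum

set_option autoImplicit false

namespace Fermat.Agent.S30.H57

open CuspForm

/-- The midpoint of the S30 pipeline. -/
def Midpoint (p N : ℕ) [NeZero N] (S : Finset ℕ) (𝒪' : Type) [CommRing 𝒪'] [IsLocalRing 𝒪']
    (χ : heckeAlgebra N 2 (↑S : Set ℕ) →+* 𝒪') : Prop :=
  ∃ (M : Type) (_ : AddCommGroup M) (_ : Module 𝒪' M) (_ : Module.Free 𝒪' M)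
    (_ : Module.Finite 𝒪' M)
    (ρ : (AlgebraicClosure ℚ ≃ₐ[ℚ] AlgebraicClosure ℚ) →* Module.End 𝒪' M),
    Nontrivial M ∧ GaloisActionIsAdicContinuous 𝒪' ρ ∧
    (∀ q : ℕ, q.Prime → ¬ q ∣ N → q ≠ p →
      ∀ P : ValuationSubring (AlgebraicClosure ℚ), P.LiesOverPrime q →
        ∀ σ ∈ P.inertiaSubgroupIn ℚ, ρ σ = 1) ∧
    (∀ (ℓ : ℕ) (hℓ : ℓ.Prime) (hℓN : ¬ ℓ ∣ N) (hℓS : ℓ ∉ (↑S : Set ℕ)),
      ∀ A : ValuationSubring (AlgebraicClosure ℚ), A.LiesOverPrime ℓ →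
        ∀ σ : AlgebraicClosure ℚ ≃ₐ[ℚ] AlgebraicClosure ℚ, A.IsFrobeniusAt σ ℓ →
          ρ σ * ρ σ = χ (heckeAlgebra.T hℓ hℓN hℓS) • ρ σ - (ℓ : 𝒪') • (1 : Module.End 𝒪' M))

end Fermat.Agent.S30.H57
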