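/-
S30 / TATE layer (helper57), part 1: the ABSTRACT `p`-adic Tate module of an abelian group.

For an abelian group `J` and a prime `p`, `Tate p J` is the group of sequences `(x_k)` in `J` with
`x_0 = 0` and `p • x_{k+1} = x_k` (so `x_k ∈ J[p^k]`).  This file provides

* the `ℤ_[p]`-module structure (`a ∈ ℤ_p` acts on the `k`-th component through `a mod p^k`);
* functoriality `Tate.mapRingHom : AddMonoid.End J →+* Module.End ℤ_[p] (Tate p J)`;
* `Tate.comp_eq_zero_iff'` : the kernel of the `k`-th component is `p^k T_p J`, and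
  `Tate.mem_pow_smul_top_iff` (the same for `𝔪^k • ⊤`);
* `IsHausdorff`, `Module.IsTorsionFree`;
* `Tate.finite_of_finite_torsion`, `Tate.free_of_finite_torsion` : if `J[p]` is finite then
  `T_p J` is a finite free `ℤ_p`-module (topological Nakayama);
* transfer lemmas: endomorphisms agreeing on the `p`-power torsion induce the same map; an
  endomorphism fixing `J[p^k]` is `≡ 1` modulo `p^k`;
* `finite_torsion_pow` : `J[p]` finite ⇒ `J[p^k]` finite.

Mathlib + the prelude lemma `IsAdicComplete.of_module_finite` only.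
-/
import Mathlib
import Fermat.Prelude.Thm_IsAdicComplete_of_module_finite

set_option autoImplicit false

namespace Fermat.Agent.S30.H57

noncomputable section

section Basic

variable (p : ℕ) (J : Type*) [AddCommGroup J]

/-- Compatible sequences `x_k ∈ J` with `x_0 = 0` and `p • x_{k+1} = x_k` (so `x_k ∈ J[p^k]`). -/
def tateSubgroup : AddSubgroup (ℕ → J) where
  carrier := {x | x 0 = 0 ∧ ∀ k, p • x (k + 1) = x k}
  zero_mem' := ⟨rfl, fun _ => smul_zero _⟩
  add_mem' := by
    rintro x y ⟨hx0, hx⟩ ⟨hy0, hy⟩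
    refine ⟨by rw [Pi.add_apply, hx0, hy0, add_zero], fun k => ?_⟩
    rw [Pi.add_apply, Pi.add_apply, smul_add, hx, hy]
  neg_mem' := by
    rintro x ⟨hx0, hx⟩
    refine ⟨by rw [Pi.neg_apply, hx0, neg_zero], fun k => ?_⟩
    rw [Pi.neg_apply, Pi.neg_apply, smul_neg, hx]

/-- The `p`-adic Tate module `T_p J = lim J[p^k]` of an abelian group. -/
def Tate : Type _ := ↥(tateSubgroup p J)

instance : AddCommGroup (Tate p J) := inferInstanceAs (AddCommGroup ↥(tateSubgroup p J))

end Basic

namespace Tate

variable {p : ℕ} {J : Type*} [AddCommGroup J]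

/-- The `k`-th component. -/
def comp (x : Tate p J) (k : ℕ) : J := x.1 k

theorem comp_zero (x : Tate p J) : x.comp 0 = 0 := x.2.1

theorem smul_comp_succ (x : Tate p J) (k : ℕ) : p • x.comp (k + 1) = x.comp k := x.2.2 k

@[ext] theorem ext {x y : Tate p J} (h : ∀ k, x.comp k = y.comp k) : x = y :=
  Subtype.ext (funext h)

@[simp] theorem add_comp (x y : Tate p J) (k : ℕ) : (x + y).comp k = x.comp k + y.comp k := rfl
@[simp] theorem zero_comp (k : ℕ) : (0 : Tate p J).comp k = 0 := rfl
@[simp] theorem neg_comp (x : Tate p J) (k : ℕ) : (-x).comp k = -x.comp k := rfl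
@[simp] theorem sub_comp (x y : Tate p J) (k : ℕ) : (x - y).comp k = x.comp k - y.comp k := rfl

/-- The `k`-th component as an additive homomorphism. -/
def compHom (k : ℕ) : Tate p J →+ J where
  toFun x := x.comp k
  map_zero' := rfl
  map_add' _ _ := rfl

@[simp] theorem compHom_apply (k : ℕ) (x : Tate p J) : compHom k x = x.comp k := rfl

@[simp] theorem nsmul_comp (n : ℕ) (x : Tate p J) (k : ℕ) : (n • x).comp k = n • x.comp k :=
  map_nsmul (compHom k) n x

@[simp] theorem zsmul_comp (n : ℤ) (x : Tate p J) (k : ℕ) : (n • x).comp k = n • x.comp k :=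
  map_zsmul (compHom k) n x

theorem pow_smul_comp (x : Tate p J) (k : ℕ) : p ^ k • x.comp k = 0 := by
  induction k with
  | zero => rw [pow_zero, one_smul, comp_zero]
  | succ k ih => rw [pow_succ, mul_smul, smul_comp_succ, ih]

theorem pow_smul_comp_add (x : Tate p J) (j k : ℕ) : p ^ k • x.comp (j + k) = x.comp j := by
  induction k with
  | zero => rw [pow_zero, one_smul, add_zero]
  | succ k ih => rw [pow_succ, mul_smul, ← add_assoc, smul_comp_succ, ih]

/-- Construct an element from a compatible sequence. -/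
def mk (f : ℕ → J) (h0 : f 0 = 0) (h : ∀ k, p • f (k + 1) = f k) : Tate p J := ⟨f, h0, h⟩

@[simp] theorem mk_comp (f : ℕ → J) (h0 : f 0 = 0) (h : ∀ k, p • f (k + 1) = f k) (k : ℕ) :
    (mk f h0 h : Tate p J).comp k = f k := rfl

/-- The shift `y_j = x_{j+k}` of an element whose `k`-th component vanishes. -/
def shift (x : Tate p J) (k : ℕ) (h : x.comp k = 0) : Tate p J :=
  mk (fun j => x.comp (j + k)) (by rw [zero_add, h]) (fun j => by
    have : j + 1 + k = j + k + 1 := by omega
    rw [this, smul_comp_succ])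

theorem pow_smul_shift (x : Tate p J) (k : ℕ) (h : x.comp k = 0) : p ^ k • x.shift k h = x := by
  ext j
  rw [nsmul_comp, shift, mk_comp, pow_smul_comp_add]

/-- The kernel of the `k`-th component is `p^k T_p`. -/
theorem comp_eq_zero_iff (x : Tate p J) (k : ℕ) : x.comp k = 0 ↔ ∃ y : Tate p J, x = p ^ k • y := by
  constructor
  · intro h
    exact ⟨x.shift k h, (pow_smul_shift x k h).symm⟩
  · rintro ⟨y, rfl⟩
    rw [nsmul_comp, pow_smul_comp]

theorem eq_zero_of_smul_eq_zero (x : Tate p J) (h : p • x = 0) : x = 0 := by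
  ext k
  rw [← smul_comp_succ, ← nsmul_comp, h, zero_comp, zero_comp]

theorem nsmul_eq_of_natCast_eq {y : J} {k : ℕ} (hy : p ^ k • y = 0) {m n : ℕ}
    (h : (m : ZMod (p ^ k)) = n) : m • y = n • y := by
  have key : ∀ {m n : ℕ}, m ≤ n → (m : ZMod (p ^ k)) = n → m • y = n • y := by
    intro m n hmn h
    have h1 : m ≡ n [MOD p ^ k] := (ZMod.natCast_eq_natCast_iff m n (p ^ k)).mp h
    obtain ⟨c, hc⟩ := (Nat.modEq_iff_dvd' hmn).mp h1
    have h2 : n = m + p ^ k * c := by omega
    rw [h2, add_smul, mul_comm, mul_smul, hy, smul_zero, add_zero]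
  rcases le_total m n with hmn | hmn
  · exact key hmn h
  · exact (key hmn h.symm).symm


section ZpModule

variable [hp : Fact p.Prime]

instance : SMul ℤ_[p] (Tate p J) where
  smul a x := mk (fun k => (PadicInt.toZModPow k a).val • x.comp k)
    (by rw [comp_zero, smul_zero])
    (fun k => by
      rw [smul_comm, smul_comp_succ]
      apply nsmul_eq_of_natCast_eq (pow_smul_comp x k)
      rw [ZMod.natCast_val, PadicInt.cast_toZModPow k (k + 1) (Nat.le_succ k), ZMod.natCast_zmod_val])

theorem smul_comp (a : ℤ_[p]) (x : Tate p J) (k : ℕ) :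
    (a • x).comp k = (PadicInt.toZModPow k a).val • x.comp k := rfl

/-- The action of `a ∈ ℤ_p` on the `k`-th component is by any natural number congruent to `a`
modulo `p^k`. -/
theorem smul_comp_eq (a : ℤ_[p]) (x : Tate p J) (k : ℕ) (n : ℕ)
    (h : (n : ZMod (p ^ k)) = PadicInt.toZModPow k a) : (a • x).comp k = n • x.comp k := by
  rw [smul_comp]
  apply nsmul_eq_of_natCast_eq (pow_smul_comp x k)
  rw [ZMod.natCast_zmod_val, h]

instance : Module ℤ_[p] (Tate p J) where
  one_smul x := by
    ext k
    rw [smul_comp_eq 1 x k 1 (by rw [Nat.cast_one, map_one]), one_smul]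
  mul_smul a b x := by
    ext k
    rw [smul_comp_eq (a * b) x k ((PadicInt.toZModPow k a).val * (PadicInt.toZModPow k b).val)
      (by rw [Nat.cast_mul, ZMod.natCast_zmod_val, ZMod.natCast_zmod_val, map_mul]),
      smul_comp, smul_comp, mul_smul]
  smul_zero a := by
    ext k
    rw [smul_comp, zero_comp, smul_zero]
  smul_add a x y := by
    ext k
    rw [smul_comp, add_comp, add_comp, smul_comp, smul_comp, smul_add]
  add_smul a b x := by
    ext k
    rw [smul_comp_eq (a + b) x k ((PadicInt.toZModPow k a).val + (PadicInt.toZModPow k b).val)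
      (by rw [Nat.cast_add, ZMod.natCast_zmod_val, ZMod.natCast_zmod_val, map_add]),
      add_comp, smul_comp, smul_comp, add_smul]
  zero_smul x := by
    ext k
    rw [smul_comp_eq 0 x k 0 (by rw [Nat.cast_zero, map_zero]), zero_smul, zero_comp]

theorem natCast_smul_comp (n : ℕ) (x : Tate p J) (k : ℕ) :
    ((n : ℤ_[p]) • x).comp k = n • x.comp k := by
  rw [Nat.cast_smul_eq_nsmul, nsmul_comp]

end ZpModule


section Functorial

variable [hp : Fact p.Prime]

/-- An additive endomorphism of `J` acts on `T_p J`, `ℤ_p`-linearly. -/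
def map (f : J →+ J) : Tate p J →ₗ[ℤ_[p]] Tate p J where
  toFun x := mk (fun k => f (x.comp k)) (by rw [comp_zero, map_zero])
    (fun k => by rw [← map_nsmul, smul_comp_succ])
  map_add' x y := by
    ext k
    simp only [mk_comp, add_comp, map_add]
  map_smul' a x := by
    ext k
    simp only [mk_comp, smul_comp, map_nsmul, RingHom.id_apply]

@[simp] theorem map_comp (f : J →+ J) (x : Tate p J) (k : ℕ) : (map f x).comp k = f (x.comp k) :=
  rfl

/-- Functoriality, as a ring homomorphism `End(J) → End_{ℤ_p}(T_p J)`. -/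
def mapRingHom : AddMonoid.End J →+* Module.End ℤ_[p] (Tate p J) where
  toFun f := map f
  map_one' := by
    refine LinearMap.ext fun x => ?_
    ext k
    rfl
  map_mul' f g := by
    refine LinearMap.ext fun x => ?_
    ext k
    rfl
  map_zero' := by
    refine LinearMap.ext fun x => ?_
    ext k
    rfl
  map_add' f g := by
    refine LinearMap.ext fun x => ?_
    ext k
    rfl

@[simp] theorem mapRingHom_apply_comp (f : AddMonoid.End J) (x : Tate p J) (k : ℕ) :
    (mapRingHom (p := p) f x).comp k = f (x.comp k) := rfl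

end Functorial

section Structure

variable [hp : Fact p.Prime]

theorem natCast_pow_smul_eq (k : ℕ) (y : Tate p J) : ((p : ℤ_[p]) ^ k) • y = p ^ k • y := by
  rw [← Nat.cast_pow, Nat.cast_smul_eq_nsmul]

/-- `x_k = 0` iff `x ∈ p^k T_p` (`ℤ_p`-module form). -/
theorem comp_eq_zero_iff' (x : Tate p J) (k : ℕ) :
    x.comp k = 0 ↔ ∃ y : Tate p J, x = ((p : ℤ_[p]) ^ k) • y := by
  rw [comp_eq_zero_iff]
  simp only [natCast_pow_smul_eq]

theorem comp_eq_zero_of_mem (k : ℕ) {x : Tate p J}
    (hx : x ∈ (IsLocalRing.maximalIdeal ℤ_[p] ^ k • ⊤ : Submodule ℤ_[p] (Tate p J))) :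
    x.comp k = 0 := by
  rw [PadicInt.maximalIdeal_eq_span_p, Ideal.span_singleton_pow] at hx
  refine Submodule.smul_induction_on hx ?_ ?_
  · intro a ha y _
    obtain ⟨b, rfl⟩ := Ideal.mem_span_singleton.mp ha
    rw [mul_smul, natCast_pow_smul_eq, nsmul_comp, pow_smul_comp]
  · intro x y hx hy
    rw [add_comp, hx, hy, add_zero]

theorem mem_of_comp_eq_zero (k : ℕ) {x : Tate p J} (hx : x.comp k = 0) :
    x ∈ (IsLocalRing.maximalIdeal ℤ_[p] ^ k • ⊤ : Submodule ℤ_[p] (Tate p J)) := by
  obtain ⟨y, rfl⟩ := (comp_eq_zero_iff' x k).mp hx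
  refine Submodule.smul_mem_smul ?_ Submodule.mem_top
  rw [PadicInt.maximalIdeal_eq_span_p, Ideal.span_singleton_pow]
  exact Ideal.mem_span_singleton_self _

theorem mem_pow_smul_top_iff (k : ℕ) (x : Tate p J) :
    x ∈ (IsLocalRing.maximalIdeal ℤ_[p] ^ k • ⊤ : Submodule ℤ_[p] (Tate p J)) ↔ x.comp k = 0 :=
  ⟨comp_eq_zero_of_mem k, mem_of_comp_eq_zero k⟩

instance : IsHausdorff (IsLocalRing.maximalIdeal ℤ_[p]) (Tate p J) where
  haus' x hx := by
    ext k
    have := hx k
    rw [SModEq.zero] at this
    rw [zero_comp]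
    exact comp_eq_zero_of_mem k this

instance : Module.IsTorsionFree ℤ_[p] (Tate p J) := by
  apply Module.IsTorsionFree.of_smul_eq_zero
  intro a x hax
  by_cases ha : a = 0
  · exact Or.inl ha
  right
  have h1 := PadicInt.unitCoeff_spec ha
  rw [h1, mul_smul] at hax
  have h2 : ((p : ℤ_[p]) ^ a.valuation) • x = 0 := by
    have := congrArg (fun z => ((PadicInt.unitCoeff ha)⁻¹ : ℤ_[p]ˣ) • z) hax
    simpa [Units.smul_def, smul_smul] using this
  rw [natCast_pow_smul_eq] at h2
  have h3 : ∀ n : ℕ, ∀ y : Tate p J, p ^ n • y = 0 → y = 0 := by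
    intro n
    induction n with
    | zero => intro y hy; rwa [pow_zero, one_smul] at hy
    | succ n ih =>
      intro y hy
      rw [pow_succ, mul_smul] at hy
      exact eq_zero_of_smul_eq_zero y (ih _ hy)
  exact h3 _ x h2


/-- **Finiteness**: if `J[p]` is finite then `T_p J` is a finitely generated `ℤ_p`-module
(topological Nakayama). -/
theorem finite_of_finite_torsion (hfin : Set.Finite {y : J | p • y = 0}) :
    Module.Finite ℤ_[p] (Tate p J) := by
  classical
  set S : Set J := Set.range (fun x : Tate p J => x.comp 1) with hS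
  have hSfin : S.Finite := by
    refine hfin.subset ?_
    rintro _ ⟨x, rfl⟩
    show p • x.comp 1 = 0
    rw [← zero_add 1, smul_comp_succ, comp_zero]
  let _ : Fintype S := hSfin.fintype
  let v : S → Tate p J := fun s => Classical.choose s.2
  have hv : ∀ s : S, (v s).comp 1 = s.1 := fun s => Classical.choose_spec s.2
  let f : (S → ℤ_[p]) →ₗ[ℤ_[p]] Tate p J := Fintype.linearCombination ℤ_[p] v
  have : IsAdicComplete (IsLocalRing.maximalIdeal ℤ_[p]) (S → ℤ_[p]) :=
    IsAdicComplete.of_module_finite _ _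
  have hsurj : Function.Surjective
      ((IsLocalRing.maximalIdeal ℤ_[p] • ⊤ : Submodule ℤ_[p] (Tate p J)).mkQ ∘ₗ f) := by
    intro q
    obtain ⟨y, rfl⟩ := Submodule.mkQ_surjective _ q
    let s : S := ⟨y.comp 1, y, rfl⟩
    refine ⟨Pi.single s 1, ?_⟩
    rw [LinearMap.comp_apply, Fintype.linearCombination_apply_single, one_smul]
    rw [Submodule.mkQ_apply, Submodule.mkQ_apply, Submodule.Quotient.eq]
    have h1 : (v s - y).comp 1 = 0 := by rw [sub_comp, hv s, sub_self]
    have := mem_of_comp_eq_zero 1 h1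
    rwa [pow_one] at this
  have hf : Function.Surjective f := surjective_of_mkQ_comp_surjective hsurj
  exact Module.Finite.of_surjective f hf

theorem free_of_finite_torsion (hfin : Set.Finite {y : J | p • y = 0}) :
    Module.Free ℤ_[p] (Tate p J) := by
  have := finite_of_finite_torsion hfin
  infer_instance


end Structure

section Transfer

variable [hp : Fact p.Prime]

/-- Two endomorphisms of `J` which agree on the `p`-power torsion induce the same map on `T_p J`. -/
theorem map_eq_of_eqOn_torsion {f g : J →+ J}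
    (h : ∀ y : J, (∃ n : ℕ, p ^ n • y = 0) → f y = g y) : map (p := p) f = map g := by
  refine LinearMap.ext fun x => ?_
  ext k
  rw [map_comp, map_comp]
  exact h _ ⟨k, pow_smul_comp x k⟩

/-- An endomorphism of `J` which is the identity on the `p`-power torsion induces the identity. -/
theorem map_eq_one_of_eqOn_torsion {f : J →+ J}
    (h : ∀ y : J, (∃ n : ℕ, p ^ n • y = 0) → f y = y) : map (p := p) f = 1 := by
  refine LinearMap.ext fun x => ?_
  ext k
  rw [map_comp, Module.End.one_apply]
  exact h _ ⟨k, pow_smul_comp x k⟩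

/-- An endomorphism of `J` fixing `J[p^k]` pointwise is congruent to the identity modulo
`p^k T_p J`. -/
theorem map_sub_mem_of_fixes {f : J →+ J} (k : ℕ) (h : ∀ y : J, p ^ k • y = 0 → f y = y)
    (x : Tate p J) :
    map f x - x ∈ (IsLocalRing.maximalIdeal ℤ_[p] ^ k • ⊤ : Submodule ℤ_[p] (Tate p J)) := by
  apply mem_of_comp_eq_zero
  rw [sub_comp, map_comp, h _ (pow_smul_comp x k), sub_self]

end Transfer

end Tate

/-- If `J[p]` is finite then so is `J[p^k]`. -/
theorem finite_torsion_pow {p : ℕ} {J : Type*} [AddCommGroup J]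
    (hfin : Set.Finite {y : J | p • y = 0}) (k : ℕ) : Set.Finite {y : J | p ^ k • y = 0} := by
  induction k with
  | zero =>
    refine (Set.finite_singleton (0 : J)).subset ?_
    intro y hy
    have hy' : p ^ 0 • y = 0 := hy
    rw [pow_zero, one_smul] at hy'
    exact hy'
  | succ k ih =>
    have hsub : {y : J | p ^ (k + 1) • y = 0} ⊆ (fun y : J => p • y) ⁻¹' {y : J | p ^ k • y = 0} := by
      intro y hy
      have hy' : p ^ (k + 1) • y = 0 := hy
      rw [pow_succ, mul_smul] at hy'
      exact hy'
    refine (Set.Finite.preimage' ih ?_).subset hsub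
    intro b _
    by_cases hb : ∃ y0 : J, p • y0 = b
    · obtain ⟨y0, rfl⟩ := hb
      refine (hfin.image (fun z => y0 + z)).subset ?_
      intro y hy
      rw [Set.mem_preimage, Set.mem_singleton_iff] at hy
      refine ⟨y - y0, ?_, add_sub_cancel y0 y⟩
      show p • (y - y0) = 0
      rw [smul_sub, hy, sub_self]
    · have : (fun y : J => p • y) ⁻¹' {b} = ∅ := by
        ext y
        simp only [Set.mem_preimage, Set.mem_singleton_iff, Set.mem_empty_iff_false, iff_false]
        exact fun hy => hb ⟨y, hy⟩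
      rw [this]
      exact Set.finite_empty

end

end Fermat.Agent.S30.H57
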