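/-
S30 / TATE layer (helper57), part 2: the representation on the eigenspace of `O ⊗[ℤ_p] T_p J`.

* `tateRep p J O : AddMonoid.End J →+* Module.End O (O ⊗[ℤ_[p]] Tate p J)`;
* `eigen p J O τ c` : the joint eigenspace of a family of operators; saturated
  (`mem_eigen_of_smul_mem`), stable under everything commuting with the family;
* `eigenRep ρJ hcomm : G →* Module.End O (eigen p J O τ c)` and its transfer properties
  (`eigenRep_eq_one_of_eqOn_torsion`, `exists_eigenRep_sub_eq_smul`, `eigenRep_quadratic`);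
* `exists_midpoint_abstract` : the packaged statement.
-/
import Mathlib
import Fermat.Agent.S30.H57_Tate

set_option autoImplicit false

namespace Fermat.Agent.S30.H57

open scoped TensorProduct

noncomputable section

section Rep

variable (p : ℕ) [hp : Fact p.Prime] (J : Type*) [AddCommGroup J]
  (O : Type*) [CommRing O] [Algebra ℤ_[p] O]

/-- Instance shortcut (Lean fails to find `AddCommGroup (O ⊗ T)` in nested searches such as
`Sub (Module.End O ↥S)` for `S : Submodule O (O ⊗ T)`). -/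
instance tensorTateAddCommGroup : AddCommGroup (O ⊗[ℤ_[p]] Tate p J) := inferInstance

/-- `End(J)` acts `O`-linearly on `O ⊗[ℤ_p] T_p J`. -/
def tateRep : AddMonoid.End J →+* Module.End O (O ⊗[ℤ_[p]] Tate p J) :=
  ((Module.End.baseChangeHom ℤ_[p] O (Tate p J)) :
    Module.End ℤ_[p] (Tate p J) →+* Module.End O (O ⊗[ℤ_[p]] Tate p J)).comp Tate.mapRingHom

variable {p J O}

theorem tateRep_tmul (f : AddMonoid.End J) (a : O) (x : Tate p J) :
    tateRep p J O f (a ⊗ₜ[ℤ_[p]] x) = a ⊗ₜ[ℤ_[p]] Tate.map f x := rfl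

/-- An endomorphism of `J` which is the identity on the `p`-power torsion acts trivially. -/
theorem tateRep_eq_one_of_eqOn_torsion {f : AddMonoid.End J}
    (h : ∀ y : J, (∃ n : ℕ, p ^ n • y = 0) → f y = y) : tateRep p J O f = 1 := by
  have h1 : Tate.mapRingHom (p := p) f = 1 := Tate.map_eq_one_of_eqOn_torsion (f := f) h
  rw [tateRep, RingHom.comp_apply, h1, map_one]

/-- An endomorphism of `J` which kills the `p`-power torsion acts by zero. -/
theorem tateRep_eq_zero_of_eqOn_torsion {e : AddMonoid.End J}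
    (h : ∀ y : J, (∃ n : ℕ, p ^ n • y = 0) → e y = 0) : tateRep p J O e = 0 := by
  have h1 : Tate.mapRingHom (p := p) e = 0 := by
    have := Tate.map_eq_of_eqOn_torsion (p := p) (f := e) (g := (0 : J →+ J)) (fun y hy => h y hy)
    refine this.trans ?_
    refine LinearMap.ext fun x => ?_
    ext k
    rfl
  rw [tateRep, RingHom.comp_apply, h1, map_zero]

/-- An endomorphism of `J` fixing `J[p^k]` is congruent to `1` modulo `p^k`. -/
theorem exists_tateRep_sub_eq_smul {f : AddMonoid.End J} (k : ℕ)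
    (h : ∀ y : J, p ^ k • y = 0 → f y = y) (m : O ⊗[ℤ_[p]] Tate p J) :
    ∃ m' : O ⊗[ℤ_[p]] Tate p J, tateRep p J O f m - m = ((p : O) ^ k) • m' := by
  induction m using TensorProduct.induction_on with
  | zero => exact ⟨0, by rw [map_zero, sub_zero, smul_zero]⟩
  | tmul a x =>
    have h1 := Tate.map_sub_mem_of_fixes (p := p) (f := f) k h x
    obtain ⟨y, hy⟩ := (Tate.comp_eq_zero_iff' _ k).mp (Tate.comp_eq_zero_of_mem k h1)
    refine ⟨a ⊗ₜ[ℤ_[p]] y, ?_⟩
    rw [tateRep_tmul, ← TensorProduct.tmul_sub, hy, TensorProduct.tmul_smul,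
      ← algebraMap_smul O ((p : ℤ_[p]) ^ k) (a ⊗ₜ[ℤ_[p]] y), map_pow, map_natCast]
  | add m₁ m₂ h₁ h₂ =>
    obtain ⟨m₁', h₁'⟩ := h₁
    obtain ⟨m₂', h₂'⟩ := h₂
    refine ⟨m₁' + m₂', ?_⟩
    rw [map_add, add_sub_add_comm, h₁', h₂', smul_add]


end Rep

section Eigen

variable (p : ℕ) [hp : Fact p.Prime] (J : Type*) [AddCommGroup J]
  (O : Type*) [CommRing O] [Algebra ℤ_[p] O] {ι : Type*} (τ : ι → AddMonoid.End J) (c : ι → O)

/-- The joint eigenspace of the operators `τ i` with eigenvalues `c i` in `O ⊗ T_p J`. -/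
def eigen : Submodule O (O ⊗[ℤ_[p]] Tate p J) :=
  ⨅ i, LinearMap.ker (tateRep p J O (τ i) - c i • (1 : Module.End O (O ⊗[ℤ_[p]] Tate p J)))

variable {p J O τ c}

theorem mem_eigen {m : O ⊗[ℤ_[p]] Tate p J} :
    m ∈ eigen p J O τ c ↔ ∀ i, tateRep p J O (τ i) m = c i • m := by
  simp only [eigen, Submodule.mem_iInf, LinearMap.mem_ker, LinearMap.sub_apply,
    LinearMap.smul_apply, Module.End.one_apply, sub_eq_zero]

/-- An endomorphism commuting with all `τ i` preserves the eigenspace. -/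
theorem tateRep_mem_eigen {f : AddMonoid.End J} (hf : ∀ i, Commute f (τ i))
    {m : O ⊗[ℤ_[p]] Tate p J} (hm : m ∈ eigen p J O τ c) : tateRep p J O f m ∈ eigen p J O τ c := by
  rw [mem_eigen] at hm ⊢
  intro i
  have h1 : tateRep p J O (τ i) * tateRep p J O f = tateRep p J O f * tateRep p J O (τ i) := by
    rw [← map_mul, ← map_mul, (hf i).eq]
  have h2 := LinearMap.congr_fun h1 m
  rw [Module.End.mul_apply, Module.End.mul_apply, hm i, map_smul] at h2
  exact h2

/-- The eigenspace is saturated. -/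
theorem mem_eigen_of_smul_mem [IsDomain O] [Module.IsTorsionFree O (O ⊗[ℤ_[p]] Tate p J)] {a : O}
    (ha : a ≠ 0) {m : O ⊗[ℤ_[p]] Tate p J} (hm : a • m ∈ eigen p J O τ c) :
    m ∈ eigen p J O τ c := by
  rw [mem_eigen] at hm ⊢
  intro i
  have h1 := hm i
  rw [map_smul, smul_comm] at h1
  exact smul_right_injective _ ha h1

variable {G : Type*} [Group G] (ρJ : G →* AddMonoid.End J) (hcomm : ∀ g i, Commute (ρJ g) (τ i))

/-- The action of `G` on the eigenspace. -/
def eigenRep : G →* Module.End O (eigen p J O τ c) where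
  toFun g := (tateRep p J O (ρJ g)).restrict fun _ hm => tateRep_mem_eigen (hcomm g) hm
  map_one' := by
    refine LinearMap.ext fun m => Subtype.ext ?_
    rw [LinearMap.coe_restrict_apply, map_one, map_one]
    rfl
  map_mul' g h := by
    refine LinearMap.ext fun m => Subtype.ext ?_
    rw [LinearMap.coe_restrict_apply, map_mul, map_mul]
    rfl

@[simp] theorem coe_eigenRep_apply (g : G) (m : eigen p J O τ c) :
    ((eigenRep ρJ hcomm g m : eigen p J O τ c) : O ⊗[ℤ_[p]] Tate p J) =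
      tateRep p J O (ρJ g) m := rfl

/-- Unramifiedness transfers. -/
theorem eigenRep_eq_one_of_eqOn_torsion {g : G}
    (h : ∀ y : J, (∃ n : ℕ, p ^ n • y = 0) → ρJ g y = y) :
    eigenRep (p := p) (O := O) (c := c) ρJ hcomm g = 1 := by
  refine LinearMap.ext fun m => Subtype.ext ?_
  rw [coe_eigenRep_apply, tateRep_eq_one_of_eqOn_torsion h]
  rfl

/-- Continuity transfers: an element fixing `J[p^k]` acts as `1` modulo `p^k`. -/
theorem exists_eigenRep_sub_eq_smul [IsDomain O] [Module.IsTorsionFree O (O ⊗[ℤ_[p]] Tate p J)]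
    (hpO : (p : O) ≠ 0) {g : G} (k : ℕ) (h : ∀ y : J, p ^ k • y = 0 → ρJ g y = y)
    (m : eigen p J O τ c) :
    ∃ m' : eigen p J O τ c, eigenRep (p := p) ρJ hcomm g m - m = ((p : O) ^ k) • m' := by
  obtain ⟨m', hm'⟩ := exists_tateRep_sub_eq_smul (O := O) k h (m : O ⊗[ℤ_[p]] Tate p J)
  have hmem : m' ∈ eigen p J O τ c := by
    apply mem_eigen_of_smul_mem (pow_ne_zero k hpO)
    rw [← hm']
    exact Submodule.sub_mem _ (tateRep_mem_eigen (hcomm g) m.2) m.2
  refine ⟨⟨m', hmem⟩, Subtype.ext ?_⟩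
  rw [Submodule.coe_sub, coe_eigenRep_apply, hm']
  rfl

/-- The Frobenius relation transfers. -/
theorem eigenRep_quadratic {g : G} (i : ι) (ℓ : ℕ)
    (h : ∀ y : J, (∃ n : ℕ, p ^ n • y = 0) → ρJ g (ρJ g y) - τ i (ρJ g y) + ℓ • y = 0) :
    eigenRep (p := p) (O := O) (c := c) ρJ hcomm g * eigenRep (p := p) (O := O) (c := c) ρJ hcomm g =
      c i • eigenRep (p := p) (O := O) (c := c) ρJ hcomm g -
        (ℓ : O) • (1 : Module.End O (eigen p J O τ c)) := by
  have h0 : tateRep p J O (ρJ g * ρJ g - τ i * ρJ g + (ℓ : AddMonoid.End J)) = 0 := by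
    apply tateRep_eq_zero_of_eqOn_torsion
    intro y hy
    exact h y hy
  rw [map_add, map_sub, map_mul, map_mul, map_natCast] at h0
  refine LinearMap.ext fun m => Subtype.ext ?_
  have h1 := LinearMap.congr_fun h0 (m : O ⊗[ℤ_[p]] Tate p J)
  have hm := mem_eigen.mp (tateRep_mem_eigen (hcomm g) m.2 : tateRep p J O (ρJ g) m ∈ _) i
  simp only [LinearMap.add_apply, LinearMap.sub_apply, Module.End.mul_apply,
    LinearMap.zero_apply, Module.End.natCast_apply] at h1
  rw [hm] at h1
  simp only [Module.End.mul_apply, LinearMap.sub_apply, LinearMap.smul_apply,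
    Module.End.one_apply, Submodule.coe_sub, Submodule.coe_smul, coe_eigenRep_apply]
  rw [Nat.cast_smul_eq_nsmul O]
  linear_combination (norm := skip) h1
  abel

end Eigen

section Main

/-- **The abstract midpoint.**  `J` an abelian group with finite `p`-torsion, acted on by a group
`G` (through `ρJ`) and by commuting operators `τ i`; `O` a principal ideal domain which is a
`ℤ_p`-algebra with `p ≠ 0`; `c i ∈ O` a system of eigenvalues occurring in `O ⊗ T_p J`.  Then the
`c`-eigenspace of `O ⊗ T_p J` is a nonzero finite free `O`-module with an action of `G` which is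
trivial / congruent to `1` modulo `p^k` / quadratic as soon as `ρJ g` is so on the `p`-power
torsion of `J`. -/
theorem exists_midpoint_abstract {p : ℕ} [hp : Fact p.Prime] {J : Type} [AddCommGroup J]
    (hfin : Set.Finite {y : J | p • y = 0})
    {O : Type} [CommRing O] [IsDomain O] [IsPrincipalIdealRing O] [Algebra ℤ_[p] O]
    (hpO : (p : O) ≠ 0)
    {ι : Type*} (τ : ι → AddMonoid.End J) (c : ι → O)
    {G : Type*} [Group G] (ρJ : G →* AddMonoid.End J) (hcomm : ∀ g i, Commute (ρJ g) (τ i))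
    (hne : ∃ m : O ⊗[ℤ_[p]] Tate p J, m ≠ 0 ∧ ∀ i, tateRep p J O (τ i) m = c i • m) :
    ∃ (M : Type) (_ : AddCommGroup M) (_ : Module O M) (_ : Module.Free O M)
      (_ : Module.Finite O M) (ρ : G →* Module.End O M), Nontrivial M ∧
      (∀ g, (∀ y : J, (∃ n : ℕ, p ^ n • y = 0) → ρJ g y = y) → ρ g = 1) ∧
      (∀ g k, (∀ y : J, p ^ k • y = 0 → ρJ g y = y) →
        ∀ m : M, ∃ m' : M, ρ g m - m = ((p : O) ^ k) • m') ∧
      (∀ g i (ℓ : ℕ),
        (∀ y : J, (∃ n : ℕ, p ^ n • y = 0) → ρJ g (ρJ g y) - τ i (ρJ g y) + ℓ • y = 0) →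
          ρ g * ρ g = c i • ρ g - (ℓ : O) • (1 : Module.End O M)) := by
  have hT1 : Module.Finite ℤ_[p] (Tate p J) := Tate.finite_of_finite_torsion hfin
  have hT2 : Module.Free ℤ_[p] (Tate p J) := Tate.free_of_finite_torsion hfin
  have hM1 : Module.Free O (O ⊗[ℤ_[p]] Tate p J) := inferInstance
  have hM2 : Module.Finite O (O ⊗[ℤ_[p]] Tate p J) := inferInstance
  have hM3 : Module.IsTorsionFree O (O ⊗[ℤ_[p]] Tate p J) := inferInstance
  have hE1 : Module.Finite O (eigen p J O τ c) := inferInstance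
  have hE2 : Module.IsTorsionFree O (eigen p J O τ c) := inferInstance
  have hE3 : Module.Free O (eigen p J O τ c) := inferInstance
  refine ⟨eigen p J O τ c, inferInstance, inferInstance, hE3, hE1,
    eigenRep (p := p) (O := O) (c := c) ρJ hcomm, ?_, ?_, ?_, ?_⟩
  · obtain ⟨m, hm0, hm⟩ := hne
    exact ⟨⟨⟨m, mem_eigen.mpr hm⟩, 0, fun h => hm0 (congrArg Subtype.val h)⟩⟩
  · intro g h
    exact eigenRep_eq_one_of_eqOn_torsion ρJ hcomm h
  · intro g k h m
    exact exists_eigenRep_sub_eq_smul ρJ hcomm hpO k h m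
  · intro g i ℓ h
    exact eigenRep_quadratic ρJ hcomm i ℓ h

end Main

end

end Fermat.Agent.S30.H57
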