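/-
S30 (helper31, deputy): MIDPOINT-GLUE = cut (C3) of ASSEMBLY-A.

`H57.Midpoint p N S 𝒪' χ` from named inputs in the prelude's vocabulary:
* the Eichler–Shimura clauses on the `p`-power torsion of `JZero N` (Stage 2 / S37),
* finiteness of `JZero N [p^k]` (FIN) and open stabilisers (T3, `H46.exists_finite_fixing`),
* Galois/Hecke commutation (T2, `H28.smul_heckeOperatorBar`),
* a nonzero `χ`-eigenvector in `𝒪' ⊗[ℤ_p] T_p JZero N` (cut (C1)),
via helper57's `H57.exists_midpoint_abstract`.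
-/
import Mathlib
import Fermat.Agent.S30.H57_Midpoint
import Fermat.Agent.S30.H57_TateRep
import Fermat.Agent.S29.H46_OpenStab
import Fermat.Agent.S29.H28_GalHecke
import Fermat.Agent.S29.H66_ESData

set_option autoImplicit false

namespace Fermat.Agent.S30.H31

open ModularCurve CuspForm
open scoped TensorProduct

local notation "Qbar" => AlgebraicClosure ℚ
local notation "GQ" => (AlgebraicClosure ℚ ≃ₐ[ℚ] AlgebraicClosure ℚ)

section Glue

variable (p : ℕ) [hp : Fact p.Prime] (N : ℕ) [NeZero N] (S : Finset ℕ)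

/-- the good primes `ℓ ∉ S`, `ℓ ∤ N` -/
abbrev GoodPrime : Type := {ℓ : ℕ // ℓ.Prime ∧ ¬ ℓ ∣ N ∧ ℓ ∉ (↑S : Set ℕ)}

/-- the Hecke operator at a good prime as an additive endomorphism of `JZero N` -/
noncomputable def heckeEndJ (i : GoodPrime N S) : AddMonoid.End (JZero N) :=
  (heckeOperatorBar N ⟨i.1, i.2.1⟩ : Module.End ℤ (JZero N)).toAddMonoidHom

theorem heckeEndJ_apply (i : GoodPrime N S) (x : JZero N) :
    heckeEndJ N S i x = heckeOperatorBar N ⟨i.1, i.2.1⟩ x := rfl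

/-- the Galois action on `JZero N` as a homomorphism to additive endomorphisms -/
noncomputable def galEndJ : GQ →* AddMonoid.End (JZero N) :=
  DistribMulAction.toAddMonoidEnd GQ (JZero N)

omit [NeZero N] in
theorem galEndJ_apply (σ : GQ) (x : JZero N) : galEndJ N σ x = σ • x := rfl

theorem commute_galEndJ_heckeEndJ (σ : GQ) (i : GoodPrime N S) :
    Commute (galEndJ N σ) (heckeEndJ N S i) := by
  refine AddMonoidHom.ext fun x => ?_
  show σ • heckeOperatorBar N ⟨i.1, i.2.1⟩ x = heckeOperatorBar N ⟨i.1, i.2.1⟩ (σ • x)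
  exact Fermat.Agent.S29.H28.smul_heckeOperatorBar N ⟨i.1, i.2.1⟩ σ x

end Glue

section Main

variable (p : ℕ) [hp : Fact p.Prime] (N : ℕ) [NeZero N] (S : Finset ℕ)

/-- **(C3) MIDPOINT-GLUE.** -/
theorem midpoint_of_inputs (hpS : p ∈ S)
    (𝒪' : Type) [CommRing 𝒪'] [IsDomain 𝒪'] [IsDiscreteValuationRing 𝒪'] [CharZero 𝒪']
    [Algebra ℤ_[p] 𝒪'] (hp𝒪' : (p : 𝒪') ∈ IsLocalRing.maximalIdeal 𝒪')
    (χ : heckeAlgebra N 2 (↑S : Set ℕ) →+* 𝒪')
    -- Stage 2 (S37), concrete form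
    (hunrJ : ∀ ℓ : ℕ, ℓ.Prime → ¬ ℓ ∣ N * p → ∀ A : ValuationSubring Qbar, A.LiesOverPrime ℓ →
      ∀ σ ∈ A.inertiaSubgroupIn ℚ, ∀ x : JZero N, (∃ n : ℕ, p ^ n • x = 0) → σ • x = x)
    (hfrobJ : ∀ (ℓ : ℕ) (hℓ : ℓ.Prime), ¬ ℓ ∣ N * p → ∀ A : ValuationSubring Qbar,
      A.LiesOverPrime ℓ → ∀ σ : GQ, A.IsFrobeniusAt σ ℓ →
        ∀ x : JZero N, (∃ n : ℕ, p ^ n • x = 0) →
          σ • σ • x - heckeOperatorBar N ⟨ℓ, hℓ⟩ (σ • x) + ℓ • x = 0)
    -- FIN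
    (hfin : ∀ k : ℕ, {y : JZero N | p ^ k • y = 0}.Finite)
    -- (C1) the eigenvector
    (hne : ∃ m : 𝒪' ⊗[ℤ_[p]] H57.Tate p (JZero N), m ≠ 0 ∧
      ∀ i : GoodPrime N S, H57.tateRep p (JZero N) 𝒪' (heckeEndJ N S i) m =
        χ (heckeAlgebra.T i.2.1 i.2.2.1 i.2.2.2) • m) :
    H57.Midpoint p N S 𝒪' χ := by
  classical
  have hfin1 : Set.Finite {y : JZero N | p • y = 0} := by
    have := hfin 1
    simpa using this
  have hpO : (p : 𝒪') ≠ 0 := by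
    exact_mod_cast hp.out.ne_zero
  obtain ⟨M, i1, i2, i3, i4, ρ, hnt, htriv, hcong, hquad⟩ :=
    H57.exists_midpoint_abstract (p := p) (J := JZero N) hfin1 (O := 𝒪') hpO
      (heckeEndJ N S) (fun i => χ (heckeAlgebra.T i.2.1 i.2.2.1 i.2.2.2)) (galEndJ N)
      (commute_galEndJ_heckeEndJ N S) hne
  have hNp : ∀ ℓ : ℕ, ℓ.Prime → ¬ ℓ ∣ N → ℓ ≠ p → ¬ ℓ ∣ N * p := by
    intro ℓ hℓ hℓN hℓp hdvd
    rcases (Nat.Prime.dvd_mul hℓ).mp hdvd with h | h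
    · exact hℓN h
    · exact hℓp ((Nat.prime_dvd_prime_iff_eq hℓ hp.out).mp h)
  refine ⟨M, i1, i2, i3, i4, ρ, hnt, ?_, ?_, ?_⟩
  · -- continuity
    intro n
    obtain ⟨E, hE, hfix⟩ := Fermat.Agent.S29.H46.exists_finite_fixing_of_finite N (hfin n)
    refine ⟨E, hE, fun σ hσ m => ?_⟩
    obtain ⟨m', hm'⟩ := hcong σ n (fun y hy => hfix σ hσ y hy) m
    rw [hm']
    exact Submodule.smul_mem_smul (Ideal.pow_mem_pow hp𝒪' n) Submodule.mem_top
  · -- unramified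
    intro q hq hqN hqp P hP σ hσ
    exact htriv σ (fun y hy => hunrJ q hq (hNp q hq hqN hqp) P hP σ hσ y hy)
  · -- Frobenius
    intro ℓ hℓ hℓN hℓS A hA σ hσ
    have hℓp : ℓ ≠ p := by
      rintro rfl
      exact hℓS (Finset.mem_coe.mpr hpS)
    exact hquad σ ⟨ℓ, hℓ, hℓN, hℓS⟩ ℓ
      (fun y hy => hfrobJ ℓ hℓ (hNp ℓ hℓ hℓN hℓp) A hA σ hσ y hy)

end Main

section Stage2

variable (p : ℕ) (N : ℕ) [NeZero N]

/-- The two Eichler–Shimura clauses in concrete form, from the conclusion of the frozen S37 and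
the commutativity of the Hecke operators (T1). -/
theorem unr_frob_of_specializationExists (hcommBar : HeckeOperatorsCommuteBar N)
    (hspec : letI := heckeModuleBar N
      ∀ (_ : SMulCommClass GQ HeckeAlg (JZero N)),
        SpecializationExists (K := ℚ) (L := Qbar) N p (JZero N)) :
    (∀ ℓ : ℕ, ℓ.Prime → ¬ ℓ ∣ N * p → ∀ A : ValuationSubring Qbar, A.LiesOverPrime ℓ →
      ∀ σ ∈ A.inertiaSubgroupIn ℚ, ∀ x : JZero N, (∃ n : ℕ, p ^ n • x = 0) → σ • x = x) ∧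
    (∀ (ℓ : ℕ) (hℓ : ℓ.Prime), ¬ ℓ ∣ N * p → ∀ A : ValuationSubring Qbar,
      A.LiesOverPrime ℓ → ∀ σ : GQ, A.IsFrobeniusAt σ ℓ →
        ∀ x : JZero N, (∃ n : ℕ, p ^ n • x = 0) →
          σ • σ • x - heckeOperatorBar N ⟨ℓ, hℓ⟩ (σ • x) + ℓ • x = 0) := by
  let _ := heckeModuleBar N
  have hsmul : SMulCommClass GQ HeckeAlg (JZero N) :=
    Fermat.Agent.S29.H28.smulCommClass_heckeModuleBar N
  have h := hspec hsmul
  refine ⟨Fermat.Agent.S29.H66.unramifiedOutside_of_specializationExists h, ?_⟩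
  intro ℓ hℓ hℓNp A hA σ hσ x hx
  have h1 := Fermat.Agent.S29.H66.frobeniusQuadratic_of_specializationExists h ℓ hℓ hℓNp A hA σ hσ
    x hx
  have h2 : heckeOperatorBar N ⟨ℓ, hℓ⟩ (σ • x) = heckeGen ⟨ℓ, hℓ⟩ • σ • x :=
    (heckeModuleBar_heckeGen_smul hcommBar ⟨ℓ, hℓ⟩ (σ • x)).symm
  rw [h2]
  exact h1

end Stage2

end Fermat.Agent.S30.H31
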