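/-
S30, package ALG-adic-quadratic-rep (helper31), part (A1): from a DENSE set of quadratic elements
to a quadratic relation for every group element, by completeness.

`O` is a commutative ring which is `I`-adically complete, `ρ : G →* Mᵣ(O)` (`r > 0`) a matrix
representation, `d : G →* Oˣ` a character, `Fr s a` a relation ("`s` is a Frobenius lift with
Hecke eigenvalue `a`") such that `ρ(s)² = a ρ(s) - d(s)` whenever `Fr s a`.  If every `g ∈ G` is
approximated modulo every `Iⁿ` (entrywise for `ρ`, and for `d`) by some `s` with `Fr s a`, then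
there is `t : G → O` with `ρ(g)² = t(g) ρ(g) - d(g)` for ALL `g`, and `t s = a` whenever `Fr s a`.
-/
import Mathlib

set_option autoImplicit false

namespace Fermat.Agent.S30.H31

open Matrix

section EntriesIn

variable {O : Type*} [CommRing O] {r : ℕ}

/-- All entries of the matrix lie in the ideal `J`. -/
def EntriesIn (J : Ideal O) (A : Matrix (Fin r) (Fin r) O) : Prop := ∀ i j, A i j ∈ J

theorem EntriesIn.zero (J : Ideal O) : EntriesIn J (0 : Matrix (Fin r) (Fin r) O) :=
  fun _ _ => J.zero_mem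

theorem EntriesIn.add {J : Ideal O} {A B : Matrix (Fin r) (Fin r) O} (hA : EntriesIn J A)
    (hB : EntriesIn J B) : EntriesIn J (A + B) := fun i j => J.add_mem (hA i j) (hB i j)

theorem EntriesIn.neg {J : Ideal O} {A : Matrix (Fin r) (Fin r) O} (hA : EntriesIn J A) :
    EntriesIn J (-A) := fun i j => J.neg_mem (hA i j)

theorem EntriesIn.sub {J : Ideal O} {A B : Matrix (Fin r) (Fin r) O} (hA : EntriesIn J A)
    (hB : EntriesIn J B) : EntriesIn J (A - B) := fun i j => J.sub_mem (hA i j) (hB i j)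

theorem EntriesIn.smul {J : Ideal O} {A : Matrix (Fin r) (Fin r) O} (hA : EntriesIn J A) (a : O) :
    EntriesIn J (a • A) := fun i j => J.mul_mem_left a (hA i j)

theorem EntriesIn.mul_left {J : Ideal O} {A : Matrix (Fin r) (Fin r) O} (hA : EntriesIn J A)
    (B : Matrix (Fin r) (Fin r) O) : EntriesIn J (B * A) := fun i j => by
  rw [Matrix.mul_apply]
  exact J.sum_mem fun l _ => J.mul_mem_left _ (hA l j)

theorem EntriesIn.mul_right {J : Ideal O} {A : Matrix (Fin r) (Fin r) O} (hA : EntriesIn J A)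
    (B : Matrix (Fin r) (Fin r) O) : EntriesIn J (A * B) := fun i j => by
  rw [Matrix.mul_apply]
  exact J.sum_mem fun l _ => J.mul_mem_right _ (hA i l)

theorem EntriesIn.smul_one {J : Ideal O} {a : O} (ha : a ∈ J) :
    EntriesIn J (a • (1 : Matrix (Fin r) (Fin r) O)) := fun i j => by
  rw [Matrix.smul_apply, smul_eq_mul]
  exact J.mul_mem_right _ ha

theorem EntriesIn.mono {J J' : Ideal O} (h : J ≤ J') {A : Matrix (Fin r) (Fin r) O}
    (hA : EntriesIn J A) : EntriesIn J' A := fun i j => h (hA i j)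

/-- A scalar matrix with entries in `J` has its scalar in `J` (`r > 0`). -/
theorem mem_of_entriesIn_smul_one (hr : 0 < r) {J : Ideal O} {a : O}
    (h : EntriesIn J (a • (1 : Matrix (Fin r) (Fin r) O))) : a ∈ J := by
  have := h ⟨0, hr⟩ ⟨0, hr⟩
  rwa [Matrix.smul_apply, Matrix.one_apply_eq, smul_eq_mul, mul_one] at this

end EntriesIn

section Pow

variable {O : Type*} [CommRing O] {A : Type*} [Ring A] [Algebra O A]

/-- Powers of a quadratic element with "norm" `b`: `(x^j)² = t_j x^j - b^j` (the version of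
`H29.exists_pow_quad` over a commutative ring). -/
theorem exists_pow_quad_ring {x : A} {a b : O} (hx : x * x = a • x - b • (1 : A)) (j : ℕ) :
    ∃ s : O, x ^ j * x ^ j = s • x ^ j - (b ^ j) • (1 : A) := by
  set y : A := a • (1 : A) - x with hy
  have hxy : x * y = b • (1 : A) := by
    rw [hy, mul_sub, hx, mul_smul_comm, mul_one]; abel
  have hyx : y * x = b • (1 : A) := by
    rw [hy, sub_mul, hx, smul_mul_assoc, one_mul]; abel
  have hcomm : Commute x y := by rw [Commute, SemiconjBy, hxy, hyx]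
  have hsum : ∀ j : ℕ, ∃ s : O, x ^ j + y ^ j = s • (1 : A) ∧
      ∃ s' : O, x ^ (j + 1) + y ^ (j + 1) = s' • (1 : A) := by
    intro j
    induction j with
    | zero =>
      refine ⟨2, ?_, a, ?_⟩
      · rw [pow_zero, pow_zero, two_smul]
      · rw [zero_add, pow_one, pow_one, hy]; abel
    | succ j ih =>
      obtain ⟨s, hs, s', hs'⟩ := ih
      refine ⟨s', hs', a * s' - b * s, ?_⟩
      have h1 : x ^ (j + 1 + 1) + y ^ (j + 1 + 1) =
          (x + y) * (x ^ (j + 1) + y ^ (j + 1)) - (x * y) * (x ^ j + y ^ j) := by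
        have e1 : y * x ^ (j + 1) = (x * y) * x ^ j := by
          rw [pow_succ', ← mul_assoc, hyx, hxy]
        have e2 : x * y ^ (j + 1) = (x * y) * y ^ j := by
          rw [pow_succ', ← mul_assoc]
        rw [add_mul, mul_add, mul_add, e1, e2, mul_add, pow_succ' x (j + 1), pow_succ' y (j + 1)]
        abel
      have h2 : x + y = a • (1 : A) := by rw [hy]; abel
      rw [h1, h2, hxy, hs, hs', smul_mul_assoc, one_mul, smul_mul_assoc, one_mul, smul_smul,
        smul_smul, sub_smul]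
  obtain ⟨s, hs, -⟩ := hsum j
  refine ⟨s, ?_⟩
  have hprod : x ^ j * y ^ j = (b ^ j) • (1 : A) := by
    rw [← hcomm.mul_pow, hxy, smul_pow, one_pow]
  have hyj : y ^ j = s • (1 : A) - x ^ j := by rw [← hs]; abel
  rw [hyj, mul_sub, mul_smul_comm, mul_one] at hprod
  rw [← hprod]; abel

variable {G : Type*} [Group G]

/-- The inverse of a quadratic group element is quadratic. -/
theorem quad_inv (ρ : G →* A) (d : G →* Oˣ) {s : G} {a : O}
    (h : ρ s * ρ s = a • ρ s - ((d s : Oˣ) : O) • (1 : A)) :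
    ρ s⁻¹ * ρ s⁻¹ = (a * ((d s⁻¹ : Oˣ) : O)) • ρ s⁻¹ - ((d s⁻¹ : Oˣ) : O) • (1 : A) := by
  have hyx : ρ s⁻¹ * ρ s = 1 := by rw [← map_mul, inv_mul_cancel, map_one]
  have hdd : ((d s⁻¹ : Oˣ) : O) * ((d s : Oˣ) : O) = 1 := by
    rw [← Units.val_mul, ← map_mul, inv_mul_cancel, map_one, Units.val_one]
  -- multiply the relation by `y²` on the left
  have h1 : ρ s⁻¹ * ρ s⁻¹ * (ρ s * ρ s) = 1 := by
    rw [mul_assoc, ← mul_assoc (ρ s⁻¹) (ρ s), hyx, one_mul, hyx]
  rw [h, mul_sub, mul_smul_comm, mul_smul_comm, mul_one, mul_assoc, hyx, mul_one] at h1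
  -- `a y - δ y² = 1`
  have h2 : ((d s : Oˣ) : O) • (ρ s⁻¹ * ρ s⁻¹) = a • ρ s⁻¹ - 1 := by
    rw [← h1]; abel
  have h3 := congrArg (fun z => ((d s⁻¹ : Oˣ) : O) • z) h2
  simp only [smul_smul, hdd, one_smul, smul_sub] at h3
  rw [h3, mul_comm a]

/-- Every integer power of a quadratic group element is quadratic. -/
theorem exists_zpow_quad (ρ : G →* A) (d : G →* Oˣ) {s : G} {a : O}
    (h : ρ s * ρ s = a • ρ s - ((d s : Oˣ) : O) • (1 : A)) (j : ℤ) :
    ∃ b : O, ρ (s ^ j) * ρ (s ^ j) = b • ρ (s ^ j) - ((d (s ^ j) : Oˣ) : O) • (1 : A) := by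
  have key : ∀ (u : G) (c : O), ρ u * ρ u = c • ρ u - ((d u : Oˣ) : O) • (1 : A) →
      ∀ n : ℕ, ∃ b : O, ρ (u ^ n) * ρ (u ^ n) = b • ρ (u ^ n) -
        ((d (u ^ n) : Oˣ) : O) • (1 : A) := by
    intro u c hu n
    obtain ⟨b, hb⟩ := exists_pow_quad_ring hu n
    refine ⟨b, ?_⟩
    rw [map_pow, map_pow, Units.val_pow_eq_pow_val]
    exact hb
  cases j with
  | ofNat n =>
    rw [Int.ofNat_eq_natCast, zpow_natCast]
    exact key s a h n
  | negSucc n =>
    rw [zpow_negSucc, ← inv_pow]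
    exact key s⁻¹ _ (quad_inv ρ d h) (n + 1)

end Pow

section Dense

variable {O : Type*} [CommRing O] {G : Type*} [Group G] {r : ℕ}

/-- Uniqueness of the "trace" modulo `J`. -/
theorem sub_mem_of_quad_entriesIn (hr : 0 < r) (ρ : G →* Matrix (Fin r) (Fin r) O) (g : G)
    {J : Ideal O} {a b e : O}
    (ha : EntriesIn J (ρ g * ρ g - a • ρ g + e • (1 : Matrix (Fin r) (Fin r) O)))
    (hb : EntriesIn J (ρ g * ρ g - b • ρ g + e • (1 : Matrix (Fin r) (Fin r) O))) :
    a - b ∈ J := by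
  have h1 : EntriesIn J ((a - b) • ρ g) := by
    have := hb.sub ha
    have e1 : (ρ g * ρ g - b • ρ g + e • (1 : Matrix (Fin r) (Fin r) O)) -
        (ρ g * ρ g - a • ρ g + e • (1 : Matrix (Fin r) (Fin r) O)) = (a - b) • ρ g := by
      rw [sub_smul]; abel
    rwa [e1] at this
  have h2 := h1.mul_right (ρ g⁻¹)
  rw [smul_mul_assoc, ← map_mul, mul_inv_cancel, map_one] at h2
  exact mem_of_entriesIn_smul_one hr h2

variable (I : Ideal O) [IsAdicComplete I O]

/-- **(A1)** Density plus completeness: the quadratic relation for all group elements. -/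
theorem exists_trace_of_dense (hr : 0 < r) (ρ : G →* Matrix (Fin r) (Fin r) O) (d : G →* Oˣ)
    (Fr : G → O → Prop)
    (hFr : ∀ s a, Fr s a →
      ρ s * ρ s = a • ρ s - ((d s : Oˣ) : O) • (1 : Matrix (Fin r) (Fin r) O))
    (hdense : ∀ (g : G) (n : ℕ), ∃ s a, Fr s a ∧ EntriesIn (I ^ n) (ρ s - ρ g) ∧
      ((d s : Oˣ) : O) - ((d g : Oˣ) : O) ∈ I ^ n) :
    ∃ t : G → O,
      (∀ g, ρ g * ρ g = t g • ρ g - ((d g : Oˣ) : O) • (1 : Matrix (Fin r) (Fin r) O)) ∧
      ∀ s a, Fr s a → t s = a := by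
  classical
  -- approximate relation for each `g`, `n`
  have happrox : ∀ (g : G) (n : ℕ), ∃ a : O,
      EntriesIn (I ^ n) (ρ g * ρ g - a • ρ g +
        ((d g : Oˣ) : O) • (1 : Matrix (Fin r) (Fin r) O)) := by
    intro g n
    obtain ⟨s, a, hsa, hρ, hd⟩ := hdense g n
    refine ⟨a, ?_⟩
    set Δ := ρ s - ρ g with hΔ
    have hs : ρ s = ρ g + Δ := by rw [hΔ]; abel
    have hrel := hFr s a hsa
    rw [hs] at hrel
    have e1 : ρ g * ρ g - a • ρ g + ((d g : Oˣ) : O) • (1 : Matrix (Fin r) (Fin r) O) =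
        -(ρ g * Δ + Δ * ρ g + Δ * Δ - a • Δ +
          (((d s : Oˣ) : O) - ((d g : Oˣ) : O)) • (1 : Matrix (Fin r) (Fin r) O)) := by
      have e2 : (ρ g + Δ) * (ρ g + Δ) = ρ g * ρ g + ρ g * Δ + Δ * ρ g + Δ * Δ := by
        rw [add_mul, mul_add, mul_add]; abel
      rw [e2, smul_add] at hrel
      rw [sub_smul]
      have := hrel
      -- rearrange
      have e3 : ρ g * ρ g = a • ρ g + a • Δ - ((d s : Oˣ) : O) • (1 : Matrix (Fin r) (Fin r) O)
          - ρ g * Δ - Δ * ρ g - Δ * Δ := by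
        rw [← this]; abel
      rw [e3]; abel
    rw [e1]
    refine EntriesIn.neg ?_
    refine EntriesIn.add (EntriesIn.sub (EntriesIn.add (EntriesIn.add ?_ ?_) ?_) ?_) ?_
    · exact hρ.mul_left _
    · exact hρ.mul_right _
    · exact hρ.mul_right _
    · exact hρ.smul a
    · exact EntriesIn.smul_one hd
  choose a ha using happrox
  -- Cauchy
  have hcauchy : ∀ g {m n : ℕ}, m ≤ n → a g m - a g n ∈ I ^ m := by
    intro g m n hmn
    exact sub_mem_of_quad_entriesIn hr ρ g (ha g m)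
      ((ha g n).mono (Ideal.pow_le_pow_right hmn))
  have hlim : ∀ g, ∃ L : O, ∀ n, a g n - L ∈ I ^ n := by
    intro g
    obtain ⟨L, hL⟩ := IsPrecomplete.prec (I := I) (M := O) inferInstance (f := a g) (by
      intro m n hmn
      rw [SModEq.sub_mem, smul_eq_mul, Ideal.mul_top]
      exact hcauchy g hmn)
    refine ⟨L, fun n => ?_⟩
    have := hL n
    rwa [SModEq.sub_mem, smul_eq_mul, Ideal.mul_top] at this
  choose t ht using hlim
  have hrel : ∀ g, ρ g * ρ g = t g • ρ g -
      ((d g : Oˣ) : O) • (1 : Matrix (Fin r) (Fin r) O) := by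
    intro g
    have hall : ∀ n, EntriesIn (I ^ n) (ρ g * ρ g - t g • ρ g +
        ((d g : Oˣ) : O) • (1 : Matrix (Fin r) (Fin r) O)) := by
      intro n
      have e1 : ρ g * ρ g - t g • ρ g + ((d g : Oˣ) : O) • (1 : Matrix (Fin r) (Fin r) O) =
          (ρ g * ρ g - a g n • ρ g + ((d g : Oˣ) : O) • (1 : Matrix (Fin r) (Fin r) O)) +
            (a g n - t g) • ρ g := by
        rw [sub_smul]; abel
      rw [e1]
      have h5 := (EntriesIn.smul_one (r := r) (ht g n)).mul_right (ρ g)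
      rw [smul_mul_assoc, one_mul] at h5
      exact (ha g n).add h5
    have hzero : ρ g * ρ g - t g • ρ g +
        ((d g : Oˣ) : O) • (1 : Matrix (Fin r) (Fin r) O) = 0 := by
      ext i j
      rw [Matrix.zero_apply]
      apply IsHausdorff.haus (I := I) (M := O) inferInstance
      intro n
      rw [SModEq.zero, smul_eq_mul, Ideal.mul_top]
      exact hall n i j
    have := hzero
    rw [sub_add, sub_eq_zero] at this
    exact this
  refine ⟨t, hrel, fun s b hsb => ?_⟩
  have h1 := hFr s b hsb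
  have h2 := hrel s
  have h3 : EntriesIn (⊥ : Ideal O) (ρ s * ρ s - t s • ρ s +
      ((d s : Oˣ) : O) • (1 : Matrix (Fin r) (Fin r) O)) := by
    rw [h2]
    intro i j
    simp
  have h4 : EntriesIn (⊥ : Ideal O) (ρ s * ρ s - b • ρ s +
      ((d s : Oˣ) : O) • (1 : Matrix (Fin r) (Fin r) O)) := by
    rw [h1]
    intro i j
    simp
  have := sub_mem_of_quad_entriesIn hr ρ s h3 h4
  rwa [Ideal.mem_bot, sub_eq_zero] at this

/-- **(A1), power form.** It suffices that every `g` is approximated by integer POWERS of the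
"Frobenius" elements (this is what the Frobenius density theorem `H31_FrobCongr` provides). -/
theorem exists_trace_of_dense_zpow (hr : 0 < r) (ρ : G →* Matrix (Fin r) (Fin r) O) (d : G →* Oˣ)
    (Fr : G → O → Prop)
    (hFr : ∀ s a, Fr s a →
      ρ s * ρ s = a • ρ s - ((d s : Oˣ) : O) • (1 : Matrix (Fin r) (Fin r) O))
    (hdense : ∀ (g : G) (n : ℕ), ∃ (s : G) (a : O) (j : ℤ), Fr s a ∧
      EntriesIn (I ^ n) (ρ (s ^ j) - ρ g) ∧
      ((d (s ^ j) : Oˣ) : O) - ((d g : Oˣ) : O) ∈ I ^ n) :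
    ∃ t : G → O,
      (∀ g, ρ g * ρ g = t g • ρ g - ((d g : Oˣ) : O) • (1 : Matrix (Fin r) (Fin r) O)) ∧
      ∀ s a, Fr s a → t s = a := by
  obtain ⟨t, ht, huniq⟩ := exists_trace_of_dense I hr ρ d
    (fun s a => ρ s * ρ s = a • ρ s - ((d s : Oˣ) : O) • (1 : Matrix (Fin r) (Fin r) O))
    (fun _ _ h => h) (by
      intro g n
      obtain ⟨s, a, j, hsa, h1, h2⟩ := hdense g n
      obtain ⟨b, hb⟩ := exists_zpow_quad ρ d (hFr s a hsa) j
      exact ⟨s ^ j, b, hb, h1, h2⟩)
  exact ⟨t, ht, fun s a hsa => huniq s a (hFr s a hsa)⟩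

end Dense

end Fermat.Agent.S30.H31
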