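import Mathlib
import Fermat.Prelude.Def_GaloisRep_Adic
import Fermat.Agent.S14.H31_FrobPrelude
import Fermat.Agent.S30.H31_AdicQuad
import Fermat.Agent.S30.H68_CycloAdic

/-!
# S30, package (DI) DENSITY-INST (helper10)

`O` a commutative local ring, adically complete for its maximal ideal `I ∋ p`; `M` a finite free
`O`-module with an adically continuous action `rho` of `G_ℚ` such that the Frobenius elements at
the primes `ℓ ∉ T` satisfy `rho(φ)² = c(ℓ) rho(φ) - ℓ`.  Then, by the Frobenius density theorem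
(existence form, `S14.H31.exists_isFrobeniusAt_map_eq_zpow`) and completeness
(`S30.H31.exists_trace_of_dense_zpow`), EVERY `g ∈ G_ℚ` satisfies
`rho(g)² = t(g) rho(g) - ε(g)` with `ε` the `p`-adic cyclotomic character (`H68.cycloAdic`), and
`t(φ) = c(ℓ)` on Frobenius elements.

* `hdense_of_continuous` : the hypothesis `hdense` of `H31.exists_trace_of_dense_zpow`;
* `exists_trace_matrix` : matrix form of the conclusion;
* `exists_trace_of_frobenius_quad` : endomorphism form, basis chosen internally.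
-/

set_option autoImplicit false

noncomputable section

namespace Fermat.Agent.S30.H10

open IsLocalRing Matrix Fermat.Agent.S30.H31 Fermat.Agent.S30

local notation "Qbar" => AlgebraicClosure ℚ
local notation "GQ" => (AlgebraicClosure ℚ ≃ₐ[ℚ] AlgebraicClosure ℚ)

section Coord

variable {O : Type*} [CommRing O] {M : Type*} [AddCommGroup M] [Module O M] {r : ℕ}

/-- The coordinates of an element of `J • ⊤` lie in `J`. -/
theorem repr_mem_of_mem_smul_top (b : Module.Basis (Fin r) O M) (J : Ideal O) {x : M}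
    (hx : x ∈ J • (⊤ : Submodule O M)) (i : Fin r) : b.repr x i ∈ J := by
  refine Submodule.smul_induction_on (p := fun x => b.repr x i ∈ J) hx ?_ ?_
  · intro a ha w _
    rw [map_smul, Finsupp.smul_apply, smul_eq_mul]
    exact J.mul_mem_right _ ha
  · intro x y hx hy
    rw [map_add, Finsupp.add_apply]
    exact J.add_mem hx hy

/-- The matrix representation attached to a basis. -/
def matRep {G : Type*} [Group G] (b : Module.Basis (Fin r) O M) (rho : G →* Module.End O M) :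
    G →* Matrix (Fin r) (Fin r) O :=
  ((LinearMap.toMatrixAlgEquiv b : Module.End O M ≃ₐ[O] Matrix (Fin r) (Fin r) O) :
    Module.End O M →* Matrix (Fin r) (Fin r) O).comp rho

theorem matRep_apply {G : Type*} [Group G] (b : Module.Basis (Fin r) O M)
    (rho : G →* Module.End O M) (g : G) :
    matRep b rho g = LinearMap.toMatrixAlgEquiv b (rho g) := rfl

/-- If `rho σ ≡ 1` modulo `J` on `M` then the matrix of `rho σ` is `≡ 1` entrywise. -/
theorem entriesIn_matRep_sub_one {G : Type*} [Group G] (b : Module.Basis (Fin r) O M)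
    (rho : G →* Module.End O M) (J : Ideal O) {σ : G}
    (h : ∀ v : M, rho σ v - v ∈ J • (⊤ : Submodule O M)) :
    EntriesIn J (matRep b rho σ - 1) := by
  classical
  intro i k
  have h1 := repr_mem_of_mem_smul_top b J (h (b k)) i
  rw [map_sub, Finsupp.sub_apply, Module.Basis.repr_self, Finsupp.single_apply] at h1
  rw [Matrix.sub_apply, matRep_apply, LinearMap.toMatrixAlgEquiv_apply, Matrix.one_apply]
  simpa only [eq_comm] using h1

end Coord

section Dense

variable {O : Type} [CommRing O] [IsLocalRing O] [IsAdicComplete (maximalIdeal O) O]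
  (p : ℕ) [hp : Fact p.Prime] (hpO : (p : O) ∈ maximalIdeal O)
  {M : Type} [AddCommGroup M] [Module O M] {r : ℕ}

/-- "`s` is a Frobenius element at a prime `ℓ ∉ T` and `a = c ℓ`". -/
def FrobRel (T : Finset ℕ) (c : ℕ → O) (s : GQ) (a : O) : Prop :=
  ∃ ℓ : ℕ, ℓ.Prime ∧ ℓ ∉ T ∧ ∃ A : ValuationSubring Qbar, A.LiesOverPrime ℓ ∧
    A.IsFrobeniusAt s ℓ ∧ a = c ℓ

/-- **(DI)** the density hypothesis of `H31.exists_trace_of_dense_zpow`: every `g ∈ G_ℚ` is
approximated modulo `I ^ n`, for the representation and for the cyclotomic character, by an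
integer power of a Frobenius element at a prime outside `T`. -/
theorem hdense_of_continuous (b : Module.Basis (Fin r) O M) (rho : GQ →* Module.End O M)
    (hcont : GaloisActionIsAdicContinuous O rho) (T : Finset ℕ) (c : ℕ → O) (g : GQ) (n : ℕ) :
    ∃ (s : GQ) (a : O) (j : ℤ), FrobRel T c s a ∧
      EntriesIn (maximalIdeal O ^ n) (matRep b rho (s ^ j) - matRep b rho g) ∧
      ((H68.cycloAdic p (maximalIdeal O) hpO (s ^ j) : Oˣ) : O) -
        ((H68.cycloAdic p (maximalIdeal O) hpO g : Oˣ) : O) ∈ maximalIdeal O ^ n := by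
  classical
  set I := maximalIdeal O with hI
  obtain ⟨L, hL, hLρ⟩ := hcont n
  obtain ⟨L', hL', hLd⟩ := H68.cycloAdic_continuity p I hpO n
  have : FiniteDimensional ℚ ↥(L ⊔ L') := IntermediateField.finiteDimensional_sup L L'
  -- the homomorphism "`(ρ, ε)` modulo `I ^ n`"
  let π : O →+* O ⧸ I ^ n := Ideal.Quotient.mk (I ^ n)
  let ρ₁ : GQ →* (Matrix (Fin r) (Fin r) (O ⧸ I ^ n))ˣ :=
    (Units.map ((RingHom.mapMatrix π : Matrix (Fin r) (Fin r) O →+* _) :
      Matrix (Fin r) (Fin r) O →* Matrix (Fin r) (Fin r) (O ⧸ I ^ n))).comp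
      (matRep b rho).toHomUnits
  let ρ₂ : GQ →* (O ⧸ I ^ n)ˣ :=
    (Units.map (π : O →* O ⧸ I ^ n)).comp (H68.cycloAdic p I hpO)
  have hρ₁ : ∀ σ τ : GQ, ρ₁ σ = ρ₁ τ → EntriesIn (I ^ n) (matRep b rho σ - matRep b rho τ) := by
    intro σ τ h i k
    have h1 : ((ρ₁ σ : (Matrix (Fin r) (Fin r) (O ⧸ I ^ n))ˣ) :
        Matrix (Fin r) (Fin r) (O ⧸ I ^ n)) i k = ((ρ₁ τ : (Matrix (Fin r) (Fin r) (O ⧸ I ^ n))ˣ) :
        Matrix (Fin r) (Fin r) (O ⧸ I ^ n)) i k := by rw [h]
    have h2 : π (matRep b rho σ i k) = π (matRep b rho τ i k) := h1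
    rw [Matrix.sub_apply]
    exact Ideal.Quotient.eq.1 h2
  have hρ₂ : ∀ σ τ : GQ, ρ₂ σ = ρ₂ τ →
      ((H68.cycloAdic p I hpO σ : Oˣ) : O) - ((H68.cycloAdic p I hpO τ : Oˣ) : O) ∈ I ^ n := by
    intro σ τ h
    have h1 : ((ρ₂ σ : (O ⧸ I ^ n)ˣ) : O ⧸ I ^ n) = ((ρ₂ τ : (O ⧸ I ^ n)ˣ) : O ⧸ I ^ n) := by
      rw [h]
    have h2 : π ((H68.cycloAdic p I hpO σ : Oˣ) : O) = π ((H68.cycloAdic p I hpO τ : Oˣ) : O) :=
      h1
    exact Ideal.Quotient.eq.1 h2
  have hF : (L ⊔ L').fixingSubgroup ≤ (ρ₁.prod ρ₂).ker := by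
    intro σ hσ
    have hσL : ∀ x ∈ L, σ x = x := fun x hx =>
      (IntermediateField.mem_fixingSubgroup_iff _ σ).1 hσ x (le_sup_left (a := L) hx)
    have hσL' : ∀ x ∈ L', σ x = x := fun x hx =>
      (IntermediateField.mem_fixingSubgroup_iff _ σ).1 hσ x (le_sup_right (b := L') hx)
    rw [MonoidHom.mem_ker, MonoidHom.prod_apply, Prod.mk_eq_one]
    constructor
    · apply Units.ext
      ext i k
      have h1 := entriesIn_matRep_sub_one b rho (I ^ n) (hLρ σ hσL) i k
      have h2 : π (matRep b rho σ i k) = π ((1 : Matrix (Fin r) (Fin r) O) i k) := by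
        rw [Matrix.sub_apply] at h1
        exact Ideal.Quotient.eq.2 h1
      show π (matRep b rho σ i k) = (1 : Matrix (Fin r) (Fin r) (O ⧸ I ^ n)) i k
      rw [h2, Matrix.one_apply, Matrix.one_apply]
      split_ifs
      · exact map_one π
      · exact map_zero π
    · apply Units.ext
      have h1 := H68.span_natCast_pow_le p I hpO n (hLd σ hσL')
      show π ((H68.cycloAdic p I hpO σ : Oˣ) : O) = 1
      rw [← map_one π]
      exact Ideal.Quotient.eq.2 h1
  obtain ⟨q, A, φ, j, k, hq, hqT, hA1, hA2, -, h2⟩ :=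
    Fermat.Agent.S14.H31.exists_isFrobeniusAt_map_eq_zpow (L ⊔ L') (ρ₁.prod ρ₂) hF g T
  rw [← map_zpow] at h2
  have h3 : ρ₁ g = ρ₁ (φ ^ j) := congrArg Prod.fst h2
  have h4 : ρ₂ g = ρ₂ (φ ^ j) := congrArg Prod.snd h2
  exact ⟨φ, c q, j, ⟨q, hq, hqT, A, hA1, hA2, rfl⟩, hρ₁ _ _ h3.symm, hρ₂ _ _ h4.symm⟩

/-- **(DI) + (A1)**, matrix form. -/
theorem exists_trace_matrix (hr : 0 < r) (b : Module.Basis (Fin r) O M)
    (rho : GQ →* Module.End O M) (hcont : GaloisActionIsAdicContinuous O rho)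
    (T : Finset ℕ) (hpT : p ∈ T) (c : ℕ → O)
    (hquad : ∀ ℓ : ℕ, ℓ.Prime → ℓ ∉ T → ∀ A : ValuationSubring Qbar, A.LiesOverPrime ℓ →
      ∀ σ : GQ, A.IsFrobeniusAt σ ℓ →
        rho σ * rho σ = c ℓ • rho σ - (ℓ : O) • (1 : Module.End O M)) :
    ∃ t : GQ → O,
      (∀ g, matRep b rho g * matRep b rho g = t g • matRep b rho g -
        ((H68.cycloAdic p (maximalIdeal O) hpO g : Oˣ) : O) •
          (1 : Matrix (Fin r) (Fin r) O)) ∧
      ∀ s a, FrobRel T c s a → t s = a := by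
  refine exists_trace_of_dense_zpow (maximalIdeal O) hr (matRep b rho)
    (H68.cycloAdic p (maximalIdeal O) hpO) (FrobRel T c) ?_
    (fun g n => hdense_of_continuous p hpO b rho hcont T c g n)
  rintro s a ⟨ℓ, hℓ, hℓT, A, hA1, hA2, rfl⟩
  have hℓp : ℓ ≠ p := fun h => hℓT (h ▸ hpT)
  rw [H68.cycloAdic_frobenius p (maximalIdeal O) hpO hℓ hℓp hA1 hA2]
  have h := congrArg (LinearMap.toMatrixAlgEquiv b) (hquad ℓ hℓ hℓT A hA1 s hA2)
  rw [map_mul, map_sub, map_smul, map_smul, map_one] at h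
  exact h

/-- **(DI) + (A1)**, endomorphism form: the quadratic relation for every `g ∈ G_ℚ`. -/
theorem exists_trace_of_frobenius_quad [Module.Free O M] [Module.Finite O M] [Nontrivial M]
    (rho : GQ →* Module.End O M) (hcont : GaloisActionIsAdicContinuous O rho)
    (T : Finset ℕ) (hpT : p ∈ T) (c : ℕ → O)
    (hquad : ∀ ℓ : ℕ, ℓ.Prime → ℓ ∉ T → ∀ A : ValuationSubring Qbar, A.LiesOverPrime ℓ →
      ∀ σ : GQ, A.IsFrobeniusAt σ ℓ →
        rho σ * rho σ = c ℓ • rho σ - (ℓ : O) • (1 : Module.End O M)) :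
    ∃ t : GQ → O,
      (∀ g, rho g * rho g = t g • rho g -
        ((H68.cycloAdic p (maximalIdeal O) hpO g : Oˣ) : O) • (1 : Module.End O M)) ∧
      ∀ ℓ : ℕ, ℓ.Prime → ℓ ∉ T → ∀ A : ValuationSubring Qbar, A.LiesOverPrime ℓ →
        ∀ σ : GQ, A.IsFrobeniusAt σ ℓ → t σ = c ℓ := by
  have hr : 0 < Module.finrank O M := (Module.finrank_pos_iff_of_free (R := O) (M := M)).2 inferInstance
  obtain ⟨t, ht, htF⟩ := exists_trace_matrix p hpO hr (Module.finBasis O M) rho hcont T hpT c hquad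
  refine ⟨t, fun g => ?_, fun ℓ hℓ hℓT A hA1 σ hA2 => htF σ (c ℓ) ⟨ℓ, hℓ, hℓT, A, hA1, hA2, rfl⟩⟩
  apply (LinearMap.toMatrixAlgEquiv (Module.finBasis O M)).injective
  rw [map_mul, map_sub, map_smul, map_smul, map_one]
  exact ht g

end Dense

end Fermat.Agent.S30.H10
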