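/-
S30 (helper31, ASSEMBLY-B): the frozen S30 conclusion from helper57's `Midpoint`.

`Midpoint p N S 𝒪' χ` (H57_Midpoint)  --(DI: H10.exists_trace_of_frobenius_quad)-->
quadratic relation for all `g ∈ G_ℚ` with the cyclotomic character
--(H31.s30_of_quadRel: oddness + lattice)--> the conclusion of the frozen statement S30 with
`𝒪'' := 𝒪'`.
-/
import Mathlib
import Fermat.Statements.S30
import Fermat.Agent.S30.H31_S30Assembly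
import Fermat.Agent.S30.H57_Midpoint
import Fermat.Agent.S30.H10_DensityInst

set_option autoImplicit false

namespace Fermat.Agent.S30.H31

open Polynomial CuspForm

/-- **ASSEMBLY-B.** The conclusion of the frozen statement S30 from the midpoint. -/
theorem s30_of_midpoint (p : ℕ) [Fact p.Prime] (N : ℕ) [NeZero N] (S : Finset ℕ) (hpS : p ∈ S)
    (𝒪' : Type) [CommRing 𝒪'] [IsDomain 𝒪'] [IsDiscreteValuationRing 𝒪']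
    [IsAdicComplete (IsLocalRing.maximalIdeal 𝒪') 𝒪'] [Finite (IsLocalRing.ResidueField 𝒪')]
    [CharZero 𝒪'] (hp𝒪' : (p : 𝒪') ∈ IsLocalRing.maximalIdeal 𝒪')
    (χ : CuspForm.heckeAlgebra N 2 (↑S : Set ℕ) →+* 𝒪')
    (hmid : H57.Midpoint p N S 𝒪' χ) :
    ∃ (𝒪'' : Type) (_ : CommRing 𝒪'') (_ : IsDomain 𝒪'') (_ : IsDiscreteValuationRing 𝒪'')
      (_ : IsAdicComplete (IsLocalRing.maximalIdeal 𝒪'') 𝒪'')
      (_ : Finite (IsLocalRing.ResidueField 𝒪'')) (_ : CharZero 𝒪'')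
      (_ : Algebra 𝒪' 𝒪'') (_ : Module.Finite 𝒪' 𝒪'') (_ : IsLocalHom (algebraMap 𝒪' 𝒪'')),
    Function.Injective (algebraMap 𝒪' 𝒪'') ∧
    ∃ ρ : GaloisRepAdic 𝒪'',
      (∀ (ℓ : ℕ) (hℓ : ℓ.Prime) (hℓN : ¬ ℓ ∣ N) (hℓS : ℓ ∉ (↑S : Set ℕ)),
        ∀ A : ValuationSubring (AlgebraicClosure ℚ), A.LiesOverPrime ℓ →
          ∀ σ : AlgebraicClosure ℚ ≃ₐ[ℚ] AlgebraicClosure ℚ, A.IsFrobeniusAt σ ℓ →
            LinearMap.charpoly (ρ.ρ σ) =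
              X ^ 2 - C (algebraMap 𝒪' 𝒪'' (χ (CuspForm.heckeAlgebra.T hℓ hℓN hℓS))) * X
                + C ((ℓ : 𝒪''))) ∧
      (∀ q : ℕ, q.Prime → ¬ q ∣ N → q ≠ p → ρ.IsUnramifiedAt q) := by
  classical
  obtain ⟨M, i1, i2, i3, i4, ρ, hnt, hcont, hunr, hfrob⟩ := hmid
  -- the bad set and the eigenvalue function
  set T : Finset ℕ := S ∪ N.primeFactors with hT
  have hpT : p ∈ T := Finset.mem_union_left _ hpS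
  set c : ℕ → 𝒪' := fun ℓ =>
    if h : ℓ.Prime ∧ ¬ ℓ ∣ N ∧ ℓ ∉ (↑S : Set ℕ) then χ (CuspForm.heckeAlgebra.T h.1 h.2.1 h.2.2)
    else 0 with hc
  have hgood : ∀ ℓ : ℕ, ℓ.Prime → ℓ ∉ T → ¬ ℓ ∣ N ∧ ℓ ∉ (↑S : Set ℕ) := by
    intro ℓ hℓ hℓT
    rw [hT, Finset.mem_union, not_or] at hℓT
    refine ⟨fun hdvd => hℓT.2 ?_, fun hS => hℓT.1 (Finset.mem_coe.mp hS)⟩
    exact Nat.mem_primeFactors.mpr ⟨hℓ, hdvd, NeZero.ne N⟩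
  have hnotT : ∀ ℓ : ℕ, ℓ.Prime → ¬ ℓ ∣ N → ℓ ∉ (↑S : Set ℕ) → ℓ ∉ T := by
    intro ℓ hℓ hℓN hℓS hℓT
    rw [hT, Finset.mem_union] at hℓT
    rcases hℓT with h | h
    · exact hℓS (Finset.mem_coe.mpr h)
    · exact hℓN (Nat.mem_primeFactors.mp h).2.1
  have hcval : ∀ (ℓ : ℕ) (hℓ : ℓ.Prime) (hℓN : ¬ ℓ ∣ N) (hℓS : ℓ ∉ (↑S : Set ℕ)),
      c ℓ = χ (CuspForm.heckeAlgebra.T hℓ hℓN hℓS) := by
    intro ℓ hℓ hℓN hℓS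
    rw [hc]
    exact dif_pos ⟨hℓ, hℓN, hℓS⟩
  have hquadF : ∀ ℓ : ℕ, ℓ.Prime → ℓ ∉ T → ∀ A : ValuationSubring (AlgebraicClosure ℚ),
      A.LiesOverPrime ℓ → ∀ σ : AlgebraicClosure ℚ ≃ₐ[ℚ] AlgebraicClosure ℚ,
        A.IsFrobeniusAt σ ℓ →
          ρ σ * ρ σ = c ℓ • ρ σ - (ℓ : 𝒪') • (1 : Module.End 𝒪' M) := by
    intro ℓ hℓ hℓT A hA σ hσ
    obtain ⟨hℓN, hℓS⟩ := hgood ℓ hℓ hℓT
    rw [hcval ℓ hℓ hℓN hℓS]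
    exact hfrob ℓ hℓ hℓN hℓS A hA σ hσ
  obtain ⟨t, hquad, htF⟩ :=
    H10.exists_trace_of_frobenius_quad p hp𝒪' ρ hcont T hpT c hquadF
  refine s30_of_quadRel p N S hpS 𝒪' hp𝒪' χ M ρ hcont hunr t hquad ?_
  intro ℓ hℓ hℓN hℓS A hA σ hσ
  rw [htF ℓ hℓ (hnotT ℓ hℓ hℓN hℓS) A hA σ hσ, hcval ℓ hℓ hℓN hℓS]

end Fermat.Agent.S30.H31
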