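import Mathlib

/-!
# Compatible systems of Kummer-type maps by compactness

Given, for every `k`, an additive map `lam : L →+ J` killed by `p ^ k`, with kernel `p ^ k L`
and equivariant for a family of operators, we produce a *compatible* system
`p • lam (k + 1) = lam k`, by Kőnig's lemma for inverse systems of finite nonempty sets.
-/

set_option autoImplicit false

universe u

namespace Fermat.Agent.S30.H12

open CategoryTheory Opposite

/-- Kőnig's lemma for a sequence of finite nonempty types. -/
theorem exists_compatible_seq (X : ℕ → Type u) [∀ n, Finite (X n)] [∀ n, Nonempty (X n)]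
    (f : ∀ n, X (n + 1) → X n) : ∃ u : ∀ n, X n, ∀ n, f n (u (n + 1)) = u n := by
  let F : ℕᵒᵖ ⥤ Type u := Functor.ofOpSequence (X := X) (fun n => TypeCat.ofHom (f n))
  have : ∀ j : ℕᵒᵖ, Finite (F.obj j) := fun j => by
    show Finite (X j.unop); infer_instance
  have : ∀ j : ℕᵒᵖ, Nonempty (F.obj j) := fun j => by
    show Nonempty (X j.unop); infer_instance
  obtain ⟨u, hu⟩ := nonempty_sections_of_finite_inverse_system F
  refine ⟨fun n => u (op n), fun n => ?_⟩
  have h := hu (homOfLE (Nat.le_add_right n 1)).op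
  rw [Functor.ofOpSequence_map_homOfLE_succ] at h
  exact h

section Compat

variable {L J : Type*} [AddCommGroup L] [Module.Finite ℤ L] [IsAddTorsionFree L] [AddCommGroup J]

/-- **Compactness.** Level-wise existence of equivariant maps `L →+ J` killed by `p ^ k` with
kernel `p ^ k L` implies the existence of a compatible system. All scalar multiplications are by
natural numbers. -/
theorem exists_compatible_system (p : ℕ) (hp : 0 < p) {I : Type*} (theta : I → L →+ L)
    (tau : I → J →+ J) (hfin : ∀ k, Set.Finite {y : J | p ^ k • y = 0})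
    (h : ∀ k, ∃ lam : L →+ J, (∀ x, p ^ k • lam x = 0) ∧
      (∀ x, lam x = 0 → ∃ y, x = p ^ k • y) ∧ ∀ i x, lam (theta i x) = tau i (lam x)) :
    ∃ lam : ℕ → L →+ J, (∀ k x, p ^ k • lam k x = 0) ∧
      (∀ k x, lam k x = 0 → ∃ y, x = p ^ k • y) ∧
      (∀ k i x, lam k (theta i x) = tau i (lam k x)) ∧ ∀ k x, p • lam (k + 1) x = lam k x := by
  classical
  let P : ℕ → (L →+ J) → Prop := fun k lam => (∀ x, p ^ k • lam x = 0) ∧
    (∀ x, lam x = 0 → ∃ y, x = p ^ k • y) ∧ ∀ i x, lam (theta i x) = tau i (lam x)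
  let X : ℕ → Type _ := fun k => {lam : L →+ J // P k lam}
  obtain ⟨s, hs⟩ := (Module.Finite.fg_top : (⊤ : Submodule ℤ L).FG)
  have hfinX : ∀ k, Finite (X k) := by
    intro k
    have : Finite ↑{y : J | p ^ k • y = 0} := (hfin k).to_subtype
    let e : X k → (↥s → ↑{y : J | p ^ k • y = 0}) := fun lam g => ⟨lam.1 g, lam.2.1 g⟩
    refine Finite.of_injective e ?_
    intro lam lam' hll
    apply Subtype.ext
    apply AddMonoidHom.toIntLinearMap_injective
    refine LinearMap.ext_on hs ?_
    intro g hg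
    have := congrFun hll ⟨g, hg⟩
    exact congrArg Subtype.val this
  have hneX : ∀ k, Nonempty (X k) := fun k => by
    obtain ⟨lam, hlam⟩ := h k
    exact ⟨⟨lam, hlam⟩⟩
  let f : ∀ k, X (k + 1) → X k := fun k μ => ⟨p • μ.1, by
    obtain ⟨h1, h2, h3⟩ := μ.2
    refine ⟨fun x => ?_, fun x hx => ?_, fun i x => ?_⟩
    · rw [AddMonoidHom.smul_apply, smul_smul, ← pow_succ]
      exact h1 x
    · rw [AddMonoidHom.smul_apply, ← map_nsmul] at hx
      obtain ⟨y, hy⟩ := h2 _ hx
      refine ⟨y, ?_⟩
      rw [pow_succ, mul_comm, mul_smul] at hy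
      exact nsmul_right_injective hp.ne' hy
    · rw [AddMonoidHom.smul_apply, AddMonoidHom.smul_apply, h3, map_nsmul]⟩
  obtain ⟨u, hu⟩ := exists_compatible_seq X f
  refine ⟨fun k => (u k).1, fun k x => (u k).2.1 x, fun k x => (u k).2.2.1 x,
    fun k i x => (u k).2.2.2 i x, fun k x => ?_⟩
  have h1 := congrArg (fun μ : X k => μ.1 x) (hu k)
  simpa [f, AddMonoidHom.smul_apply] using h1

end Compat

end Fermat.Agent.S30.H12
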