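/-
S30 / TATE layer (helper57), part 3: the lattice `L → T_p J` of a compatible Kummer system.

* `tateLam lam h0 hc : L →+ Tate p J` for a compatible system `lam k : L →+ J` (`p^k` kills
  `lam k`, `p • lam (k+1) = lam k`), with `tateLam_equivariant`;
* `linearIndependent_tateLam` **(LI)** : if moreover `lam k x = 0 → x ∈ p^k L`, the images of a
  `ℤ`-basis of `L` are `ℤ_p`-linearly independent;
* `exists_eigenvector_tensor_tate` : a coordinate eigenvector on `L` (eigenvalues in a domain `O`
  which is a `ℤ_p`-algebra with injective structure map) gives a nonzero eigenvector in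
  `O ⊗[ℤ_p] T_p J`.
-/
import Mathlib
import Fermat.Agent.S30.H57_TateRep

set_option autoImplicit false

namespace Fermat.Agent.S30.H57

open scoped TensorProduct

noncomputable section

section Lambda

variable {p : ℕ} {J : Type*} [AddCommGroup J] {L : Type*} [AddCommGroup L]
  (lam : ℕ → L →+ J) (h0 : ∀ k x, p ^ k • lam k x = 0)
  (hc : ∀ k x, p • lam (k + 1) x = lam k x)

/-- The map `L → T_p J` attached to a compatible system `lam k : L → J[p^k]`. -/
def tateLam : L →+ Tate p J where
  toFun x := Tate.mk (fun k => lam k x)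
    (by have := h0 0 x; rwa [pow_zero, one_smul] at this) (fun k => hc k x)
  map_zero' := by
    ext k
    simp only [Tate.mk_comp, map_zero, Tate.zero_comp]
  map_add' x y := by
    ext k
    simp only [Tate.mk_comp, map_add, Tate.add_comp]

@[simp] theorem tateLam_comp (x : L) (k : ℕ) : (tateLam lam h0 hc x).comp k = lam k x := rfl

theorem tateLam_equivariant [Fact p.Prime] {θ : L →+ L} {τ : J →+ J}
    (hT : ∀ k x, lam k (θ x) = τ (lam k x)) (x : L) :
    tateLam lam h0 hc (θ x) = Tate.map τ (tateLam lam h0 hc x) := by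
  ext k
  rw [tateLam_comp, Tate.map_comp, tateLam_comp, hT]

variable (hker : ∀ k x, lam k x = 0 → ∃ y, x = p ^ k • y)

include hker in
/-- **(LI)** The images of a `ℤ`-basis of `L` are `ℤ_p`-linearly independent in `T_p J`. -/
theorem linearIndependent_tateLam [hp : Fact p.Prime] {κ : Type*} [Fintype κ] (b : Module.Basis κ ℤ L) :
    LinearIndependent ℤ_[p] (fun i => tateLam lam h0 hc (b i)) := by
  classical
  rw [Fintype.linearIndependent_iff]
  intro g hg i
  rw [← PadicInt.ext_of_toZModPow]
  intro k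
  rw [map_zero]
  -- look at the `k`-th component
  have h1 := congrArg (fun z : Tate p J => z.comp k) hg
  simp only [Tate.zero_comp] at h1
  have h2 : (∑ j, g j • tateLam lam h0 hc (b j)).comp k =
      lam k (∑ j, (PadicInt.toZModPow k (g j)).val • b j) := by
    rw [map_sum, ← Tate.compHom_apply, map_sum]
    refine Finset.sum_congr rfl fun j _ => ?_
    rw [Tate.compHom_apply, Tate.smul_comp, tateLam_comp, map_nsmul]
  rw [h2] at h1
  obtain ⟨y, hy⟩ := hker k _ h1
  have h3 := congrArg (fun z => b.repr z i) hy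
  simp only [map_sum, map_nsmul, Finsupp.coe_finsetSum, Finsupp.coe_smul, Finset.sum_apply,
    Pi.smul_apply, Module.Basis.repr_self, Finsupp.single_apply, smul_ite, smul_zero,
    Finset.sum_ite_eq', Finset.mem_univ, if_true] at h3
  -- `h3 : n_i • 1 = p^k • (repr y i)` in `ℤ`
  have h4 : (((PadicInt.toZModPow k (g i)).val : ℕ) : ℤ) = (p ^ k : ℕ) * b.repr y i := by
    simpa using h3
  have h5 : (((PadicInt.toZModPow k (g i)).val : ℕ) : ZMod (p ^ k)) = 0 := by
    have := congrArg (Int.cast : ℤ → ZMod (p ^ k)) h4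
    rwa [Int.cast_natCast, Int.cast_mul, Int.cast_natCast, ZMod.natCast_self, zero_mul] at this
  rwa [ZMod.natCast_zmod_val] at h5

end Lambda

section Transfer

variable {p : ℕ} [hp : Fact p.Prime] {J : Type*} [AddCommGroup J] {L : Type*} [AddCommGroup L]
  {O : Type*} [CommRing O] [IsDomain O] [Algebra ℤ_[p] O]

theorem flat_of_injective_algebraMap (hinj : Function.Injective (algebraMap ℤ_[p] O)) :
    Module.Flat ℤ_[p] O := by
  have : Module.IsTorsionFree ℤ_[p] O := by
    apply Module.IsTorsionFree.of_smul_eq_zero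
    intro r x hrx
    rw [Algebra.smul_def] at hrx
    rcases mul_eq_zero.mp hrx with h | h
    · left
      exact hinj (by rw [h, map_zero])
    · exact Or.inr h
  infer_instance

/-- **Eigenvector transfer.**  A compatible system of injections `L/p^k → J[p^k]` intertwining the
operators `θ i` on `L` with `τ i` on `J` carries a coordinate eigenvector of the `θ i` (with
eigenvalues `c i ∈ O`) to a nonzero eigenvector of the `τ i` in `O ⊗ T_p J`. -/
theorem exists_eigenvector_tensor_tate (hinj : Function.Injective (algebraMap ℤ_[p] O))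
    (lam : ℕ → L →+ J) (h0 : ∀ k x, p ^ k • lam k x = 0)
    (hc : ∀ k x, p • lam (k + 1) x = lam k x)
    (hker : ∀ k x, lam k x = 0 → ∃ y, x = p ^ k • y)
    {ι : Type*} (θ : ι → L →+ L) (τ : ι → AddMonoid.End J)
    (hT : ∀ i k x, lam k (θ i x) = τ i (lam k x))
    (c : ι → O) {κ : Type*} [Fintype κ] (b : Module.Basis κ ℤ L)
    (a : κ → O) (ha : a ≠ 0)
    (heig : ∀ i j, ∑ l, ((b.coord j (θ i (b l)) : ℤ) : O) * a l = c i * a j) :
    ∃ m : O ⊗[ℤ_[p]] Tate p J, m ≠ 0 ∧ ∀ i, tateRep p J O (τ i) m = c i • m := by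
  classical
  have hflat : Module.Flat ℤ_[p] O := flat_of_injective_algebraMap hinj
  set v : κ → Tate p J := fun j => tateLam lam h0 hc (b j) with hv
  have hli : LinearIndependent ℤ_[p] v := linearIndependent_tateLam lam h0 hc hker b
  have hlw : LinearIndependent O (fun j => (1 : O) ⊗ₜ[ℤ_[p]] v j) :=
    Module.Flat.linearIndependent_one_tmul hli
  refine ⟨∑ j, a j • ((1 : O) ⊗ₜ[ℤ_[p]] v j), ?_, ?_⟩
  · intro h
    apply ha
    funext j
    exact (Fintype.linearIndependent_iff.mp hlw) a h j
  · intro i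
    -- the action of `τ i` on the generators
    have hgen : ∀ l, tateRep p J O (τ i) ((1 : O) ⊗ₜ[ℤ_[p]] v l) =
        ∑ j, ((b.coord j (θ i (b l)) : ℤ) : O) • ((1 : O) ⊗ₜ[ℤ_[p]] v j) := by
      intro l
      rw [tateRep_tmul]
      have h1 : Tate.map (τ i) (v l) = tateLam lam h0 hc (θ i (b l)) :=
        (tateLam_equivariant (θ := θ i) (τ := τ i) lam h0 hc (hT i) (b l)).symm
      rw [h1]
      conv_lhs => rw [← b.sum_repr (θ i (b l))]
      rw [map_sum, TensorProduct.tmul_sum]
      refine Finset.sum_congr rfl fun j _ => ?_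
      rw [map_zsmul, Int.cast_smul_eq_zsmul]
      exact map_zsmul (TensorProduct.mk ℤ_[p] O (Tate p J) 1) _ _
    rw [map_sum, Finset.smul_sum]
    have h2 : ∀ l, tateRep p J O (τ i) (a l • ((1 : O) ⊗ₜ[ℤ_[p]] v l)) =
        ∑ j, (((b.coord j (θ i (b l)) : ℤ) : O) * a l) • ((1 : O) ⊗ₜ[ℤ_[p]] v j) := by
      intro l
      rw [map_smul, hgen l, Finset.smul_sum]
      refine Finset.sum_congr rfl fun j _ => ?_
      rw [smul_smul, mul_comm]
    simp only [h2]
    rw [Finset.sum_comm]
    refine Finset.sum_congr rfl fun j _ => ?_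
    rw [← Finset.sum_smul, heig i j, smul_smul]

end Transfer

end

end Fermat.Agent.S30.H57
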