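/-
S30 / ASSEMBLY-A (helper57), second half **(C1)**: the nonzero `χ`-eigenvector in
`𝒪' ⊗[ℤ_p] T_p J₀(N)`.

* `exists_eigen_coordinates` **(SU')** : coordinate form over a domain of helper49's
  `H49.exists_dual_functional`;
* `exists_eigenvector_tate` : from the Stage-3 Kummer injections at all levels `p^k` (made
  compatible by helper12's compactness lemma), `H85.cohHeckeRep` (faithful) and
  `exists_eigenvector_tensor_tate`.
-/
import Mathlib
import Fermat.Agent.S30.H57_S30Input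
import Fermat.Agent.S30.H57_TateLattice
import Fermat.Agent.S30.H12_Compat
import Fermat.Agent.S30.H49_SupportEigen
import Fermat.Agent.S29.H80_Interface
import Fermat.Agent.S41.H85_HeckeModule

set_option autoImplicit false

namespace Fermat.Agent.S30.H57

open scoped TensorProduct
open ModularCurve CuspForm ModularCurve.Period CongruenceSubgroup
open Fermat.Agent.S29.H80 Fermat.Agent.S41.H85

noncomputable section

/-- **(SU')** coordinate form of helper49's SUPPORT-EIGEN over a domain `O`: a faithful action of a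
commutative ring `T` on a finite free `ℤ`-module has, for every `χ : T →+* O`, a nonzero coordinate
eigenvector with entries in `O`. -/
theorem exists_eigen_coordinates {T L O : Type*} [CommRing T] [AddCommGroup L]
    [Module.Free ℤ L] [Module.Finite ℤ L] (Θ : T →+* Module.End ℤ L)
    (hΘ : Function.Injective Θ) [CommRing O] [IsDomain O] (χ : T →+* O)
    {κ : Type*} [Fintype κ] (b : Module.Basis κ ℤ L) :
    ∃ a : κ → O, a ≠ 0 ∧
      ∀ t j, ∑ l, ((b.coord j (Θ t (b l)) : ℤ) : O) * a l = χ t * a j := by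
  classical
  set K := FractionRing O with hK
  set χK : T →+* K := (algebraMap O K).comp χ with hχK
  obtain ⟨G, hG0, hG⟩ := H49.exists_dual_functional Θ hΘ χK
  set g : κ → K := fun l => G (b.coord l) with hg
  have hGlin : ∀ f : Module.Dual ℤ L, G f = ∑ l, ((f (b l) : ℤ) : K) * g l := by
    intro f
    conv_lhs => rw [← b.sum_dual_apply_smul_coord f]
    rw [map_sum]
    refine Finset.sum_congr rfl fun l _ => ?_
    rw [map_zsmul, zsmul_eq_mul]
  have hid : ∀ t j, ∑ l, ((b.coord j (Θ t (b l)) : ℤ) : K) * g l = χK t * g j := by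
    intro t j
    rw [← hG t (b.coord j), hGlin ((b.coord j) ∘ₗ Θ t)]
    rfl
  obtain ⟨d, hd⟩ := IsLocalization.exist_integer_multiples (nonZeroDivisors O)
    (Finset.univ : Finset κ) g
  choose a ha using fun l => hd l (Finset.mem_univ l)
  have hdK : algebraMap O K (d : O) ≠ 0 := by
    intro h
    have := (IsFractionRing.injective O K) (h.trans (map_zero _).symm)
    exact nonZeroDivisors.ne_zero d.2 this
  have ha' : ∀ l, algebraMap O K (a l) = algebraMap O K (d : O) * g l := by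
    intro l
    rw [ha l, Algebra.smul_def]
  refine ⟨a, ?_, ?_⟩
  · intro h0
    apply hG0
    ext f
    rw [hGlin f, AddMonoidHom.zero_apply]
    refine Finset.sum_eq_zero fun l _ => ?_
    have h1 := ha' l
    rw [h0, Pi.zero_apply, map_zero] at h1
    rcases mul_eq_zero.mp h1.symm with h | h
    · exact absurd h hdK
    · rw [h, mul_zero]
  · intro t j
    apply IsFractionRing.injective O K
    rw [map_sum, map_mul, ha' j]
    have : ∀ l, algebraMap O K (((b.coord j (Θ t (b l)) : ℤ) : O) * a l) =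
        algebraMap O K (d : O) * (((b.coord j (Θ t (b l)) : ℤ) : K) * g l) := by
      intro l
      rw [map_mul, ha' l, map_intCast]
      ring
    simp only [this]
    rw [← Finset.mul_sum, hid t j, hχK, RingHom.comp_apply]
    ring

variable (N : ℕ) [NeZero N]

instance latAddTorsionFree : IsAddTorsionFree (Lat N) :=
  Module.isTorsionFree_int_iff_isAddTorsionFree.mp inferInstance

omit [NeZero N] in
theorem cohT_of_not_dvd {ℓ : ℕ} (hℓ : ℓ.Prime) (hℓN : ¬ ℓ ∣ N) :
    cohT N ⟨ℓ, hℓ⟩ = heckeTPar ℤ ℤ hℓ hℓN := by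
  unfold cohT
  rw [dif_neg hℓN]

/-- **(C1) EIGENVECTOR.**  From the Stage-3 Kummer injections `Lat N / p^k → J₀(N)[p^k]`
(helper80's `exists_lam_JZero` at `n = p^k`), finiteness of `J₀(N)[p]` and the faithful action of
the Hecke algebra on `Lat N`: every `χ : heckeAlgebra N 2 S →+* 𝒪'` has a nonzero eigenvector in
`𝒪' ⊗[ℤ_p] T_p J₀(N)`. -/
theorem exists_eigenvector_tate (p : ℕ) [hp : Fact p.Prime] (S : Finset ℕ)
    (𝒪' : Type) [CommRing 𝒪'] [IsDomain 𝒪'] [IsLocalRing 𝒪']
    [IsAdicComplete (IsLocalRing.maximalIdeal 𝒪') 𝒪'] [CharZero 𝒪']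
    (hp𝒪' : (p : 𝒪') ∈ IsLocalRing.maximalIdeal 𝒪')
    (χ : heckeAlgebra N 2 (↑S : Set ℕ) →+* 𝒪')
    (hfin : Set.Finite {y : JZero N | p • y = 0})
    (hK : ∀ k : ℕ, ∃ lam : Lat N →+ JZero N, (∀ x, ((p ^ k : ℕ) : ℤ) • lam x = 0) ∧
      (∀ x, lam x = 0 → ∃ y, x = ((p ^ k : ℕ) : ℤ) • y) ∧
      ∀ (l : Nat.Primes) (x : Lat N), lam (cohT N l x) = heckeOperatorBar N l (lam x)) :
    letI : Algebra ℤ_[p] 𝒪' := (H83.zpTo p 𝒪' hp𝒪').toAlgebra
    ∃ m : 𝒪' ⊗[ℤ_[p]] Tate p (JZero N), m ≠ 0 ∧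
      ∀ ℓ : GoodPrime N S, tateRep p (JZero N) 𝒪' (heckeJ N S ℓ) m = eigenval N χ ℓ • m := by
  classical
  let _ : Algebra ℤ_[p] 𝒪' := (H83.zpTo p 𝒪' hp𝒪').toAlgebra
  have hinj : Function.Injective (algebraMap ℤ_[p] 𝒪') := H83.zpTo_injective p hp𝒪'
  -- a compatible system
  obtain ⟨lam, h0, hker, hT, hc⟩ := H12.exists_compatible_system (L := Lat N) (J := JZero N) p
    hp.out.pos (fun l : Nat.Primes => (cohT N l).toAddMonoidHom)
    (fun l : Nat.Primes => (heckeOperatorBar N l).toAddMonoidHom)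
    (fun k => finite_torsion_pow hfin k) (by
      intro k
      obtain ⟨lam, h1, h2, h3⟩ := hK k
      refine ⟨lam, fun x => ?_, fun x hx => ?_, fun l x => h3 l x⟩
      · have := h1 x
        rwa [natCast_zsmul] at this
      · obtain ⟨y, hy⟩ := h2 x hx
        exact ⟨y, by rw [hy, natCast_zsmul]⟩)
  -- eigen-coordinates on `Lat N`
  let b := Module.Free.chooseBasis ℤ (Lat N)
  obtain ⟨a, ha0, ha⟩ := exists_eigen_coordinates (cohHeckeRep N (↑S : Set ℕ))
    (cohHeckeRep_injective (N := N) (S := (↑S : Set ℕ))) χ b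
  refine exists_eigenvector_tensor_tate hinj lam h0 hc hker
    (fun ℓ : GoodPrime N S => (cohT N ⟨ℓ.1, ℓ.2.1⟩).toAddMonoidHom) (heckeJ N S)
    (fun ℓ k x => hT k ⟨ℓ.1, ℓ.2.1⟩ x) (eigenval N χ) b a ha0 ?_
  intro ℓ j
  have := ha (heckeAlgebra.T ℓ.2.1 ℓ.2.2.1 ℓ.2.2.2) j
  rw [cohHeckeRep_T] at this
  show _ = χ (heckeAlgebra.T ℓ.2.1 ℓ.2.2.1 ℓ.2.2.2) * a j
  rw [← this]
  refine Finset.sum_congr rfl fun l _ => ?_
  rw [cohT_of_not_dvd N ℓ.2.1 ℓ.2.2.1]
  rfl

end

end Fermat.Agent.S30.H57
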