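import Mathlib
import Fermat.Agent.S30.H68_CycloAdic

/-!
# The `ℤ_[p]`-algebra structure of an adically complete ring (package (ZP) of the S30 blueprint)

`O` is a commutative ring, adically complete with respect to an ideal `I` containing `p`.
The canonical ring homomorphism `φ = H68.padicIntTo p I hpI : ℤ_[p] →+* O` was constructed in
`H68_CycloAdic`; here we record the remaining properties asked for by the blueprint:

* `padicIntTo_intCast`, `padicIntTo_natCast` : `φ` restricted to `ℤ` is `Int.cast`;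
* `mk_padicIntTo` : `φ x mod I ^ n` is the image of `x mod p ^ n`;
* `padicIntTo_mem_pow` : `a ∈ p ^ n ℤ_[p] → φ a ∈ I ^ n` (three spellings of `p ^ n ℤ_[p]`);
* `isLocalHom_padicIntTo` : `φ` is a local homomorphism as soon as `I ≠ ⊤`;
* `padicIntTo_injective` : `φ` is injective if `O` has characteristic zero;
* `padicIntTo_unique` : `φ` is the only ring homomorphism `ℤ_[p] →+* O`;
* the specialisations to a local ring `O` complete for its maximal ideal (`zpTo`).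
-/

set_option autoImplicit false

noncomputable section

namespace Fermat.Agent.S30.H83

open Fermat.Agent.S30.H68

section General

variable (p : ℕ) [hp : Fact p.Prime] {O : Type*} [CommRing O] (I : Ideal O) [IsAdicComplete I O]

theorem padicIntTo_intCast (hpI : (p : O) ∈ I) (z : ℤ) :
    padicIntTo p I hpI (z : ℤ_[p]) = (z : O) :=
  map_intCast _ _

theorem padicIntTo_natCast (hpI : (p : O) ∈ I) (z : ℕ) :
    padicIntTo p I hpI (z : ℤ_[p]) = (z : O) :=
  map_natCast _ _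

/-- `φ x mod I ^ n` is the image of `x mod p ^ n`. -/
theorem mk_padicIntTo (hpI : (p : O) ∈ I) (n : ℕ) (x : ℤ_[p]) :
    Ideal.Quotient.mk (I ^ n) (padicIntTo p I hpI x) = padicIntToQuot p I hpI n x := by
  unfold padicIntTo
  exact IsAdicComplete.mk_liftRingHom I (padicIntToQuot p I hpI) (fun {m _} _ =>
    padicInt_ringHom_ext p (natCast_pow_quotient_eq_zero p I hpI m) _ _) n x

/-- `a ∈ p ^ n ℤ_[p] → φ a ∈ I ^ n`. -/
theorem padicIntTo_mem_pow (hpI : (p : O) ∈ I) {a : ℤ_[p]} {n : ℕ}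
    (ha : a ∈ Ideal.span {(p : ℤ_[p]) ^ n}) : padicIntTo p I hpI a ∈ I ^ n := by
  rw [Ideal.mem_span_singleton] at ha
  obtain ⟨b, rfl⟩ := ha
  rw [map_mul, map_pow, map_natCast]
  exact Ideal.mul_mem_right _ _ (Ideal.pow_mem_pow hpI n)

/-- `a ∈ (p) ^ n → φ a ∈ I ^ n`. -/
theorem padicIntTo_mem_pow' (hpI : (p : O) ∈ I) {a : ℤ_[p]} {n : ℕ}
    (ha : a ∈ (Ideal.span {(p : ℤ_[p])}) ^ n) : padicIntTo p I hpI a ∈ I ^ n := by
  rw [Ideal.span_singleton_pow] at ha
  exact padicIntTo_mem_pow p I hpI ha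

/-- `a ∈ 𝔪 ^ n → φ a ∈ I ^ n`, `𝔪` the maximal ideal of `ℤ_[p]`. -/
theorem padicIntTo_mem_pow_maximalIdeal (hpI : (p : O) ∈ I) {a : ℤ_[p]} {n : ℕ}
    (ha : a ∈ (IsLocalRing.maximalIdeal ℤ_[p]) ^ n) : padicIntTo p I hpI a ∈ I ^ n := by
  rw [PadicInt.maximalIdeal_eq_span_p] at ha
  exact padicIntTo_mem_pow' p I hpI ha

/-- `‖a‖ ≤ p ^ (-n) → φ a ∈ I ^ n`. -/
theorem padicIntTo_mem_pow_of_norm_le (hpI : (p : O) ∈ I) {a : ℤ_[p]} {n : ℕ}
    (ha : ‖a‖ ≤ (p : ℝ) ^ (-(n : ℤ))) : padicIntTo p I hpI a ∈ I ^ n :=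
  padicIntTo_mem_pow p I hpI ((PadicInt.norm_le_pow_iff_mem_span_pow a n).mp ha)

/-- The image of `φ` of the map is in the ideal `I` exactly on non-units (`I ≠ ⊤`). -/
theorem padicIntTo_mem_of_not_isUnit (hpI : (p : O) ∈ I) {a : ℤ_[p]} (ha : ¬ IsUnit a) :
    padicIntTo p I hpI a ∈ I := by
  have h1 : a ∈ IsLocalRing.maximalIdeal ℤ_[p] := (IsLocalRing.mem_maximalIdeal a).mpr ha
  have h2 : a ∈ (IsLocalRing.maximalIdeal ℤ_[p]) ^ 1 := by rwa [pow_one]
  have h3 := padicIntTo_mem_pow_maximalIdeal p I hpI h2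
  rwa [pow_one] at h3

/-- `φ` is a local homomorphism as soon as `I` is a proper ideal. -/
theorem isLocalHom_padicIntTo (hpI : (p : O) ∈ I) (hI : I ≠ ⊤) :
    IsLocalHom (padicIntTo p I hpI) := by
  refine ⟨fun a ha => ?_⟩
  by_contra hna
  exact hI (Ideal.eq_top_of_isUnit_mem I (padicIntTo_mem_of_not_isUnit p I hpI hna) ha)

/-- `φ` is injective if `O` has characteristic zero. -/
theorem padicIntTo_injective [CharZero O] (hpI : (p : O) ∈ I) :
    Function.Injective (padicIntTo p I hpI) := by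
  rw [injective_iff_map_eq_zero]
  intro a ha
  by_contra ha0
  obtain ⟨u, n, rfl⟩ : ∃ (u : ℤ_[p]ˣ) (n : ℕ), a = u * (p : ℤ_[p]) ^ n :=
    ⟨PadicInt.unitCoeff ha0, a.valuation, PadicInt.unitCoeff_spec ha0⟩
  rw [map_mul, map_pow, map_natCast] at ha
  have hu : IsUnit (padicIntTo p I hpI (u : ℤ_[p])) := u.isUnit.map _
  have h0 : (p : O) ^ n = 0 := (hu.mul_right_eq_zero).mp ha
  rw [← Nat.cast_pow] at h0
  exact (Nat.cast_ne_zero.mpr (pow_ne_zero n hp.out.ne_zero)) h0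

/-- `φ` is the unique ring homomorphism `ℤ_[p] →+* O`. -/
theorem padicIntTo_unique (hpI : (p : O) ∈ I) (ψ : ℤ_[p] →+* O) : ψ = padicIntTo p I hpI := by
  refine RingHom.ext fun x => ?_
  refine eq_of_forall_sub_mem_span p I hpI fun n => ?_
  have hx := PadicInt.appr_spec n x
  rw [Ideal.mem_span_singleton] at hx
  obtain ⟨y, hy⟩ := hx
  have hx' : x = (x.appr n : ℤ_[p]) + (p : ℤ_[p]) ^ n * y := by rw [← hy]; ring
  rw [Ideal.mem_span_singleton]
  refine ⟨ψ y - padicIntTo p I hpI y, ?_⟩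
  conv_lhs => rw [hx']
  simp only [map_add, map_mul, map_pow, map_natCast, Nat.cast_pow]
  ring

end General

section Local

variable (p : ℕ) [hp : Fact p.Prime] (O : Type*) [CommRing O] [IsLocalRing O]
  [IsAdicComplete (IsLocalRing.maximalIdeal O) O]

/-- The canonical ring homomorphism `ℤ_[p] →+* O` for a local ring `O` which is complete for its
maximal ideal and in which `p` is not a unit. -/
def zpTo (hpm : (p : O) ∈ IsLocalRing.maximalIdeal O) : ℤ_[p] →+* O :=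
  padicIntTo p (IsLocalRing.maximalIdeal O) hpm

variable {O}

theorem zpTo_eq (hpm : (p : O) ∈ IsLocalRing.maximalIdeal O) :
    zpTo p O hpm = padicIntTo p (IsLocalRing.maximalIdeal O) hpm := rfl

theorem zpTo_intCast (hpm : (p : O) ∈ IsLocalRing.maximalIdeal O) (z : ℤ) :
    zpTo p O hpm (z : ℤ_[p]) = (z : O) := map_intCast _ _

theorem zpTo_natCast (hpm : (p : O) ∈ IsLocalRing.maximalIdeal O) (z : ℕ) :
    zpTo p O hpm (z : ℤ_[p]) = (z : O) := map_natCast _ _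

theorem zpTo_mem_pow (hpm : (p : O) ∈ IsLocalRing.maximalIdeal O) {a : ℤ_[p]} {n : ℕ}
    (ha : a ∈ Ideal.span {(p : ℤ_[p]) ^ n}) : zpTo p O hpm a ∈ (IsLocalRing.maximalIdeal O) ^ n :=
  padicIntTo_mem_pow p _ hpm ha

theorem zpTo_mem_pow_maximalIdeal (hpm : (p : O) ∈ IsLocalRing.maximalIdeal O) {a : ℤ_[p]}
    {n : ℕ} (ha : a ∈ (IsLocalRing.maximalIdeal ℤ_[p]) ^ n) :
    zpTo p O hpm a ∈ (IsLocalRing.maximalIdeal O) ^ n :=
  padicIntTo_mem_pow_maximalIdeal p _ hpm ha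

theorem isLocalHom_zpTo (hpm : (p : O) ∈ IsLocalRing.maximalIdeal O) :
    IsLocalHom (zpTo p O hpm) :=
  isLocalHom_padicIntTo p _ hpm (Ideal.IsPrime.ne_top inferInstance)

theorem zpTo_injective [CharZero O] (hpm : (p : O) ∈ IsLocalRing.maximalIdeal O) :
    Function.Injective (zpTo p O hpm) :=
  padicIntTo_injective p _ hpm

theorem zpTo_unique (hpm : (p : O) ∈ IsLocalRing.maximalIdeal O) (ψ : ℤ_[p] →+* O) :
    ψ = zpTo p O hpm :=
  padicIntTo_unique p _ hpm ψ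

/-- `φ x mod 𝔪 ^ n` only depends on `x mod p ^ n`. -/
theorem zpTo_sub_mem_pow (hpm : (p : O) ∈ IsLocalRing.maximalIdeal O) {x y : ℤ_[p]} {n : ℕ}
    (h : x - y ∈ Ideal.span {(p : ℤ_[p]) ^ n}) :
    zpTo p O hpm x - zpTo p O hpm y ∈ (IsLocalRing.maximalIdeal O) ^ n := by
  rw [← map_sub]
  exact zpTo_mem_pow p hpm h

end Local

end Fermat.Agent.S30.H83
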