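/-
S30 / ASSEMBLY-A (helper57), first half: `H57.Midpoint` from the (unfolded) Stage-2 clauses
`UnramifiedOutside` / `FrobeniusQuadratic` on `JZero N`, finiteness of `J₀(N)[p]` (Stage 3 FIN),
helper28's Galois-Hecke commutation, helper46's open stabilisers, and a nonzero `χ`-eigenvector in
`𝒪' ⊗[ℤ_p] T_p J₀(N)` (second half: Kummer injections + SUPPORT).
-/
import Mathlib
import Fermat.Prelude.Def_ModularCurve_HeckeModule
import Fermat.Agent.S30.H57_TateRep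
import Fermat.Agent.S30.H57_Midpoint
import Fermat.Agent.S30.H83_ZpAlgebra
import Fermat.Agent.S29.H28_GalHecke
import Fermat.Agent.S29.H46_OpenStab

set_option autoImplicit false

namespace Fermat.Agent.S30.H57

open scoped TensorProduct
open ModularCurve CuspForm

noncomputable section

local notation "Qbar" => AlgebraicClosure ℚ
local notation "GQ" => (AlgebraicClosure ℚ ≃ₐ[ℚ] AlgebraicClosure ℚ)

variable (N : ℕ) [NeZero N]

/-- The Galois action on `JZero N` as a monoid homomorphism into `AddMonoid.End`. -/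
def galJ : GQ →* AddMonoid.End (JZero N) := DistribMulAction.toAddMonoidEnd GQ (JZero N)

omit [NeZero N] in
@[simp] theorem galJ_apply (σ : GQ) (x : JZero N) : galJ N σ x = σ • x := rfl

/-- The good primes: `ℓ ∤ N`, `ℓ ∉ S`. -/
def GoodPrime (S : Finset ℕ) : Type := {ℓ : ℕ // ℓ.Prime ∧ ¬ ℓ ∣ N ∧ ℓ ∉ (↑S : Set ℕ)}

/-- The Hecke operator `T_ℓ` on `JZero N` for a good prime, as an additive endomorphism. -/
def heckeJ (S : Finset ℕ) (ℓ : GoodPrime N S) : AddMonoid.End (JZero N) :=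
  (heckeOperatorBar N ⟨ℓ.1, ℓ.2.1⟩).toAddMonoidHom

@[simp] theorem heckeJ_apply (S : Finset ℕ) (ℓ : GoodPrime N S) (x : JZero N) :
    heckeJ N S ℓ x = heckeOperatorBar N ⟨ℓ.1, ℓ.2.1⟩ x := rfl

/-- The eigenvalue system of `χ`. -/
def eigenval {S : Finset ℕ} {𝒪' : Type} [CommRing 𝒪']
    (χ : heckeAlgebra N 2 (↑S : Set ℕ) →+* 𝒪') (ℓ : GoodPrime N S) : 𝒪' :=
  χ (heckeAlgebra.T ℓ.2.1 ℓ.2.2.1 ℓ.2.2.2)

theorem commute_galJ_heckeJ (S : Finset ℕ) (σ : GQ) (ℓ : GoodPrime N S) :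
    Commute (galJ N σ) (heckeJ N S ℓ) := by
  refine AddMonoidHom.ext fun x => ?_
  show σ • heckeOperatorBar N ⟨ℓ.1, ℓ.2.1⟩ x = heckeOperatorBar N ⟨ℓ.1, ℓ.2.1⟩ (σ • x)
  exact Fermat.Agent.S29.H28.smul_heckeOperatorBar N _ σ x


/-- Finite level of the `p^n`-torsion (from `T3` and `FIN`). -/
theorem exists_finite_fixing_torsion {p : ℕ} (hfin : Set.Finite {y : JZero N | p • y = 0}) (n : ℕ) :
    ∃ E : IntermediateField ℚ Qbar, FiniteDimensional ℚ E ∧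
      ∀ σ : GQ, (∀ a ∈ E, σ a = a) → ∀ y : JZero N, p ^ n • y = 0 → σ • y = y := by
  obtain ⟨E, hE, h⟩ :=
    Fermat.Agent.S29.H46.exists_finite_fixing_of_finite N (finite_torsion_pow hfin n)
  exact ⟨E, hE, fun σ hσ y hy => h σ hσ y hy⟩

/-- **ASSEMBLY-A, first half**: the midpoint from the Stage-2 clauses (unfolded), finiteness of
`J[p]`, and a nonzero `χ`-eigenvector in `𝒪' ⊗ T_p J₀(N)`. -/
theorem midpoint_of_eigenvector (p : ℕ) [hp : Fact p.Prime] (S : Finset ℕ) (hpS : p ∈ S)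
    (𝒪' : Type) [CommRing 𝒪'] [IsDomain 𝒪'] [IsDiscreteValuationRing 𝒪']
    [IsAdicComplete (IsLocalRing.maximalIdeal 𝒪') 𝒪'] [CharZero 𝒪']
    (hp𝒪' : (p : 𝒪') ∈ IsLocalRing.maximalIdeal 𝒪')
    (χ : heckeAlgebra N 2 (↑S : Set ℕ) →+* 𝒪')
    (hunr : ∀ q : ℕ, q.Prime → ¬ q ∣ N * p → ∀ A : ValuationSubring Qbar, A.LiesOverPrime q →
      ∀ σ ∈ A.inertiaSubgroupIn ℚ, ∀ x : JZero N, (∃ n : ℕ, p ^ n • x = 0) → σ • x = x)
    (hfrob : ∀ (ℓ : ℕ) (hℓ : ℓ.Prime), ¬ ℓ ∣ N * p → ∀ A : ValuationSubring Qbar,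
      A.LiesOverPrime ℓ → ∀ σ : GQ, A.IsFrobeniusAt σ ℓ → ∀ x : JZero N,
        (∃ n : ℕ, p ^ n • x = 0) →
          σ • σ • x - heckeOperatorBar N ⟨ℓ, hℓ⟩ (σ • x) + ℓ • x = 0)
    (hfin : Set.Finite {y : JZero N | p • y = 0})
    (hne : letI : Algebra ℤ_[p] 𝒪' := (H83.zpTo p 𝒪' hp𝒪').toAlgebra
      ∃ m : 𝒪' ⊗[ℤ_[p]] Tate p (JZero N), m ≠ 0 ∧
        ∀ ℓ : GoodPrime N S, tateRep p (JZero N) 𝒪' (heckeJ N S ℓ) m = eigenval N χ ℓ • m) :
    Midpoint p N S 𝒪' χ := by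
  let _ : Algebra ℤ_[p] 𝒪' := (H83.zpTo p 𝒪' hp𝒪').toAlgebra
  have hpO : (p : 𝒪') ≠ 0 := Nat.cast_ne_zero.mpr hp.out.ne_zero
  obtain ⟨M, i1, i2, i3, i4, ρ, hnt, h1, h2, h3⟩ :=
    exists_midpoint_abstract (p := p) (J := JZero N) hfin (O := 𝒪') hpO (heckeJ N S)
      (eigenval N χ) (galJ N) (fun σ ℓ => commute_galJ_heckeJ N S σ ℓ) hne
  refine ⟨M, i1, i2, i3, i4, ρ, hnt, ?_, ?_, ?_⟩
  · -- continuity
    intro n
    obtain ⟨E, hE, hfix⟩ := exists_finite_fixing_torsion N hfin n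
    refine ⟨E, hE, fun σ hσ v => ?_⟩
    obtain ⟨m', hm'⟩ := h2 σ n (fun y hy => hfix σ hσ y hy) v
    rw [hm']
    refine Submodule.smul_mem_smul ?_ Submodule.mem_top
    exact Ideal.pow_mem_pow hp𝒪' n
  · -- unramified
    intro q hq hqN hqp P hP σ hσ
    apply h1 σ
    intro y hy
    have hdvd : ¬ q ∣ N * p := by
      intro h
      rcases (Nat.Prime.dvd_mul hq).mp h with h | h
      · exact hqN h
      · exact hqp ((Nat.prime_dvd_prime_iff_eq hq hp.out).mp h)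
    exact hunr q hq hdvd P hP σ hσ y hy
  · -- Frobenius
    intro ℓ hℓ hℓN hℓS A hA σ hσ
    have hdvd : ¬ ℓ ∣ N * p := by
      intro h
      rcases (Nat.Prime.dvd_mul hℓ).mp h with h | h
      · exact hℓN h
      · have : ℓ = p := (Nat.prime_dvd_prime_iff_eq hℓ hp.out).mp h
        exact hℓS (this ▸ Finset.mem_coe.mpr hpS)
    exact h3 σ ⟨ℓ, hℓ, hℓN, hℓS⟩ ℓ (fun y hy => hfrob ℓ hℓ hdvd A hA σ hσ y hy)

end

end Fermat.Agent.S30.H57
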