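import Mathlib
import Fermat.Agent.S30.H57_S30Input
import Fermat.Agent.S30.H57_Eigenvector
import Fermat.Agent.S30.H31_S30FromMidpoint
import Fermat.Agent.S30.H31_MidpointGlue
import Fermat.Agent.S29.H80_T0

set_option autoImplicit false

namespace Fermat.Agent.S30.H57

open scoped TensorProduct
open Polynomial ModularCurve CuspForm
open Fermat.Agent.S29.H80

local notation "Qbar" => AlgebraicClosure ℚ
local notation "GQ" => (AlgebraicClosure ℚ ≃ₐ[ℚ] AlgebraicClosure ℚ)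

/-- `J₀(N)[p]` is finite (ℕ-smul form of `H80.finite_torsion_JZero`). -/
theorem finite_torsion_JZero_nat (N : ℕ) [NeZero N] {p : ℕ} (hp : 0 < p) :
    Set.Finite {y : JZero N | p • y = 0} := by
  have h : Finite {x : JZero N // ((p : ℕ) : ℤ) • x = 0} := finite_torsion_JZero N hp
  have h2 : Set.Finite {y : JZero N | ((p : ℕ) : ℤ) • y = 0} := Set.finite_coe_iff.mp h
  refine h2.subset ?_
  intro y hy
  show ((p : ℕ) : ℤ) • y = 0
  rw [natCast_zsmul]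
  exact hy

/-- **S30 from the stages**: the frozen S30 from the frozen S37 conclusion (Stage 2) and the last
open Stage-3 package `H80.KummerPoincare N (p^M)`. -/
theorem s30_of_stages (p : ℕ) [hp : Fact p.Prime] (N : ℕ) [NeZero N] (S : Finset ℕ) (hpS : p ∈ S)
    (𝒪' : Type) [CommRing 𝒪'] [IsDomain 𝒪'] [IsDiscreteValuationRing 𝒪']
    [IsAdicComplete (IsLocalRing.maximalIdeal 𝒪') 𝒪'] [Finite (IsLocalRing.ResidueField 𝒪')]
    [CharZero 𝒪'] (hp𝒪' : (p : 𝒪') ∈ IsLocalRing.maximalIdeal 𝒪')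
    (χ : CuspForm.heckeAlgebra N 2 (↑S : Set ℕ) →+* 𝒪')
    (hS37 : HeckeOperatorsCommuteBar N → letI := heckeModuleBar N
      ∀ (_ : SMulCommClass GQ HeckeAlg (JZero N)),
        SpecializationExists (K := ℚ) (L := Qbar) N p (JZero N))
    (hK : ∀ M : ℕ, KummerPoincare N (p ^ M)) :
    ∃ (𝒪'' : Type) (_ : CommRing 𝒪'') (_ : IsDomain 𝒪'') (_ : IsDiscreteValuationRing 𝒪'')
      (_ : IsAdicComplete (IsLocalRing.maximalIdeal 𝒪'') 𝒪'')
      (_ : Finite (IsLocalRing.ResidueField 𝒪'')) (_ : CharZero 𝒪'')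
      (_ : Algebra 𝒪' 𝒪'') (_ : Module.Finite 𝒪' 𝒪'') (_ : IsLocalHom (algebraMap 𝒪' 𝒪'')),
    Function.Injective (algebraMap 𝒪' 𝒪'') ∧
    ∃ ρ : GaloisRepAdic 𝒪'',
      (∀ (ℓ : ℕ) (hℓ : ℓ.Prime) (hℓN : ¬ ℓ ∣ N) (hℓS : ℓ ∉ (↑S : Set ℕ)),
        ∀ A : ValuationSubring (AlgebraicClosure ℚ), A.LiesOverPrime ℓ →
          ∀ σ : AlgebraicClosure ℚ ≃ₐ[ℚ] AlgebraicClosure ℚ, A.IsFrobeniusAt σ ℓ →
            LinearMap.charpoly (ρ.ρ σ) =
              X ^ 2 - C (algebraMap 𝒪' 𝒪'' (χ (CuspForm.heckeAlgebra.T hℓ hℓN hℓS))) * X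
                + C ((ℓ : 𝒪''))) ∧
      (∀ q : ℕ, q.Prime → ¬ q ∣ N → q ≠ p → ρ.IsUnramifiedAt q) := by
  have hcomm : HeckeOperatorsCommuteBar N := heckeOperatorsCommuteBar N
  obtain ⟨hunr, hfrob⟩ :=
    Fermat.Agent.S30.H31.unr_frob_of_specializationExists p N hcomm (hS37 hcomm)
  have hfin : Set.Finite {y : JZero N | p • y = 0} := finite_torsion_JZero_nat N hp.out.pos
  have hK' : ∀ k : ℕ, ∃ lam : Lat N →+ JZero N, (∀ x, ((p ^ k : ℕ) : ℤ) • lam x = 0) ∧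
      (∀ x, lam x = 0 → ∃ y, x = ((p ^ k : ℕ) : ℤ) • y) ∧
      ∀ (l : Nat.Primes) (x : Lat N), lam (cohT N l x) = heckeOperatorBar N l (lam x) :=
    fun k => exists_lam_JZero_of_kummerPoincare N (pow_pos hp.out.pos k) (hK k)
  have hne := exists_eigenvector_tate N p S 𝒪' hp𝒪' χ hfin hK'
  have hmid : Midpoint p N S 𝒪' χ :=
    midpoint_of_eigenvector N p S hpS 𝒪' hp𝒪' χ hunr hfrob hfin hne
  exact Fermat.Agent.S30.H31.s30_of_midpoint p N S hpS 𝒪' hp𝒪' χ hmid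

end Fermat.Agent.S30.H57
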