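import Mathlib
import Fermat.Agent.S30.H57_Tate

/-!
# (LI) The lattice map `Λ : L → T_p J` and its linear independence

`lam k : L →+ J` a compatible system (`p • lam (k+1) = lam k`) of maps with `lam k x ∈ J[p^k]` and
kernel `p^k L`.  Then `Lam : L →+ Tate p J`, `x ↦ (lam k x)_k`, and for every finite `ℤ`-basis `b`
of `L` the family `Lam (b i)` is `ℤ_p`-linearly independent; the family `1 ⊗ Lam (b i)` is
`O`-linearly independent in `O ⊗[ℤ_p] T_p J` for every domain `O` over `ℤ_p` with injective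
structure map.
-/

set_option autoImplicit false

noncomputable section

namespace Fermat.Agent.S30.H10

open Fermat.Agent.S30.H57
open scoped TensorProduct

section Lam

variable {p : ℕ} {J L : Type*} [AddCommGroup J] [AddCommGroup L]
  (lam : ℕ → L →+ J) (h0 : ∀ k x, p ^ k • lam k x = 0)
  (hc : ∀ k x, p • lam (k + 1) x = lam k x)

/-- The map `L → T_p J` attached to a compatible system. -/
def Lam : L →+ Tate p J where
  toFun x := Tate.mk (fun k => lam k x)
    (by have := h0 0 x; rwa [pow_zero, one_smul] at this) (fun k => hc k x)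
  map_zero' := by
    ext k
    rw [Tate.mk_comp, map_zero, Tate.zero_comp]
  map_add' x y := by
    ext k
    rw [Tate.mk_comp, Tate.add_comp, Tate.mk_comp, Tate.mk_comp, map_add]

@[simp] theorem Lam_comp (x : L) (k : ℕ) : (Lam lam h0 hc x).comp k = lam k x := rfl

/-- `Lam x ∈ p^k T_p J ⇒ x ∈ p^k L`. -/
theorem exists_eq_pow_smul_of_Lam_comp_eq_zero
    (hker : ∀ k x, lam k x = 0 → ∃ y, x = p ^ k • y) (k : ℕ) (x : L)
    (h : (Lam lam h0 hc x).comp k = 0) : ∃ y, x = p ^ k • y :=
  hker k x h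

theorem Lam_injective
    (hker : ∀ k x, lam k x = 0 → ∃ y, x = p ^ k • y)
    (hsep : ∀ x : L, (∀ k, ∃ y, x = p ^ k • y) → x = 0) :
    Function.Injective (Lam lam h0 hc) := by
  rw [injective_iff_map_eq_zero]
  intro x hx
  refine hsep x fun k => hker k x ?_
  rw [← Lam_comp lam h0 hc x k, hx, Tate.zero_comp]

omit [AddCommGroup J] in
/-- In a free `ℤ`-module an element divisible by all powers of `p > 1` is zero. -/
theorem eq_zero_of_forall_exists_pow_smul {κ : Type*} (b : Module.Basis κ ℤ L) (hp : 1 < p)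
    (x : L) (h : ∀ k, ∃ y, x = p ^ k • y) : x = 0 := by
  apply b.repr.injective
  rw [map_zero]
  ext i
  rw [Finsupp.zero_apply]
  by_contra hne
  obtain ⟨y, hy⟩ := h (b.repr x i).natAbs
  have h1 : b.repr x i = ((p ^ (b.repr x i).natAbs : ℕ) : ℤ) * b.repr y i := by
    conv_lhs => rw [hy]
    rw [map_nsmul, Finsupp.smul_apply, nsmul_eq_mul]
  have h2 : ((p ^ (b.repr x i).natAbs : ℕ) : ℤ) ∣ b.repr x i := ⟨_, h1⟩
  have h3 : p ^ (b.repr x i).natAbs ∣ (b.repr x i).natAbs := by
    have := Int.natAbs_dvd_natAbs.mpr h2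
    rwa [Int.natAbs_natCast] at this
  have h4 : (b.repr x i).natAbs < p ^ (b.repr x i).natAbs := Nat.lt_pow_self hp
  exact absurd (Nat.le_of_dvd (Int.natAbs_pos.mpr hne) h3) (not_le.mpr h4)

variable [hp : Fact p.Prime]

/-- Equivariance. -/
theorem Lam_map (th : L →+ L) (ta : J →+ J) (hT : ∀ k x, lam k (th x) = ta (lam k x)) (x : L) :
    Lam lam h0 hc (th x) = Tate.map ta (Lam lam h0 hc x) := by
  ext k
  rw [Lam_comp, Tate.map_comp, Lam_comp, hT]

/-- **(LI), over `ℤ_p`.** -/
theorem linearIndependent_Lam (hker : ∀ k x, lam k x = 0 → ∃ y, x = p ^ k • y)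
    {κ : Type*} [Finite κ] (b : Module.Basis κ ℤ L) :
    LinearIndependent ℤ_[p] (fun i => Lam lam h0 hc (b i)) := by
  classical
  have := Fintype.ofFinite κ
  rw [Fintype.linearIndependent_iff]
  intro g hg i
  apply PadicInt.ext_of_toZModPow.mp
  intro k
  rw [map_zero]
  -- the `k`-th component
  have h1 : ∑ j, (PadicInt.toZModPow k (g j)).val • lam k (b j) = 0 := by
    have h2 := congrArg (Tate.compHom k) hg
    rw [map_sum, map_zero] at h2
    rw [← h2]
    refine Finset.sum_congr rfl fun j _ => ?_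
    rw [Tate.compHom_apply, Tate.smul_comp, Lam_comp]
  have h3 : lam k (∑ j, (PadicInt.toZModPow k (g j)).val • b j) = 0 := by
    rw [map_sum, ← h1]
    exact Finset.sum_congr rfl fun j _ => map_nsmul _ _ _
  obtain ⟨y, hy⟩ := hker k _ h3
  have hL : b.repr (∑ j, (PadicInt.toZModPow k (g j)).val • b j) i =
      ((PadicInt.toZModPow k (g i)).val : ℤ) := by
    rw [map_sum, Finsupp.finset_sum_apply, Finset.sum_eq_single i]
    · rw [map_nsmul, Finsupp.smul_apply, Module.Basis.repr_self, Finsupp.single_eq_same,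
        nsmul_eq_mul, mul_one]
    · intro j _ hji
      rw [map_nsmul, Finsupp.smul_apply, Module.Basis.repr_self, Finsupp.single_apply,
        if_neg hji, smul_zero]
    · intro h
      exact absurd (Finset.mem_univ i) h
  have hR : b.repr (p ^ k • y) i = ((p ^ k : ℕ) : ℤ) * b.repr y i := by
    rw [map_nsmul, Finsupp.smul_apply, nsmul_eq_mul]
  have h4 : ((PadicInt.toZModPow k (g i)).val : ℤ) = ((p ^ k : ℕ) : ℤ) * b.repr y i := by
    rw [← hL, hy, hR]
  -- `h4 : (val : ℤ) = p ^ k * repr y i`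
  have h5 : ((PadicInt.toZModPow k (g i)).val : ZMod (p ^ k)) = 0 := by
    have h6 : (((PadicInt.toZModPow k (g i)).val : ℤ) : ZMod (p ^ k)) = 0 := by
      rw [h4, Int.cast_mul, Int.cast_natCast, ZMod.natCast_self, zero_mul]
    exact_mod_cast h6
  rwa [ZMod.natCast_zmod_val] at h5

/-- **(LI), over a domain `O ⊇ ℤ_p`.** -/
theorem linearIndependent_one_tmul_Lam (hker : ∀ k x, lam k x = 0 → ∃ y, x = p ^ k • y)
    {κ : Type*} [Finite κ] (b : Module.Basis κ ℤ L)
    (O : Type*) [CommRing O] [IsDomain O] [Algebra ℤ_[p] O]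
    (hinj : Function.Injective (algebraMap ℤ_[p] O)) :
    LinearIndependent O (fun i => (1 : O) ⊗ₜ[ℤ_[p]] Lam lam h0 hc (b i)) := by
  have : Module.IsTorsionFree ℤ_[p] O := Module.isTorsionFree_iff_algebraMap_injective.mpr hinj
  have : Module.Flat ℤ_[p] O := inferInstance
  exact Module.Flat.linearIndependent_one_tmul (linearIndependent_Lam lam h0 hc hker b)

end Lam

end Fermat.Agent.S30.H10
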