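import Mathlib
import Fermat.Agent.S30.H10_SupportEigenO
import Fermat.Agent.S30.H10_TateIndep
import Fermat.Agent.S30.H57_TateRep

/-!
# (C1), abstract form: a nonzero eigenvector in `O ⊗[ℤ_p] T_p J`

`L` a finite free `ℤ`-module with a faithful action `Θ` of a commutative ring `T`;
`lam k : L →+ J` a compatible system of maps with `lam k x ∈ J[p^k]` and kernel `p^k L`,
equivariant for pairs `(t i, τ i)`, `t i ∈ T`, `τ i ∈ End J`.  Then every ring homomorphism
`χ : T →+* O` into a domain `O ⊇ ℤ_p` occurs in `O ⊗[ℤ_p] T_p J`: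
there is `m ≠ 0` with `tateRep (τ i) m = χ (t i) • m` for all `i`
(= the hypothesis `hne` of `H57.exists_midpoint_abstract` / `H57.midpoint_of_eigenvector`).
-/

set_option autoImplicit false

noncomputable section

namespace Fermat.Agent.S30.H10

open Fermat.Agent.S30.H57
open scoped TensorProduct

theorem exists_eigenvector_tate {p : ℕ} [hp : Fact p.Prime] {J L : Type*} [AddCommGroup J]
    [AddCommGroup L] [Module.Free ℤ L] [Module.Finite ℤ L]
    (lam : ℕ → L →+ J) (h0 : ∀ k x, p ^ k • lam k x = 0)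
    (hker : ∀ k x, lam k x = 0 → ∃ y, x = p ^ k • y)
    (hc : ∀ k x, p • lam (k + 1) x = lam k x)
    {T : Type*} [CommRing T] (Θ : T →+* Module.End ℤ L) (hΘ : Function.Injective Θ)
    {O : Type*} [CommRing O] [IsDomain O] [Algebra ℤ_[p] O]
    (hinj : Function.Injective (algebraMap ℤ_[p] O)) (χ : T →+* O)
    {ι : Type*} (t : ι → T) (τ : ι → AddMonoid.End J)
    (hT : ∀ i k x, lam k (Θ (t i) x) = τ i (lam k x)) :
    ∃ m : O ⊗[ℤ_[p]] Tate p J, m ≠ 0 ∧ ∀ i, tateRep p J O (τ i) m = χ (t i) • m := by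
  classical
  set b := Module.Free.chooseBasis ℤ L with hb
  obtain ⟨a, ha0, ha⟩ := exists_eigen_coord Θ hΘ χ
  set e : Module.Free.ChooseBasisIndex ℤ L → O ⊗[ℤ_[p]] Tate p J :=
    fun j => (1 : O) ⊗ₜ[ℤ_[p]] Lam lam h0 hc (b j) with he
  have hli : LinearIndependent O e := linearIndependent_one_tmul_Lam lam h0 hc hker b O hinj
  refine ⟨∑ j, a j • e j, fun hm => ha0 ?_, fun i => ?_⟩
  · funext j
    exact (Fintype.linearIndependent_iff.mp hli) a hm j
  · -- the action of `τ i` on the `e j`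
    have hexp : ∀ j, tateRep p J O (τ i) (e j) =
        ∑ l, ((b.coord l (Θ (t i) (b j)) : ℤ) : O) • e l := by
      intro j
      have h1 : Tate.map (τ i) (Lam lam h0 hc (b j)) = Lam lam h0 hc (Θ (t i) (b j)) :=
        (Lam_map lam h0 hc ((Θ (t i)).toAddMonoidHom) (τ i) (fun k x => hT i k x) (b j)).symm
      have h2 : Θ (t i) (b j) = ∑ l, (b.coord l (Θ (t i) (b j))) • b l := by
        conv_lhs => rw [← b.sum_repr (Θ (t i) (b j))]
        rfl
      rw [he, tateRep_tmul, h1]
      conv_lhs => rw [h2]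
      rw [map_sum, TensorProduct.tmul_sum]
      refine Finset.sum_congr rfl fun l _ => ?_
      have h3 : ∀ (n : ℤ) (y : Tate p J),
          (1 : O) ⊗ₜ[ℤ_[p]] (n • y) = (n : O) • ((1 : O) ⊗ₜ[ℤ_[p]] y) := by
        intro n y
        rw [← Int.cast_smul_eq_zsmul ℤ_[p] n y, TensorProduct.tmul_smul,
          ← algebraMap_smul O (n : ℤ_[p]) ((1 : O) ⊗ₜ[ℤ_[p]] y), map_intCast]
      rw [map_zsmul, h3]
    rw [map_sum, Finset.smul_sum]
    simp_rw [map_smul, hexp, Finset.smul_sum, smul_smul]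
    rw [Finset.sum_comm]
    refine Finset.sum_congr rfl fun l _ => ?_
    rw [← Finset.sum_smul, ← ha (t i) l]
    congr 1
    refine Finset.sum_congr rfl fun j _ => ?_
    rw [mul_comm]

end Fermat.Agent.S30.H10
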