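import Mathlib
import Fermat.Prelude.Def_GaloisRep_Adic
import Fermat.Prelude.Def_FLTPrelim_Ramification

/-!
# (PK) Packaging a two-dimensional matrix representation as a `GaloisRepAdic`

`O` is a commutative local ring and `σ : G_ℚ →* M₂(O)` a matrix representation which is
adically continuous at finite level (the entries of `σ g - 1` lie in `𝔪 ^ n` for `g` in the
subgroup fixing a finite extension).  Then `ofMatrix σ hcont : GaloisRepAdic O` is the
representation on `Fin 2 → O` given by `Matrix.toLin'`.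

* `ofMatrix_charpoly` : `charpoly (ρ g) = X ^ 2 - C (tr σ g) * X + C (det σ g)`.
* `ofMatrix_isUnramifiedAt` : unramifiedness from triviality of `σ` on inertia.
* `cont_of_dvd` : finite-level continuity of `σ` from the divisibility clause of
  `H31.exists_matrixRep_of_quadRel_odd` over a discrete valuation ring.
-/

set_option autoImplicit false

noncomputable section

namespace Fermat.Agent.S30.H10

open Polynomial IsLocalRing

local notation "Qbar" => AlgebraicClosure ℚ
local notation "GQ" => (AlgebraicClosure ℚ ≃ₐ[ℚ] AlgebraicClosure ℚ)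

section Basic

variable {O : Type} [CommRing O]

/-- A vector all of whose coordinates lie in `J` lies in `J • ⊤`. -/
theorem mem_smul_top_of_forall_mem {r : ℕ} (J : Ideal O) (w : Fin r → O) (hw : ∀ i, w i ∈ J) :
    w ∈ J • (⊤ : Submodule O (Fin r → O)) := by
  classical
  have h : w = ∑ i, w i • (Pi.single i (1 : O) : Fin r → O) := by
    funext k
    rw [Finset.sum_apply, Finset.sum_eq_single k]
    · rw [Pi.smul_apply, Pi.single_eq_same, smul_eq_mul, mul_one]
    · intro i _ hik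
      rw [Pi.smul_apply, Pi.single_eq_of_ne hik.symm, smul_zero]
    · intro hk
      exact absurd (Finset.mem_univ k) hk
  rw [h]
  exact Submodule.sum_mem _ fun i _ => Submodule.smul_mem_smul (hw i) Submodule.mem_top

/-- If the entries of `A - 1` lie in `J` then `A.toLin' v - v ∈ J • ⊤`. -/
theorem toLin'_sub_mem_smul_top {r : ℕ} (J : Ideal O) (A : Matrix (Fin r) (Fin r) O)
    (hA : ∀ i j, (A - 1) i j ∈ J) (v : Fin r → O) :
    Matrix.toLin' A v - v ∈ J • (⊤ : Submodule O (Fin r → O)) := by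
  have h : Matrix.toLin' A v - v = Matrix.toLin' (A - 1) v := by
    rw [map_sub, LinearMap.sub_apply, Matrix.toLin'_one, LinearMap.id_apply]
  rw [h]
  apply mem_smul_top_of_forall_mem
  intro i
  rw [Matrix.toLin'_apply, Matrix.mulVec, dotProduct]
  exact Ideal.sum_mem _ fun j _ => Ideal.mul_mem_right _ _ (hA i j)

end Basic

section OfMatrix

variable {O : Type} [CommRing O] [IsLocalRing O]

/-- The monoid homomorphism `g ↦ toLin' (σ g)`. -/
def toLinHom (σ : GQ →* Matrix (Fin 2) (Fin 2) O) : GQ →* Module.End O (Fin 2 → O) where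
  toFun g := Matrix.toLin' (σ g)
  map_one' := by rw [map_one, Matrix.toLin'_one]; rfl
  map_mul' g h := by rw [map_mul, Matrix.toLin'_mul]; rfl

omit [IsLocalRing O] in
@[simp] theorem toLinHom_apply (σ : GQ →* Matrix (Fin 2) (Fin 2) O) (g : GQ) :
    toLinHom σ g = Matrix.toLin' (σ g) := rfl

/-- Finite-level continuity of a matrix representation (entrywise). -/
def MatCont {r : ℕ} (σ : GQ →* Matrix (Fin r) (Fin r) O) : Prop :=
  ∀ n : ℕ, ∃ L : IntermediateField ℚ Qbar, FiniteDimensional ℚ L ∧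
    ∀ g : GQ, (∀ x ∈ L, g x = x) → ∀ i j, (σ g - 1) i j ∈ maximalIdeal O ^ n

theorem isAdicContinuous_toLinHom (σ : GQ →* Matrix (Fin 2) (Fin 2) O) (hcont : MatCont σ) :
    GaloisActionIsAdicContinuous O (toLinHom σ) := by
  intro n
  obtain ⟨L, hL, h⟩ := hcont n
  exact ⟨L, hL, fun g hg v => toLin'_sub_mem_smul_top _ (σ g) (h g hg) v⟩

/-- **(PK)** The `GaloisRepAdic` attached to a continuous two-dimensional matrix
representation. -/
def ofMatrix (σ : GQ →* Matrix (Fin 2) (Fin 2) O) (hcont : MatCont σ) : GaloisRepAdic O where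
  V := Fin 2 → O
  finrank_eq := Module.finrank_fin_fun O
  ρ := toLinHom σ
  isAdicContinuous := isAdicContinuous_toLinHom σ hcont

theorem ofMatrix_ρ_apply (σ : GQ →* Matrix (Fin 2) (Fin 2) O) (hcont : MatCont σ) (g : GQ) :
    (ofMatrix σ hcont).ρ g = Matrix.toLin' (σ g) := rfl

/-- The characteristic polynomial of `ofMatrix σ` at `g`. -/
theorem ofMatrix_charpoly (σ : GQ →* Matrix (Fin 2) (Fin 2) O) (hcont : MatCont σ) (g : GQ) :
    LinearMap.charpoly ((ofMatrix σ hcont).ρ g) =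
      X ^ 2 - C (σ g).trace * X + C (σ g).det := by
  have h : LinearMap.charpoly ((ofMatrix σ hcont).ρ g) = (σ g).charpoly :=
    Matrix.charpoly_toLin' (σ g)
  rw [h, Matrix.charpoly_fin_two]

theorem ofMatrix_eq_one (σ : GQ →* Matrix (Fin 2) (Fin 2) O) (hcont : MatCont σ) {g : GQ}
    (h : σ g = 1) : (ofMatrix σ hcont).ρ g = 1 := by
  rw [ofMatrix_ρ_apply, h, Matrix.toLin'_one]
  rfl

theorem ofMatrix_isUnramifiedAt (σ : GQ →* Matrix (Fin 2) (Fin 2) O) (hcont : MatCont σ) (q : ℕ)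
    (h : ∀ P : ValuationSubring Qbar, P.LiesOverPrime q →
      ∀ g ∈ P.inertiaSubgroupIn ℚ, σ g = 1) :
    (ofMatrix σ hcont).IsUnramifiedAt q :=
  fun P hP g hg => ofMatrix_eq_one σ hcont (h P hP g hg)

end OfMatrix

section DVR

variable {O : Type} [CommRing O] [IsDomain O] [IsDiscreteValuationRing O]

/-- In a discrete valuation ring with uniformizer `ϖ`: `x ∈ 𝔪 ^ n ↔ ϖ ^ n ∣ x`. -/
theorem mem_maximalIdeal_pow_iff_dvd {ϖ : O} (hϖ : Irreducible ϖ) (n : ℕ) (x : O) :
    x ∈ maximalIdeal O ^ n ↔ ϖ ^ n ∣ x := by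
  rw [hϖ.maximalIdeal_eq, Ideal.span_singleton_pow, Ideal.mem_span_singleton]

/-- **Continuity from the divisibility clause.**  If `σ` is "as continuous as `(ρ, d)`" in the
sense of `H31.exists_matrixRep_of_quadRel_odd`, and `ρ`, `d` are continuous at finite level,
then so is `σ`. -/
theorem cont_of_dvd {r s : ℕ} (ρ : GQ →* Matrix (Fin r) (Fin r) O) (d : GQ →* Oˣ)
    (σ : GQ →* Matrix (Fin s) (Fin s) O)
    (hdiv : ∀ (a : O) (g : GQ), (∀ i j, a ∣ (ρ g - 1) i j) → a ∣ ((d g : Oˣ) : O) - 1 →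
      ∀ i j, a ∣ (σ g - 1) i j)
    (hρ : MatCont ρ)
    (hd : ∀ n : ℕ, ∃ L : IntermediateField ℚ Qbar, FiniteDimensional ℚ L ∧
      ∀ g : GQ, (∀ x ∈ L, g x = x) → ((d g : Oˣ) : O) - 1 ∈ maximalIdeal O ^ n) :
    MatCont σ := by
  obtain ⟨ϖ, hϖ⟩ := IsDiscreteValuationRing.exists_irreducible O
  intro n
  obtain ⟨L, hL, h1⟩ := hρ n
  obtain ⟨L', hL', h2⟩ := hd n
  have := hL
  have := hL'
  refine ⟨L ⊔ L', IntermediateField.finiteDimensional_sup L L', fun g hg i j => ?_⟩
  have hgL : ∀ x ∈ L, g x = x := fun x hx => hg x ((le_sup_left : L ≤ L ⊔ L') hx)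
  have hgL' : ∀ x ∈ L', g x = x := fun x hx => hg x ((le_sup_right : L' ≤ L ⊔ L') hx)
  rw [mem_maximalIdeal_pow_iff_dvd hϖ]
  refine hdiv (ϖ ^ n) g (fun i j => ?_) ?_ i j
  · rw [← mem_maximalIdeal_pow_iff_dvd hϖ]
    exact h1 g hgL i j
  · rw [← mem_maximalIdeal_pow_iff_dvd hϖ]
    exact h2 g hgL'

end DVR

end Fermat.Agent.S30.H10
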