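/-
S30, package ALG-adic-quadratic-rep (helper31), part (A2): the structure lemma of helper29's
`H29_QuadRep` over an ARBITRARY field of characteristic `≠ 2`, with finiteness of the field
replaced by ODDNESS.

Let `ρ : G →* A` be a homomorphism into a finite-dimensional `k`-algebra such that every `ρ g`
satisfies `X² - t(g) X + d(g) = 0` (`d : G →* kˣ` a character), and let `c ∈ G` be an involution
with `d c = -1` ("complex conjugation").  Then the algebra `A' = k[ρ(G)]` has a character to `k`
or a homomorphism to `M₂(k)` with non-scalar image: the division algebra cases (quadratic field,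
quaternion algebra) are excluded because the image of `c` in a division ring would be `±1`, and a
scalar `ρ c = ε` forces `d c = ε² = 1` as soon as some `ρ h` is not scalar.
-/
import Mathlib
import Fermat.Agent.S29.H29_QuadAlg
import Fermat.Agent.S29.H29_QuadRep

set_option autoImplicit false

namespace Fermat.Agent.S30.H31

open Fermat.Agent.S29.H29

section Scalar

universe u v w

variable {k : Type v} [Field k] {D : Type u} [Ring D] [Algebra k D] [Nontrivial D]
  {G : Type w} [Group G]

/-- If `τ c = ε` is a scalar with `ε² = 1`, `d c = -1`, `2 ≠ 0`, then every `τ g` is a scalar: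
the relation for `c g` gives `(t(g) - ε t(cg)) τ(g) = 2 d(g)`. -/
theorem isScalar_of_odd_scalar (h2 : (2 : k) ≠ 0) (τ : G →* D) (t : G → k) (d : G →* kˣ)
    (h : QuadRel τ t d) (c : G) (ε : k) (hε : ε * ε = 1) (hcε : τ c = ε • (1 : D))
    (hdc : d c = -1) (g : G) : ∃ a : k, τ g = a • (1 : D) := by
  have h1 := h (c * g)
  rw [map_mul, hcε, map_mul d, hdc] at h1
  simp only [smul_mul_assoc, mul_smul_comm, one_mul, smul_smul] at h1
  rw [hε, one_smul, h g] at h1
  have hd : (((-1 : kˣ) * d g : kˣ) : k) = -((d g : kˣ) : k) := by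
    rw [Units.val_mul, Units.val_neg, Units.val_one, neg_one_mul]
  rw [hd] at h1
  have h3 : (t g - t (c * g) * ε) • τ g = (2 * ((d g : kˣ) : k)) • (1 : D) := by
    linear_combination (norm := module) h1
  have hne : t g - t (c * g) * ε ≠ 0 := by
    intro h0
    rw [h0, zero_smul] at h3
    have h4 : (2 * ((d g : kˣ) : k)) • (1 : D) = 0 := h3.symm
    have h5 : (2 * ((d g : kˣ) : k)) = 0 := by
      by_contra hne
      exact one_ne_zero ((smul_eq_zero.mp h4).resolve_left hne)
    rcases mul_eq_zero.mp h5 with h6 | h6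
    · exact h2 h6
    · exact Units.ne_zero _ h6
  refine ⟨(t g - t (c * g) * ε)⁻¹ * (2 * ((d g : kˣ) : k)), ?_⟩
  rw [mul_smul, ← h3, smul_smul, inv_mul_cancel₀ hne, one_smul]

end Scalar

section Structure

universe u v w

variable {k : Type v} [Field k] {A : Type u} [Ring A] [Algebra k A] [Module.Finite k A]
  [Nontrivial A] {G : Type w} [Group G]

omit [Module.Finite k A] [Nontrivial A] in
/-- A homomorphism which is scalar on `ρ(G)` is scalar on `k[ρ(G)] = A`. -/
theorem exists_smul_one_of_generators {B : Type*} [Ring B] [Algebra k B] (ρ : G →* A)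
    (hgen : Algebra.adjoin k (Set.range ρ) = ⊤) (φ : A →ₐ[k] B)
    (hφ : ∀ g, ∃ a : k, φ (ρ g) = a • (1 : B)) (x : A) : ∃ a : k, φ x = a • (1 : B) := by
  have hle : (⊤ : Subalgebra k A) ≤ (⊥ : Subalgebra k B).comap φ := by
    rw [← hgen]
    apply Algebra.adjoin_le
    rintro y ⟨g, rfl⟩
    obtain ⟨a, ha⟩ := hφ g
    rw [Subalgebra.coe_comap, Set.mem_preimage, SetLike.mem_coe, Algebra.mem_bot]
    exact ⟨a, by rw [ha, Algebra.algebraMap_eq_smul_one]⟩
  obtain ⟨a, ha⟩ := Algebra.mem_bot.mp (hle (Algebra.mem_top : x ∈ ⊤))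
  exact ⟨a, by rw [← Algebra.algebraMap_eq_smul_one]; exact ha.symm⟩

/-- **Structure lemma, odd case.** -/
theorem exists_char_or_matrix_of_odd (h2 : (2 : k) ≠ 0) (ρ : G →* A) (t : G → k) (d : G →* kˣ)
    (h : QuadRel ρ t d) (hgen : Algebra.adjoin k (Set.range ρ) = ⊤)
    (c : G) (hc : c * c = 1) (hdc : d c = -1) :
    (∃ _ : A →ₐ[k] k, True) ∨
    (∃ f : A →ₐ[k] Matrix (Fin 2) (Fin 2) k, ∃ g : G, ∀ a : k, f (ρ g) ≠ a • 1) := by
  have hquad : ∀ a : A, IsQuad k a := fun a =>
    isQuad_of_mem_adjoin h (hgen ▸ Algebra.mem_top)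
  obtain ⟨n, hn, D, hD, hA, hF, π, hπ⟩ := exists_surjective_matrix k A
  have hB : ∀ x : Matrix (Fin n) (Fin n) D, IsQuad k x := fun x => by
    obtain ⟨a, rfl⟩ := hπ x; exact (hquad a).map π
  have hn2 := le_two_of_isQuad_matrix hB
  have hn0 : n ≠ 0 := hn.out
  obtain rfl | rfl : n = 1 ∨ n = 2 := by omega
  · -- `n = 1`: a division ring; the image of `c` is `±1`, so everything is scalar
    left
    let π' : A →ₐ[k] D := (entryAlgHom k D).comp π
    have hπ' : Function.Surjective π' :=
      (entryAlgHom_surjective (k := k) (D := D)).comp hπ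
    let τ : G →* D := (π' : A →* D).comp ρ
    have hτ : ∀ g, τ g = π' (ρ g) := fun g => rfl
    have hrelτ : QuadRel τ t d := by
      intro g
      have := congrArg π' (h g)
      rw [map_mul, map_sub, map_smul, map_smul, map_one] at this
      exact this
    have hcc : τ c * τ c = 1 := by rw [← map_mul, hc, map_one]
    have hfac : (τ c - 1) * (τ c + 1) = 0 := by
      rw [sub_mul, mul_add, mul_one, one_mul, hcc]; abel
    obtain ⟨ε, hε, hcε⟩ : ∃ ε : k, ε * ε = 1 ∧ τ c = ε • (1 : D) := by
      rcases mul_eq_zero.mp hfac with h1 | h1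
      · exact ⟨1, one_mul 1, by rw [one_smul]; exact sub_eq_zero.mp h1⟩
      · exact ⟨-1, by ring, by rw [neg_smul, one_smul]; exact eq_neg_of_add_eq_zero_left h1⟩
    have hall : ∀ g, ∃ a : k, π' (ρ g) = a • (1 : D) := fun g =>
      isScalar_of_odd_scalar h2 τ t d hrelτ c ε hε hcε hdc g
    have hsurj : Function.Surjective (algebraMap k D) := by
      intro θ
      obtain ⟨x, rfl⟩ := hπ' θ
      obtain ⟨a, ha⟩ := exists_smul_one_of_generators ρ hgen π' hall x
      exact ⟨a, by rw [ha, Algebra.algebraMap_eq_smul_one]⟩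
    let e : k ≃ₐ[k] D :=
      AlgEquiv.ofBijective (Algebra.ofId k D) ⟨(algebraMap k D).injective, hsurj⟩
    exact ⟨e.symm.toAlgHom.comp π', trivial⟩
  · -- `n = 2`
    right
    have hsurj := algebraMap_surjective_of_isQuad_matrix_two hB
    let e : k ≃ₐ[k] D :=
      AlgEquiv.ofBijective (Algebra.ofId k D) ⟨(algebraMap k D).injective, hsurj⟩
    let f : A →ₐ[k] Matrix (Fin 2) (Fin 2) k := (e.symm.mapMatrix (m := Fin 2)).toAlgHom.comp π
    refine ⟨f, ?_⟩
    by_contra hcon
    push Not at hcon
    obtain ⟨a, ha⟩ := hπ (Matrix.single 0 1 1)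
    obtain ⟨b, hb⟩ := exists_smul_one_of_generators ρ hgen f hcon a
    have h01 := congrFun (congrFun hb 0) 1
    simp [f, ha, AlgEquiv.mapMatrix_apply] at h01

end Structure

end Fermat.Agent.S30.H31
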