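/-
S30, package ALG-adic-quadratic-rep (helper31), part (A3): the integral lattice.

`O` is a principal ideal domain with fraction field `K`.

* `exists_algEquiv_intEntries`: a multiplicatively closed set `𝔅 ∋ 1` of `2 × 2` matrices over `K`
  contained in a finitely generated `O`-submodule can be conjugated into `M₂(O)`
  (the lattice `Λ = 𝔅 · O²` is free of rank `2` and `𝔅`-stable).
-/
import Mathlib
import Fermat.Agent.S29.H29_QuadAlg
import Fermat.Agent.S29.H29_QuadRep
import Fermat.Agent.S30.H31_AdicQuad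
import Fermat.Agent.S30.H31_OddQuadRep

set_option autoImplicit false

namespace Fermat.Agent.S30.H31

open Matrix Module

section Conj

variable (O : Type*) {K : Type*} [CommRing O] [Field K] [Algebra O K]

/-- All entries of the matrix come from `O`. -/
def IntEntries {m n : Type*} (M : Matrix m n K) : Prop :=
  ∀ i j, M i j ∈ Set.range (algebraMap O K)

variable [IsDomain O] [IsPrincipalIdealRing O] [IsFractionRing O K]

/-- the `O`-linear map "column `i`" -/
def colLin (i : Fin 2) : Matrix (Fin 2) (Fin 2) K →ₗ[O] (Fin 2 → K) where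
  toFun M := fun k => M k i
  map_add' _ _ := rfl
  map_smul' _ _ := rfl

theorem exists_algEquiv_intEntries (𝔅 : Set (Matrix (Fin 2) (Fin 2) K)) (h1 : 1 ∈ 𝔅)
    (hmul : ∀ x ∈ 𝔅, ∀ y ∈ 𝔅, x * y ∈ 𝔅)
    (𝔑 : Submodule O (Matrix (Fin 2) (Fin 2) K)) (h𝔑 : 𝔑.FG) (hle : 𝔅 ⊆ 𝔑) :
    ∃ φ : Matrix (Fin 2) (Fin 2) K ≃ₐ[K] Matrix (Fin 2) (Fin 2) K,
      ∀ M ∈ 𝔅, IntEntries O (φ M) := by
  classical
  -- the lattice
  set Λ : Submodule O (Fin 2 → K) :=
    Submodule.span O {v | ∃ M ∈ 𝔅, ∃ i : Fin 2, v = fun k => M k i} with hΛ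
  -- finitely generated
  have hΛle : Λ ≤ 𝔑.map (colLin O 0) ⊔ 𝔑.map (colLin O 1) := by
    rw [hΛ]
    apply Submodule.span_le.mpr
    rintro v ⟨M, hM, i, rfl⟩
    fin_cases i
    · exact Submodule.mem_sup_left ⟨M, hle hM, rfl⟩
    · exact Submodule.mem_sup_right ⟨M, hle hM, rfl⟩
  have hΛfg : Λ.FG := Submodule.FG.of_le ((h𝔑.map _).sup (h𝔑.map _)) hΛle
  have : Module.Finite O Λ := Module.Finite.of_fg hΛfg
  have : Module.Free O Λ := Module.free_of_finite_type_torsion_free'
  -- a basis of `Λ`, viewed in `K²`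
  set b := Module.Free.chooseBasis O Λ with hb
  set v : Module.Free.ChooseBasisIndex O Λ → (Fin 2 → K) := fun i => ((b i : Λ) : Fin 2 → K)
    with hv
  have hliO : LinearIndependent O v :=
    b.linearIndependent.map' Λ.subtype (Submodule.ker_subtype Λ)
  have hliK : LinearIndependent K v := (LinearIndependent.iff_fractionRing O K).mp hliO
  -- `Λ` contains the standard basis vectors
  have hstd : ∀ i : Fin 2, (Pi.single i (1 : K) : Fin 2 → K) ∈ Λ := by
    intro i
    apply Submodule.subset_span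
    refine ⟨1, h1, i, ?_⟩
    ext k
    rw [Matrix.one_apply, Pi.single_apply]
  have hmemspan : ∀ w : Fin 2 → K, w ∈ Λ → w ∈ Submodule.span K (Set.range v) := by
    intro w hw
    have h2 := b.sum_repr ⟨w, hw⟩
    have h3 : w = ∑ i, (b.repr ⟨w, hw⟩ i) • v i := by
      have := congrArg (Λ.subtype) h2
      rw [map_sum] at this
      simp only [map_smul, Submodule.subtype_apply] at this
      exact this.symm
    rw [h3]
    refine Submodule.sum_mem _ fun i _ => ?_
    rw [← algebraMap_smul K (b.repr ⟨w, hw⟩ i) (v i)]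
    exact Submodule.smul_mem _ _ (Submodule.subset_span ⟨i, rfl⟩)
  have hspan : ⊤ ≤ Submodule.span K (Set.range v) := by
    intro w _
    rw [← (Pi.basisFun K (Fin 2)).sum_repr w]
    refine Submodule.sum_mem _ fun i _ => Submodule.smul_mem _ _ ?_
    rw [Pi.basisFun_apply]
    exact hmemspan _ (hstd i)
  set bK : Module.Basis (Module.Free.ChooseBasisIndex O Λ) K (Fin 2 → K) :=
    Module.Basis.mk hliK hspan with hbK
  have hbKv : ∀ i, bK i = v i := fun i => by rw [hbK, Module.Basis.mk_apply]
  have hcard : Fintype.card (Module.Free.ChooseBasisIndex O Λ) = 2 := by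
    rw [← Module.finrank_eq_card_basis bK, Module.finrank_fin_fun]
  set e : Module.Free.ChooseBasisIndex O Λ ≃ Fin 2 := Fintype.equivFinOfCardEq hcard with he
  -- `Λ` is stable under `𝔅`
  have hstab : ∀ M ∈ 𝔅, ∀ w ∈ Λ, M *ᵥ w ∈ Λ := by
    intro M hM w hw
    rw [hΛ] at hw
    induction hw using Submodule.span_induction with
    | mem x hx =>
      obtain ⟨M', hM', i, rfl⟩ := hx
      apply Submodule.subset_span
      refine ⟨M * M', hmul M hM M' hM', i, ?_⟩
      ext k
      rw [Matrix.mulVec, Matrix.mul_apply]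
      rfl
    | zero => rw [Matrix.mulVec_zero]; exact Submodule.zero_mem _
    | add x y _ _ hx hy => rw [Matrix.mulVec_add]; exact Submodule.add_mem _ hx hy
    | smul a x _ hx => rw [Matrix.mulVec_smul]; exact Submodule.smul_mem _ _ hx
  -- the coordinates of `M v_j` are integral
  have hcoord : ∀ M ∈ 𝔅, ∀ j i, bK.repr (M *ᵥ v j) i ∈ Set.range (algebraMap O K) := by
    intro M hM j i
    have hw : M *ᵥ v j ∈ Λ := hstab M hM (v j) (b j).2
    have h2 := b.sum_repr ⟨M *ᵥ v j, hw⟩
    have h3 : M *ᵥ v j = ∑ i, (algebraMap O K (b.repr ⟨M *ᵥ v j, hw⟩ i)) • bK i := by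
      have := congrArg (Λ.subtype) h2
      rw [map_sum] at this
      simp only [map_smul, Submodule.subtype_apply] at this
      refine this.symm.trans ?_
      refine Finset.sum_congr rfl fun i _ => ?_
      rw [hbKv, algebraMap_smul]
    generalize b.repr ⟨M *ᵥ v j, hw⟩ = cf at h3
    rw [h3, Module.Basis.repr_sum_self]
    exact ⟨_, rfl⟩
  refine ⟨(Matrix.toLinAlgEquiv' (R := K) (n := Fin 2)).trans
    (LinearMap.toMatrixAlgEquiv (bK.reindex e)), fun M hM i j => ?_⟩
  rw [AlgEquiv.trans_apply, LinearMap.toMatrixAlgEquiv_apply, Module.Basis.reindex_apply,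
    Module.Basis.repr_reindex_apply, hbKv]
  exact hcoord M hM _ _

end Conj

section Descent

variable {O : Type*} {K : Type*} [CommRing O] [Field K] [Algebra O K] [IsFractionRing O K]
  {G : Type*} [Group G] {n : ℕ}

/-- A matrix representation over `K` with entries in `O` comes from one over `O`. -/
theorem exists_monoidHom_of_intEntries (σK : G →* Matrix (Fin n) (Fin n) K)
    (h : ∀ g, IntEntries O (σK g)) :
    ∃ σ : G →* Matrix (Fin n) (Fin n) O, ∀ g, (σ g).map (algebraMap O K) = σK g := by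
  classical
  have hinj : Function.Injective
      (fun M : Matrix (Fin n) (Fin n) O => M.map (algebraMap O K)) :=
    Matrix.map_injective (IsFractionRing.injective O K)
  choose τ hτ using h
  have hτ' : ∀ g, (Matrix.of (τ g)).map (algebraMap O K) = σK g := by
    intro g; ext i j; exact hτ g i j
  refine ⟨{ toFun := fun g => Matrix.of (τ g), map_one' := ?_, map_mul' := ?_ }, hτ'⟩
  · apply hinj
    show (Matrix.of (τ 1)).map (algebraMap O K) = (1 : Matrix (Fin n) (Fin n) O).map _
    rw [hτ', map_one, Matrix.map_one _ (map_zero _) (map_one _)]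
  · intro g g'
    apply hinj
    show (Matrix.of (τ (g * g'))).map (algebraMap O K) =
      (Matrix.of (τ g) * Matrix.of (τ g')).map _
    rw [Matrix.map_mul, hτ', hτ', hτ', map_mul]

end Descent

section Setup

variable {O : Type*} [CommRing O] [IsDomain O] {G : Type*} [Group G] {r : ℕ}

/-- entrywise `O → Frac O` on `r × r` matrices, as an `O`-algebra hom -/
noncomputable def mapK (O : Type*) [CommRing O] [IsDomain O] (r : ℕ) :
    Matrix (Fin r) (Fin r) O →ₐ[O] Matrix (Fin r) (Fin r) (FractionRing O) :=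
  AlgHom.mapMatrix (Algebra.ofId O (FractionRing O))

theorem mapK_apply (X : Matrix (Fin r) (Fin r) O) :
    mapK O r X = X.map (algebraMap O (FractionRing O)) := rfl

theorem mapK_injective : Function.Injective (mapK O r) :=
  Matrix.map_injective (IsFractionRing.injective O (FractionRing O))

theorem intEntries_iff_mem_range {M : Matrix (Fin r) (Fin r) (FractionRing O)} :
    IntEntries O M ↔ ∃ X : Matrix (Fin r) (Fin r) O, mapK O r X = M := by
  constructor
  · intro h
    choose X hX using h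
    exact ⟨Matrix.of X, by ext i j; exact hX i j⟩
  · rintro ⟨X, rfl⟩ i j
    exact ⟨X i j, rfl⟩

variable (ρ : G →* Matrix (Fin r) (Fin r) O)

/-- the representation over the fraction field -/
noncomputable def rhoK : G →* Matrix (Fin r) (Fin r) (FractionRing O) :=
  ((mapK O r : Matrix (Fin r) (Fin r) O →* Matrix (Fin r) (Fin r) (FractionRing O))).comp ρ

theorem rhoK_apply (g : G) : rhoK ρ g = mapK O r (ρ g) := rfl

/-- the `K`-algebra generated by the image of `ρ` -/
noncomputable def algK : Subalgebra (FractionRing O) (Matrix (Fin r) (Fin r) (FractionRing O)) :=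
  Algebra.adjoin (FractionRing O) (Set.range (rhoK ρ))

/-- `ρ` with values in `algK ρ` -/
noncomputable def rhoA : G →* algK ρ :=
  (rhoK ρ).codRestrict (algK ρ) (fun g => Algebra.subset_adjoin ⟨g, rfl⟩)

theorem rhoA_coe (g : G) :
    ((rhoA ρ g : algK ρ) : Matrix (Fin r) (Fin r) (FractionRing O)) = mapK O r (ρ g) := rfl

theorem adjoin_range_rhoA :
    Algebra.adjoin (FractionRing O) (Set.range (rhoA ρ)) = ⊤ := by
  have h := Algebra.adjoin_adjoin_coe_preimage (R := FractionRing O) (s := Set.range (rhoK ρ))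
  have hset : (Subtype.val ⁻¹' Set.range (rhoK ρ) :
      Set (Algebra.adjoin (FractionRing O) (Set.range (rhoK ρ)))) = Set.range (rhoA ρ) := by
    ext x
    constructor
    · rintro ⟨g, hg⟩
      exact ⟨g, Subtype.ext hg⟩
    · rintro ⟨g, rfl⟩
      exact ⟨g, rfl⟩
  rw [hset] at h
  exact h

end Setup

section Integral

open Fermat.Agent.S29.H29

variable {O : Type*} [CommRing O] [IsDomain O] {G : Type*} [Group G] {r : ℕ}
  (ρ : G →* Matrix (Fin r) (Fin r) O)

local notation "K" => FractionRing O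

/-- the trace function over `K` -/
noncomputable def tK (t : G → O) : G → FractionRing O := fun g => algebraMap O (FractionRing O) (t g)

/-- the determinant character over `K` -/
noncomputable def dK (d : G →* Oˣ) : G →* (FractionRing O)ˣ :=
  (Units.map (algebraMap O (FractionRing O) : O →* FractionRing O)).comp d

omit [IsDomain O] in
theorem dK_apply (d : G →* Oˣ) (g : G) :
    ((dK d g : (FractionRing O)ˣ) : FractionRing O) = algebraMap O (FractionRing O) (d g : Oˣ) := rfl

theorem quadRel_rhoA (t : G → O) (d : G →* Oˣ)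
    (hrel : ∀ g, ρ g * ρ g = t g • ρ g - ((d g : Oˣ) : O) • (1 : Matrix (Fin r) (Fin r) O)) :
    QuadRel (rhoA ρ) (tK t) (dK d) := by
  intro g
  apply Subtype.ext
  have h := congrArg (mapK O r) (hrel g)
  rw [map_mul, map_sub, map_smul, map_smul, map_one] at h
  rw [MulMemClass.coe_mul, AddSubgroupClass.coe_sub, rhoA_coe, h, tK, dK_apply,
    Subalgebra.coe_smul, Subalgebra.coe_smul, Subalgebra.coe_one, rhoA_coe, algebraMap_smul,
    algebraMap_smul]

/-- the set of elements of `algK ρ` with integral entries -/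
def intSet : Set (algK ρ) := {x | IntEntries O (x : Matrix (Fin r) (Fin r) K)}

theorem rhoA_mem_intSet (g : G) : rhoA ρ g ∈ intSet ρ :=
  intEntries_iff_mem_range.mpr ⟨ρ g, rfl⟩

theorem one_mem_intSet : (1 : algK ρ) ∈ intSet ρ :=
  intEntries_iff_mem_range.mpr ⟨1, map_one _⟩

theorem mul_mem_intSet {x y : algK ρ} (hx : x ∈ intSet ρ) (hy : y ∈ intSet ρ) :
    x * y ∈ intSet ρ := by
  obtain ⟨X, hX⟩ := intEntries_iff_mem_range.mp hx
  obtain ⟨Y, hY⟩ := intEntries_iff_mem_range.mp hy
  exact intEntries_iff_mem_range.mpr ⟨X * Y, by rw [map_mul, hX, hY]; rfl⟩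

/-- **Division.** If `a ≠ 0` divides all entries of `ρ g - 1`, then `ρ g - 1 = a • x` in
`algK ρ` with `x` integral. -/
theorem exists_mem_intSet_smul {a : O} (ha : a ≠ 0) (g : G)
    (hdiv : ∀ i j, a ∣ (ρ g - 1) i j) :
    ∃ x ∈ intSet ρ, rhoA ρ g - 1 = (algebraMap O K a) • x := by
  choose X hX using hdiv
  have hX' : ρ g - 1 = a • Matrix.of X := by
    ext i j
    rw [hX i j, Matrix.smul_apply, Matrix.of_apply, smul_eq_mul]
  have haK : algebraMap O K a ≠ 0 := by
    rw [Ne, map_eq_zero_iff _ (IsFractionRing.injective O K)]; exact ha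
  have hmem : mapK O r (Matrix.of X) ∈ algK ρ := by
    have h1 : mapK O r (Matrix.of X) = (algebraMap O K a)⁻¹ • ((rhoA ρ g - 1 : algK ρ) :
        Matrix (Fin r) (Fin r) K) := by
      rw [AddSubgroupClass.coe_sub, rhoA_coe, OneMemClass.coe_one, ← map_one (mapK O r),
        ← map_sub, hX', map_smul, ← algebraMap_smul K a, smul_smul, inv_mul_cancel₀ haK,
        one_smul]
    rw [h1]
    exact Subalgebra.smul_mem _ (rhoA ρ g - 1 : algK ρ).2 _
  refine ⟨⟨mapK O r (Matrix.of X), hmem⟩, intEntries_iff_mem_range.mpr ⟨_, rfl⟩, ?_⟩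
  apply Subtype.ext
  rw [AddSubgroupClass.coe_sub, rhoA_coe, OneMemClass.coe_one, ← map_one (mapK O r),
    ← map_sub, hX', map_smul, SetLike.val_smul, algebraMap_smul]

end Integral

section FG

variable {O : Type*} [CommRing O] [IsDomain O] {G : Type*} [Group G] {r : ℕ}
  (ρ : G →* Matrix (Fin r) (Fin r) O)

local notation "K" => FractionRing O

/-- the inclusion `algK ρ → Mᵣ(K)` as an `O`-linear map -/
noncomputable def valO : algK ρ →ₗ[O] Matrix (Fin r) (Fin r) (FractionRing O) :=
  (algK ρ).val.toLinearMap.restrictScalars O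

theorem valO_apply (x : algK ρ) : valO ρ x = (x : Matrix (Fin r) (Fin r) K) := rfl

/-- the `O`-submodule of integral elements of `algK ρ` -/
noncomputable def intSub : Submodule O (algK ρ) :=
  Submodule.comap (valO ρ) (LinearMap.range (mapK O r).toLinearMap)

theorem mem_intSub {x : algK ρ} : x ∈ intSub ρ ↔ x ∈ intSet ρ := by
  rw [intSub, Submodule.mem_comap, LinearMap.mem_range]
  exact intEntries_iff_mem_range.symm

theorem intSub_fg [IsNoetherianRing O] : (intSub ρ).FG := by
  apply Submodule.fg_of_fg_map_injective (valO ρ) Subtype.val_injective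
  refine Submodule.FG.of_le ?_ (Submodule.map_comap_le _ _)
  rw [LinearMap.range_eq_map]
  exact (Module.Finite.fg_top).map _

end FG

section Main

open Fermat.Agent.S29.H29

variable {O : Type*} [CommRing O] [IsDomain O] [IsPrincipalIdealRing O] {G : Type*} [Group G]
  {r : ℕ} (ρ : G →* Matrix (Fin r) (Fin r) O)

local notation "K" => FractionRing O

/-- A `K`-character of `algK ρ` takes values in `O` on integral elements. -/
theorem char_mem_range (φ : algK ρ →ₐ[K] K) {x : algK ρ} (hx : x ∈ intSet ρ) :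
    φ x ∈ Set.range (algebraMap O K) := by
  obtain ⟨X, hX⟩ := intEntries_iff_mem_range.mp hx
  have h1 : IsIntegral O X := Matrix.isIntegral X
  have h2 : IsIntegral O (mapK O r X) := h1.map (mapK O r)
  have h3 : IsIntegral O x := by
    rw [← isIntegral_algHom_iff ((algK ρ).val.restrictScalars O) Subtype.val_injective]
    rw [hX] at h2
    exact h2
  have h4 : IsIntegral O (φ x) := h3.map (φ.restrictScalars O)
  exact IsIntegrallyClosed.isIntegral_iff.mp h4

/-- **(A3), over `K`.** -/
theorem exists_matrixRepK (hr : 0 < r) (h2 : (2 : O) ≠ 0) (t : G → O) (d : G →* Oˣ)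
    (hrel : ∀ g, ρ g * ρ g = t g • ρ g - ((d g : Oˣ) : O) • (1 : Matrix (Fin r) (Fin r) O))
    (c : G) (hc : c * c = 1) (hdc : d c = -1) :
    ∃ σK : G →* Matrix (Fin 2) (Fin 2) K,
      (∀ g, IntEntries O (σK g)) ∧
      (∀ g, (σK g).trace = tK t g ∧ (σK g).det = ((dK d g : Kˣ) : K)) ∧
      (∀ g, ρ g = 1 → d g = 1 → σK g = 1) ∧
      ∀ (a : O), a ≠ 0 → ∀ g : G, (∀ i j, a ∣ (ρ g - 1) i j) → a ∣ ((d g : Oˣ) : O) - 1 →
        ∀ i j, ∃ y : O, (σK g - 1) i j = algebraMap O K a * algebraMap O K y := by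
  classical
  have : NeZero r := ⟨hr.ne'⟩
  have hinj : Function.Injective (algebraMap O K) := IsFractionRing.injective O K
  have h2K : (2 : K) ≠ 0 := by
    have : (2 : K) = algebraMap O K 2 := (map_ofNat _ 2).symm
    rw [this, Ne, map_eq_zero_iff _ hinj]
    exact h2
  have hdcK : dK d c = -1 := by
    apply Units.ext
    rw [dK_apply, hdc, Units.val_neg, Units.val_one, Units.val_neg, Units.val_one, map_neg,
      map_one]
  have hρ1 : ∀ g, ρ g = 1 → rhoA ρ g = 1 := by
    intro g hg
    apply Subtype.ext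
    rw [rhoA_coe, hg, map_one]; rfl
  have hd1 : ∀ g, d g = 1 → dK d g = 1 := by
    intro g hg
    apply Units.ext
    rw [dK_apply, hg, Units.val_one, map_one, Units.val_one]
  rcases exists_char_or_matrix_of_odd h2K (rhoA ρ) (tK t) (dK d) (quadRel_rhoA ρ t d hrel)
    (adjoin_range_rhoA ρ) c hc hdcK with ⟨φ, -⟩ | ⟨f, g₀, hg₀⟩
  · -- character case
    let χ₁ : G →* Kˣ := ((φ : algK ρ →* K).comp (rhoA ρ)).toHomUnits
    have hχ₁ : ∀ g, ((χ₁ g : Kˣ) : K) = φ (rhoA ρ g) := fun g => rfl
    have hχq : ∀ g, ((χ₁ g : Kˣ) : K) * (χ₁ g : Kˣ) =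
        tK t g * (χ₁ g : Kˣ) - (dK d g : Kˣ) := by
      intro g
      have := congrArg φ (quadRel_rhoA ρ t d hrel g)
      rw [map_mul, map_sub, map_smul, map_smul, map_one, smul_eq_mul, smul_eq_mul, mul_one]
        at this
      rw [hχ₁]; exact this
    have hχint : ∀ g, ∃ y : O, algebraMap O K y = ((χ₁ g : Kˣ) : K) := fun g =>
      char_mem_range ρ φ (rhoA_mem_intSet ρ g)
    have hχinv : ∀ g, ((χ₁ g : Kˣ) : K)⁻¹ = ((χ₁ g⁻¹ : Kˣ) : K) := by
      intro g
      rw [map_inv, Units.val_inv_eq_inv_val]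
    refine ⟨diagRep χ₁ (dK d / χ₁), fun g => ?_, fun g => ⟨?_, ?_⟩, fun g hg hdg => ?_,
      fun a ha g hdiv hdd => ?_⟩
    · -- integrality
      obtain ⟨y, hy⟩ := hχint g
      obtain ⟨y', hy'⟩ := hχint g⁻¹
      intro i j
      rw [diagRep_apply, Matrix.diagonal_apply]
      by_cases hij : i = j
      · subst hij
        rw [if_pos rfl]
        fin_cases i
        · exact ⟨y, by rw [hy]; rfl⟩
        · refine ⟨((d g : Oˣ) : O) * y', ?_⟩
          rw [map_mul, hy', ← hχinv, ← dK_apply, ← div_eq_mul_inv, ← Units.val_div_eq_div_val,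
            ← MonoidHom.div_apply]
          rfl
      · rw [if_neg hij]
        exact ⟨0, map_zero _⟩
    · rw [trace_diagRep, MonoidHom.div_apply, Units.val_div_eq_div_val]
      have hne : ((χ₁ g : Kˣ) : K) ≠ 0 := Units.ne_zero _
      field_simp
      linear_combination hχq g
    · rw [det_diagRep, MonoidHom.div_apply, Units.val_div_eq_div_val]
      have hne : ((χ₁ g : Kˣ) : K) ≠ 0 := Units.ne_zero _
      field_simp
    · have h1 : χ₁ g = 1 := by
        apply Units.ext
        rw [hχ₁, hρ1 g hg, map_one]; rfl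
      rw [diagRep_apply, MonoidHom.div_apply, h1, hd1 g hdg, div_one, Units.val_one,
        ← Matrix.diagonal_one]
      congr 1
      ext i
      fin_cases i <;> rfl
    · -- continuity
      obtain ⟨x, hx, hxe⟩ := exists_mem_intSet_smul ρ ha g hdiv
      obtain ⟨y, hy⟩ := char_mem_range ρ φ hx
      obtain ⟨y', hy'⟩ := hχint g⁻¹
      obtain ⟨e, he⟩ := hdd
      have h00 : ((χ₁ g : Kˣ) : K) - 1 = algebraMap O K a * algebraMap O K y := by
        rw [hχ₁, ← map_one φ, ← map_sub, hxe, map_smul, smul_eq_mul, hy]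
      have h11 : ((dK d g : Kˣ) : K) / ((χ₁ g : Kˣ) : K) - 1 =
          algebraMap O K a * algebraMap O K ((e - y) * y') := by
        have hne : ((χ₁ g : Kˣ) : K) ≠ 0 := Units.ne_zero _
        have hd' : ((dK d g : Kˣ) : K) = 1 + algebraMap O K a * algebraMap O K e := by
          rw [dK_apply, ← map_mul, ← he, map_sub, map_one]; ring
        have hχ' : ((χ₁ g : Kˣ) : K) = 1 + algebraMap O K a * algebraMap O K y := by
          rw [← h00]; ring
        rw [map_mul, map_sub, hy', ← hχinv]
        field_simp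
        rw [hd', hχ']
        ring
      intro i j
      rw [Matrix.sub_apply, diagRep_apply, Matrix.diagonal_apply, Matrix.one_apply]
      by_cases hij : i = j
      · subst hij
        rw [if_pos rfl, if_pos rfl]
        fin_cases i
        · exact ⟨y, h00⟩
        · refine ⟨(e - y) * y', ?_⟩
          rw [← h11, ← Units.val_div_eq_div_val, ← MonoidHom.div_apply]
          rfl
      · rw [if_neg hij, if_neg hij]
        exact ⟨0, by rw [map_zero, mul_zero, sub_zero]⟩
  · -- matrix case
    have h1B : (1 : Matrix (Fin 2) (Fin 2) K) ∈ f '' intSet ρ :=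
      ⟨1, one_mem_intSet ρ, map_one f⟩
    have hmulB : ∀ x ∈ f '' intSet ρ, ∀ y ∈ f '' intSet ρ, x * y ∈ f '' intSet ρ := by
      rintro _ ⟨x, hx, rfl⟩ _ ⟨y, hy, rfl⟩
      exact ⟨x * y, mul_mem_intSet ρ hx hy, map_mul f x y⟩
    have hleB : f '' intSet ρ ⊆
        ((intSub ρ).map (f.toLinearMap.restrictScalars O) : Submodule O _) := by
      rintro _ ⟨x, hx, rfl⟩
      exact ⟨x, (mem_intSub ρ).mpr hx, rfl⟩
    obtain ⟨φ, hφ⟩ := exists_algEquiv_intEntries O (f '' intSet ρ) h1B hmulB _
      ((intSub_fg ρ).map _) hleB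
    let f' : algK ρ →ₐ[K] Matrix (Fin 2) (Fin 2) K := (φ : _ →ₐ[K] _).comp f
    have hf' : ∀ x, f' x = φ (f x) := fun x => rfl
    have hf'int : ∀ x ∈ intSet ρ, IntEntries O (f' x) := fun x hx => hφ _ ⟨x, hx, rfl⟩
    let σK : G →* Matrix (Fin 2) (Fin 2) K := (f' : algK ρ →* _).comp (rhoA ρ)
    have hσK : ∀ g, σK g = f' (rhoA ρ g) := fun g => rfl
    have hrelσ : QuadRel σK (tK t) (dK d) := by
      intro g
      have := congrArg f' (quadRel_rhoA ρ t d hrel g)
      rw [map_mul, map_sub, map_smul, map_smul, map_one] at this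
      exact this
    have hns : ∃ g', ∀ c : K, σK g' ≠ c • 1 := by
      refine ⟨g₀, fun c hc' => hg₀ c ?_⟩
      rw [hσK, hf'] at hc'
      have := congrArg φ.symm hc'
      rw [AlgEquiv.symm_apply_apply, map_smul, map_one] at this
      exact this
    refine ⟨σK, fun g => hf'int _ (rhoA_mem_intSet ρ g),
      fun g => trace_det_of_quadRel σK (tK t) (dK d) hrelσ hns g, fun g hg _ => ?_,
      fun a ha g hdiv _ => ?_⟩
    · rw [hσK, hρ1 g hg, map_one]
    · obtain ⟨x, hx, hxe⟩ := exists_mem_intSet_smul ρ ha g hdiv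
      have h3 : σK g - 1 = algebraMap O K a • f' x := by
        rw [hσK, ← map_one f', ← map_sub, hxe, map_smul]
      intro i j
      obtain ⟨y, hy⟩ := hf'int x hx i j
      exact ⟨y, by rw [h3, Matrix.smul_apply, smul_eq_mul, hy]⟩

/-- **(A3).** Let `O` be a principal ideal domain with `2 ≠ 0`, `ρ : G → GLᵣ(O)` (`r > 0`) a
matrix representation all of whose elements satisfy `X² - t(g) X + d(g) = 0` (`d` a character),
and `c ∈ G` an involution with `d c = -1`.  Then there is a TWO-dimensional matrix representation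
`σ` over `O` with `tr σ(g) = t(g)`, `det σ(g) = d(g)`, which is as continuous as `(ρ, d)`:
if `a` divides `ρ(g) - 1` and `d(g) - 1` then `a` divides `σ(g) - 1`
(`a = 0`: `σ` is trivial on `ker ρ ∩ ker d`). -/
theorem exists_matrixRep_of_quadRel_odd (hr : 0 < r) (h2 : (2 : O) ≠ 0) (t : G → O)
    (d : G →* Oˣ)
    (hrel : ∀ g, ρ g * ρ g = t g • ρ g - ((d g : Oˣ) : O) • (1 : Matrix (Fin r) (Fin r) O))
    (c : G) (hc : c * c = 1) (hdc : d c = -1) :
    ∃ σ : G →* Matrix (Fin 2) (Fin 2) O,
      (∀ g, (σ g).trace = t g ∧ (σ g).det = ((d g : Oˣ) : O)) ∧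
      ∀ (a : O) (g : G), (∀ i j, a ∣ (ρ g - 1) i j) → a ∣ ((d g : Oˣ) : O) - 1 →
        ∀ i j, a ∣ (σ g - 1) i j := by
  classical
  have hinj : Function.Injective (algebraMap O K) := IsFractionRing.injective O K
  obtain ⟨σK, hint, htd, hun, hcont⟩ := exists_matrixRepK ρ hr h2 t d hrel c hc hdc
  obtain ⟨σ, hσ⟩ := exists_monoidHom_of_intEntries σK hint
  have hσe : ∀ g i j, algebraMap O K (σ g i j) = σK g i j := by
    intro g i j
    rw [← hσ g, Matrix.map_apply]
  refine ⟨σ, fun g => ⟨?_, ?_⟩, fun a g hdiv hdd i j => ?_⟩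
  · apply hinj
    have := (htd g).1
    rw [Matrix.trace_fin_two, ← hσe, ← hσe, ← map_add] at this
    rw [Matrix.trace_fin_two]
    exact this
  · apply hinj
    have := (htd g).2
    rw [Matrix.det_fin_two, ← hσe, ← hσe, ← hσe, ← hσe, ← map_mul, ← map_mul, ← map_sub,
      dK_apply] at this
    rw [Matrix.det_fin_two]
    exact this
  · by_cases ha : a = 0
    · subst ha
      have hg : ρ g = 1 := by
        ext i j
        have := zero_dvd_iff.mp (hdiv i j)
        rw [Matrix.sub_apply, sub_eq_zero] at this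
        exact this
      have hdg : d g = 1 := by
        apply Units.ext
        rw [Units.val_one]
        exact sub_eq_zero.mp (zero_dvd_iff.mp hdd)
      have h1 : σ g = 1 := by
        have h3 : (σ g).map (algebraMap O K) = (1 : Matrix (Fin 2) (Fin 2) O).map
            (algebraMap O K) := by
          rw [hσ g, hun g hg hdg, Matrix.map_one _ (map_zero _) (map_one _)]
        exact Matrix.map_injective hinj h3
      rw [h1, sub_self, Matrix.zero_apply]
    · obtain ⟨y, hy⟩ := hcont a ha g hdiv hdd i j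
      refine ⟨y, hinj ?_⟩
      rw [map_mul, ← hy, Matrix.sub_apply, Matrix.sub_apply, map_sub, hσe, Matrix.one_apply,
        Matrix.one_apply]
      split_ifs
      · rw [map_one]
      · rw [map_zero]

end Main

end Fermat.Agent.S30.H31
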