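import Mathlib
import Fermat.Prelude.Def_CuspForm_HeckeGaloisRepDatum
import Fermat.Prelude.Def_GaloisRep_ComplexConjugation
import Fermat.Agent.S30.H10_RepPackaging
import Fermat.Agent.S30.H10_DensityInst
import Fermat.Agent.S30.H31_AdicLattice
import Fermat.Agent.S30.H57_Midpoint
import Fermat.Agent.S30.H68_CycloAdic

/-!
# ASSEMBLY-B of S30: the frozen conclusion of S30 from the midpoint

`s30_of_midpoint : H57.Midpoint p N S 𝒪' χ → (frozen S30 conclusion)` with `𝒪'' := 𝒪'`.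

Chain: (DI)+(A1) `exists_trace_matrix` (quadratic relation for all `g`), (CY) cyclotomic
character (`ε(c) = -1`, `ε(Frob_ℓ) = ℓ`, inertia, continuity), (A3)
`H31.exists_matrixRep_of_quadRel_odd`, (PK) `ofMatrix`.
-/

set_option autoImplicit false

noncomputable section

namespace Fermat.Agent.S30.H10

open Polynomial IsLocalRing CuspForm Fermat.Agent.S30

local notation "Qbar" => AlgebraicClosure ℚ
local notation "GQ" => (AlgebraicClosure ℚ ≃ₐ[ℚ] AlgebraicClosure ℚ)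

/-- **ASSEMBLY-B.** The frozen conclusion of S30 (with `𝒪'' := 𝒪'`) from the midpoint. -/
theorem s30_of_midpoint (p : ℕ) [Fact p.Prime] (N : ℕ) [NeZero N] (S : Finset ℕ)
    (hpS : p ∈ S) (hNS : ∀ q : ℕ, q.Prime → q ∣ N → q ∈ S)
    (𝒪' : Type) [CommRing 𝒪'] [IsDomain 𝒪'] [IsDiscreteValuationRing 𝒪']
    [IsAdicComplete (IsLocalRing.maximalIdeal 𝒪') 𝒪'] [Finite (IsLocalRing.ResidueField 𝒪')]
    [CharZero 𝒪'] (hp𝒪' : (p : 𝒪') ∈ IsLocalRing.maximalIdeal 𝒪')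
    (χ : CuspForm.heckeAlgebra N 2 (↑S : Set ℕ) →+* 𝒪')
    (hmid : H57.Midpoint p N S 𝒪' χ) :
    ∃ (𝒪'' : Type) (_ : CommRing 𝒪'') (_ : IsDomain 𝒪'') (_ : IsDiscreteValuationRing 𝒪'')
      (_ : IsAdicComplete (IsLocalRing.maximalIdeal 𝒪'') 𝒪'')
      (_ : Finite (IsLocalRing.ResidueField 𝒪'')) (_ : CharZero 𝒪'')
      (_ : Algebra 𝒪' 𝒪'') (_ : Module.Finite 𝒪' 𝒪'') (_ : IsLocalHom (algebraMap 𝒪' 𝒪'')),
    Function.Injective (algebraMap 𝒪' 𝒪'') ∧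
    ∃ ρ : GaloisRepAdic 𝒪'',
      (∀ (ℓ : ℕ) (hℓ : ℓ.Prime) (hℓN : ¬ ℓ ∣ N) (hℓS : ℓ ∉ (↑S : Set ℕ)),
        ∀ A : ValuationSubring (AlgebraicClosure ℚ), A.LiesOverPrime ℓ →
          ∀ σ : AlgebraicClosure ℚ ≃ₐ[ℚ] AlgebraicClosure ℚ, A.IsFrobeniusAt σ ℓ →
            LinearMap.charpoly (ρ.ρ σ) =
              X ^ 2 - C (algebraMap 𝒪' 𝒪'' (χ (CuspForm.heckeAlgebra.T hℓ hℓN hℓS))) * X
                + C ((ℓ : 𝒪''))) ∧
      (∀ q : ℕ, q.Prime → ¬ q ∣ N → q ≠ p → ρ.IsUnramifiedAt q) := by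
  classical
  obtain ⟨M, iM1, iM2, iM3, iM4, rho, hnt, hcont, hunr, hfrob⟩ := hmid
  -- the trace function on good primes
  let c : ℕ → 𝒪' := fun ℓ =>
    if h : ℓ.Prime ∧ ¬ ℓ ∣ N ∧ ℓ ∉ (↑S : Set ℕ) then χ (heckeAlgebra.T h.1 h.2.1 h.2.2) else 0
  have hgood : ∀ ℓ : ℕ, ℓ.Prime → ℓ ∉ S → ¬ ℓ ∣ N := fun ℓ hℓ hℓS hdvd => hℓS (hNS ℓ hℓ hdvd)
  have hc : ∀ (ℓ : ℕ) (hℓ : ℓ.Prime) (hℓN : ¬ ℓ ∣ N) (hℓS : ℓ ∉ (↑S : Set ℕ)),
      c ℓ = χ (heckeAlgebra.T hℓ hℓN hℓS) := by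
    intro ℓ hℓ hℓN hℓS
    simp only [c]
    rw [dif_pos ⟨hℓ, hℓN, hℓS⟩]
  have hquad : ∀ ℓ : ℕ, ℓ.Prime → ℓ ∉ S → ∀ A : ValuationSubring Qbar, A.LiesOverPrime ℓ →
      ∀ σ : GQ, A.IsFrobeniusAt σ ℓ →
        rho σ * rho σ = c ℓ • rho σ - (ℓ : 𝒪') • (1 : Module.End 𝒪' M) := by
    intro ℓ hℓ hℓS A hA σ hσ
    have hℓS' : ℓ ∉ (↑S : Set ℕ) := fun h => hℓS (Finset.mem_coe.mp h)
    rw [hc ℓ hℓ (hgood ℓ hℓ hℓS) hℓS']
    exact hfrob ℓ hℓ (hgood ℓ hℓ hℓS) hℓS' A hA σ hσ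
  -- basis and matrix form
  have hr : 0 < Module.finrank 𝒪' M :=
    (Module.finrank_pos_iff_of_free (R := 𝒪') (M := M)).2 hnt
  set b := Module.finBasis 𝒪' M with hb
  set ε := H68.cycloAdic p (maximalIdeal 𝒪') hp𝒪' with hε
  obtain ⟨t, hrel, htF⟩ := exists_trace_matrix p hp𝒪' hr b rho hcont S hpS c hquad
  have h2 : (2 : 𝒪') ≠ 0 := two_ne_zero
  obtain ⟨σ, hσtd, hσdiv⟩ := H31.exists_matrixRep_of_quadRel_odd (matRep b rho) hr h2 t ε hrel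
    complexConjugation complexConjugation_mul_self
    (H68.cycloAdic_complexConjugation p (maximalIdeal 𝒪') hp𝒪')
  -- continuity
  have hρcont : MatCont (matRep b rho) := by
    intro n
    obtain ⟨L, hL, h⟩ := hcont n
    exact ⟨L, hL, fun g hg => entriesIn_matRep_sub_one b rho _ (h g hg)⟩
  have hεcont : ∀ n : ℕ, ∃ L : IntermediateField ℚ Qbar, FiniteDimensional ℚ L ∧
      ∀ g : GQ, (∀ x ∈ L, g x = x) → ((ε g : 𝒪'ˣ) : 𝒪') - 1 ∈ maximalIdeal 𝒪' ^ n := by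
    intro n
    obtain ⟨L, hL, h⟩ := H68.cycloAdic_continuity p (maximalIdeal 𝒪') hp𝒪' n
    exact ⟨L, hL, fun g hg => H68.span_natCast_pow_le p (maximalIdeal 𝒪') hp𝒪' n (h g hg)⟩
  have hσcont : MatCont σ := cont_of_dvd (matRep b rho) ε σ hσdiv hρcont hεcont
  refine ⟨𝒪', inferInstance, inferInstance, inferInstance, inferInstance, inferInstance,
    inferInstance, Algebra.id 𝒪', Module.Finite.self 𝒪', ⟨fun a ha => ha⟩,
    Function.injective_id, ofMatrix σ hσcont, ?_, ?_⟩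
  · intro ℓ hℓ hℓN hℓS A hA g hg
    have hℓS' : ℓ ∉ S := fun h => hℓS (Finset.mem_coe.mpr h)
    have hℓp : ℓ ≠ p := fun h => hℓS' (h ▸ hpS)
    rw [ofMatrix_charpoly, (hσtd g).1, (hσtd g).2,
      htF g (c ℓ) ⟨ℓ, hℓ, hℓS', A, hA, hg, rfl⟩, hc ℓ hℓ hℓN hℓS,
      H68.cycloAdic_frobenius p (maximalIdeal 𝒪') hp𝒪' hℓ hℓp hA hg]
    rfl
  · intro q hq hqN hqp
    refine ofMatrix_isUnramifiedAt σ hσcont q fun P hP g hg => ?_
    have h1 : rho g = 1 := hunr q hq hqN hqp P hP g hg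
    have h3 : ε g = 1 := H68.cycloAdic_inertia p (maximalIdeal 𝒪') hp𝒪' hq hqp hP hg
    have h4 : matRep b rho g = 1 := by
      rw [matRep_apply, h1, map_one]
    have h5 : ∀ i j, (0 : 𝒪') ∣ (σ g - 1) i j := by
      refine hσdiv 0 g (fun i j => ?_) ?_
      · rw [h4, sub_self, Matrix.zero_apply]
      · rw [h3, Units.val_one, sub_self]
    ext i j
    have := zero_dvd_iff.mp (h5 i j)
    rw [Matrix.sub_apply, sub_eq_zero] at this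
    exact this

end Fermat.Agent.S30.H10
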