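import Mathlib

/-!
# Topological Nakayama for a principal ideal, and finite freeness over a complete DVR

* `span_eq_top_of_forall_exists_sum_add_smul`: if `R` is `(π)`-adically precomplete, `M` is
  `(π)`-adically separated and a finite family `s` generates `M` modulo `π`, then `s` generates `M`.
* `finite_of_finite_quotient`: `M / π M` finite (as a set) implies `M` finitely generated.
* `isTorsionFree_of_irreducible`: over a DVR, `π`-torsion-free implies torsion-free.
* `finite_free_of_dvr`: over a complete DVR, a `π`-torsion-free, separated module with finite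
  `M / π M` is finite and free.
* `finite_free_padicInt`: the `ℤ_[p]` specialisation.
-/

set_option autoImplicit false

namespace Fermat.Agent.S30.H12

open Submodule

section General

variable {R M : Type*} [CommRing R] [AddCommGroup M] [Module R M]

/-- Membership in `(π) ^ K • ⊤`. -/
theorem mem_span_singleton_pow_smul_top_iff (π : R) (K : ℕ) (x : M) :
    x ∈ ((Ideal.span {π}) ^ K • (⊤ : Submodule R M)) ↔ ∃ y : M, x = π ^ K • y := by
  rw [Ideal.span_singleton_pow, Submodule.ideal_span_singleton_smul,
    Submodule.mem_smul_pointwise_iff_exists]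
  constructor
  · rintro ⟨y, -, rfl⟩; exact ⟨y, rfl⟩
  · rintro ⟨y, rfl⟩; exact ⟨y, mem_top, rfl⟩

/-- Separatedness for a principal ideal in explicit form. -/
theorem isHausdorff_of_forall_pow_smul (π : R)
    (hsep : ∀ m : M, (∀ n : ℕ, ∃ m' : M, m = π ^ n • m') → m = 0) :
    IsHausdorff (Ideal.span {π}) M :=
  ⟨fun x hx => hsep x fun n => by
    have := hx n
    rwa [SModEq.sub_mem, sub_zero, mem_span_singleton_pow_smul_top_iff] at this⟩

/-- **Topological Nakayama lemma** for a principal ideal. -/
theorem span_eq_top_of_forall_exists_sum_add_smul (π : R) [IsPrecomplete (Ideal.span {π}) R]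
    [IsHausdorff (Ideal.span {π}) M] {ι : Type*} [Fintype ι] (s : ι → M)
    (hs : ∀ m : M, ∃ (c : ι → R) (m' : M), m = ∑ i, c i • s i + π • m') :
    Submodule.span R (Set.range s) = ⊤ := by
  classical
  choose c r hcr using hs
  rw [eq_top_iff]
  intro m₀ _
  -- the sequence of remainders and partial coefficient sums
  let mseq : ℕ → M := fun k => r^[k] m₀
  let a : ℕ → ι → R := fun K i => ∑ k ∈ Finset.range K, π ^ k * c (mseq k) i
  have hmseq : ∀ k, mseq (k + 1) = r (mseq k) := fun k => Function.iterate_succ_apply' r k m₀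
  have hstep : ∀ K, m₀ = ∑ i, a K i • s i + π ^ K • mseq K := by
    intro K
    induction K with
    | zero => simp [a, mseq]
    | succ K ih =>
      have h1 : ∀ i, a (K + 1) i = a K i + π ^ K * c (mseq K) i := fun i =>
        Finset.sum_range_succ _ K
      have h2 := hcr (mseq K)
      rw [← hmseq K] at h2
      calc m₀ = ∑ i, a K i • s i + π ^ K • mseq K := ih
        _ = ∑ i, a K i • s i + π ^ K • (∑ i, c (mseq K) i • s i + π • mseq (K + 1)) := by
            rw [← h2]
        _ = ∑ i, a (K + 1) i • s i + π ^ (K + 1) • mseq (K + 1) := by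
            simp only [h1, add_smul, Finset.sum_add_distrib, smul_add, Finset.smul_sum, mul_smul,
              pow_succ]
            abel
  -- the coefficient sequences are Cauchy
  have hcauchy : ∀ i, ∀ {m n : ℕ}, m ≤ n →
      a m i ≡ a n i [SMOD ((Ideal.span {π}) ^ m • (⊤ : Submodule R R))] := by
    intro i m n hmn
    rw [SModEq.sub_mem, mem_span_singleton_pow_smul_top_iff]
    have h1 : a n i - a m i = ∑ k ∈ Finset.Ico m n, π ^ k * c (mseq k) i := by
      rw [Finset.sum_Ico_eq_sub _ hmn]
    refine ⟨-∑ k ∈ Finset.Ico m n, π ^ (k - m) * c (mseq k) i, ?_⟩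
    have h2 : a m i - a n i = -(a n i - a m i) := by ring
    rw [h2, h1, smul_eq_mul, mul_neg, Finset.mul_sum]
    congr 1
    refine Finset.sum_congr rfl fun k hk => ?_
    have hk' : m ≤ k := (Finset.mem_Ico.mp hk).1
    rw [← mul_assoc, ← pow_add, Nat.add_sub_cancel' hk']
  have hlim : ∀ i, ∃ L : R, ∀ n, a n i ≡ L [SMOD ((Ideal.span {π}) ^ n • (⊤ : Submodule R R))] :=
    fun i => IsPrecomplete.prec' (fun n => a n i) (hcauchy i)
  choose L hL using hlim
  -- `m₀ = ∑ L i • s i`
  have hzero : m₀ - ∑ i, L i • s i = 0 := by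
    refine IsHausdorff.haus' (I := Ideal.span {π}) _ fun K => ?_
    rw [SModEq.sub_mem, sub_zero, mem_span_singleton_pow_smul_top_iff]
    have hy : ∀ i, ∃ y : R, a K i - L i = π ^ K • y := fun i => by
      have := hL i K
      rwa [SModEq.sub_mem, mem_span_singleton_pow_smul_top_iff] at this
    choose y hy using hy
    refine ⟨mseq K + ∑ i, y i • s i, ?_⟩
    have h3 : m₀ - ∑ i, L i • s i = π ^ K • mseq K + ∑ i, (a K i - L i) • s i := by
      conv_lhs => rw [hstep K]
      simp only [sub_smul, Finset.sum_sub_distrib]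
      abel
    rw [h3, smul_add, Finset.smul_sum]
    congr 1
    refine Finset.sum_congr rfl fun i _ => ?_
    rw [hy i, smul_eq_mul, mul_smul]
  have : m₀ = ∑ i, L i • s i := sub_eq_zero.mp hzero
  rw [this]
  exact Submodule.sum_mem _ fun i _ => Submodule.smul_mem _ _ (Submodule.subset_span ⟨i, rfl⟩)

/-- If a finite set of elements represents all classes modulo `π`, then `M` is finitely
generated. -/
theorem finite_of_finite_range {X : Type*} [AddCommGroup X] (π : R)
    [IsPrecomplete (Ideal.span {π}) R] [IsHausdorff (Ideal.span {π}) M] (f : M →+ X)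
    (hfin : (Set.range f).Finite) (hker : ∀ m : M, f m = 0 → ∃ m' : M, m = π • m') :
    Module.Finite R M := by
  classical
  have : Fintype (Set.range f) := hfin.fintype
  have hpre : ∀ y : Set.range f, ∃ m : M, f m = y := fun y => y.2
  choose s hs' using hpre
  have hs : ∀ m : M, ∃ (c : Set.range f → R) (m' : M), m = ∑ i, c i • s i + π • m' := by
    intro m
    obtain ⟨m', hm'⟩ := hker (m - s ⟨f m, m, rfl⟩) (by rw [map_sub, hs', sub_self])
    refine ⟨Pi.single ⟨f m, m, rfl⟩ 1, m', ?_⟩
    rw [Finset.sum_eq_single (⟨f m, m, rfl⟩ : Set.range f)]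
    · rw [Pi.single_eq_same, one_smul, ← hm']; abel
    · intro b _ hb; rw [Pi.single_eq_of_ne hb, zero_smul]
    · intro h; exact absurd (Finset.mem_univ _) h
  have h := span_eq_top_of_forall_exists_sum_add_smul π s hs
  exact ⟨⟨Finset.univ.image s, by rw [Finset.coe_image, Finset.coe_univ, Set.image_univ, h]⟩⟩

/-- If `M / (π) M` is finite and the adic hypotheses hold, then `M` is finitely generated. -/
theorem finite_of_finite_quotient (π : R) [IsPrecomplete (Ideal.span {π}) R]
    [IsHausdorff (Ideal.span {π}) M]
    [Finite (M ⧸ (Ideal.span {π} • (⊤ : Submodule R M)))] :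
    Module.Finite R M := by
  refine finite_of_finite_range π
    (Submodule.mkQ (Ideal.span {π} • (⊤ : Submodule R M))).toAddMonoidHom
    (Set.toFinite _) fun m hm => ?_
  have h1 : m ∈ (Ideal.span {π} • (⊤ : Submodule R M)) :=
    (Submodule.Quotient.mk_eq_zero _).mp hm
  have h2 := (mem_span_singleton_pow_smul_top_iff π 1 m).mp (by rwa [pow_one])
  simpa using h2

end General

section DVR

variable {R M : Type*} [CommRing R] [IsDomain R] [IsDiscreteValuationRing R]
  [AddCommGroup M] [Module R M]

/-- Over a DVR, a module without `π`-torsion is torsion-free. -/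
theorem isTorsionFree_of_irreducible {π : R} (hπ : Irreducible π)
    (h : ∀ m : M, π • m = 0 → m = 0) : Module.IsTorsionFree R M := by
  refine ⟨fun r hr => ?_⟩
  have hr0 : r ≠ 0 := hr.ne_zero
  obtain ⟨n, u, hu⟩ := IsDiscreteValuationRing.eq_unit_mul_pow_irreducible hr0 hπ
  have hpow : ∀ n : ℕ, ∀ m : M, π ^ n • m = 0 → m = 0 := by
    intro n
    induction n with
    | zero => intro m hm; simpa using hm
    | succ n ih =>
      intro m hm
      rw [pow_succ, mul_smul] at hm
      exact h m (ih _ hm)
  intro m₁ m₂ hm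
  have h1 : r • (m₁ - m₂) = 0 := by rw [smul_sub]; exact sub_eq_zero.mpr hm
  rw [hu, mul_smul] at h1
  have h2 : π ^ n • (m₁ - m₂) = 0 := by
    have := congrArg (fun x => (↑u⁻¹ : R) • x) h1
    simpa [smul_smul] using this
  exact sub_eq_zero.mp (hpow n _ h2)

/-- Over a DVR which is `(π)`-adically precomplete, a `π`-torsion-free `(π)`-adically separated
module which is finite modulo `π` (in the form: an additive map with finite range whose kernel
lies in `π M`) is finite and free. -/
theorem finite_free_of_dvr {π : R} (hπ : Irreducible π) [IsPrecomplete (Ideal.span {π}) R]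
    [IsHausdorff (Ideal.span {π}) M] {X : Type*} [AddCommGroup X] (f : M →+ X)
    (hfin : (Set.range f).Finite) (hker : ∀ m : M, f m = 0 → ∃ m' : M, m = π • m')
    (h : ∀ m : M, π • m = 0 → m = 0) : Module.Finite R M ∧ Module.Free R M := by
  have h1 : Module.Finite R M := finite_of_finite_range π f hfin hker
  have h2 : Module.IsTorsionFree R M := isTorsionFree_of_irreducible hπ h
  exact ⟨h1, inferInstance⟩

/-- The same for a DVR which is complete for its maximal ideal, with separatedness in explicit
form. -/
theorem finite_free_of_complete_dvr [IsAdicComplete (IsLocalRing.maximalIdeal R) R] {π : R}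
    (hπ : Irreducible π) {X : Type*} [AddCommGroup X] (f : M →+ X)
    (hfin : (Set.range f).Finite) (hker : ∀ m : M, f m = 0 → ∃ m' : M, m = π • m')
    (htf : ∀ m : M, π • m = 0 → m = 0)
    (hsep : ∀ m : M, (∀ n : ℕ, ∃ m' : M, m = π ^ n • m') → m = 0) :
    Module.Finite R M ∧ Module.Free R M := by
  have hcomp : IsAdicComplete (Ideal.span {π}) R := by
    rw [← hπ.maximalIdeal_eq]; infer_instance
  have hpre : IsPrecomplete (Ideal.span {π}) R := hcomp.toIsPrecomplete
  have hH : IsHausdorff (Ideal.span {π}) M := isHausdorff_of_forall_pow_smul _ hsep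
  exact finite_free_of_dvr hπ f hfin hker htf

end DVR

section PadicInt

variable (p : ℕ) [Fact p.Prime] {M : Type*} [AddCommGroup M] [Module ℤ_[p] M]

/-- A `ℤ_[p]`-module which is `p`-torsion-free, `p`-adically separated and finite modulo `p`
(in the form: an additive map with finite range whose kernel lies in `p M`) is finite and free.
This is the shape needed for Tate modules. -/
theorem finite_free_padicInt {X : Type*} [AddCommGroup X] (f : M →+ X)
    (hfin : (Set.range f).Finite) (hker : ∀ m : M, f m = 0 → ∃ m' : M, m = (p : ℤ_[p]) • m')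
    (htf : ∀ m : M, (p : ℤ_[p]) • m = 0 → m = 0)
    (hsep : ∀ m : M, (∀ n : ℕ, ∃ m' : M, m = (p : ℤ_[p]) ^ n • m') → m = 0) :
    Module.Finite ℤ_[p] M ∧ Module.Free ℤ_[p] M := by
  have hcomp : IsAdicComplete (Ideal.span {(p : ℤ_[p])}) ℤ_[p] := by
    rw [← PadicInt.maximalIdeal_eq_span_p]; infer_instance
  have hpre : IsPrecomplete (Ideal.span {(p : ℤ_[p])}) ℤ_[p] := hcomp.toIsPrecomplete
  have hH : IsHausdorff (Ideal.span {(p : ℤ_[p])}) M := isHausdorff_of_forall_pow_smul _ hsep
  exact finite_free_of_dvr PadicInt.irreducible_p f hfin hker htf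

end PadicInt

end Fermat.Agent.S30.H12
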