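/-
S30 (helper31): from an eigenvector in a big Galois-Hecke module to helper57's `Midpoint`.

`V` is a finite free module over the complete DVR `𝒪'` (in the application
`V = 𝒪' ⊗_{ℤ_p} T_p J₀(N)`) with an adically continuous action `ρ` of `G_ℚ`, unramified outside
`Np`, operators `TV ℓ` commuting with `ρ` such that Frobenius lifts at good primes satisfy
`ρ(s)² = TV ℓ ρ(s) - ℓ` (Eichler–Shimura), and `u ≠ 0` is a simultaneous eigenvector
`TV ℓ u = χ(T_ℓ) u`.  Then the simultaneous eigen-submodule `M` is a `Midpoint`: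
it is saturated in `V`, hence finite free, nonzero, Galois stable, and continuity restricts.
-/
import Mathlib
import Fermat.Agent.S30.H57_Midpoint

set_option autoImplicit false

namespace Fermat.Agent.S30.H31

section Eigen

variable {O : Type*} [CommRing O] {V : Type*} [AddCommGroup V] [Module O V] {ι : Type*}
  (𝒯 : ι → Module.End O V) (c : ι → O)

/-- the simultaneous eigen-submodule `{x | ∀ i, 𝒯 i x = c i • x}` -/
def eigenSub : Submodule O V where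
  carrier := {x | ∀ i, 𝒯 i x = c i • x}
  add_mem' {x y} hx hy i := by
    show 𝒯 i (x + y) = c i • (x + y)
    rw [map_add, hx i, hy i, smul_add]
  zero_mem' i := by
    show 𝒯 i 0 = c i • (0 : V)
    rw [map_zero, smul_zero]
  smul_mem' a x hx i := by
    show 𝒯 i (a • x) = c i • a • x
    rw [map_smul, hx i, smul_comm]

theorem mem_eigenSub {x : V} : x ∈ eigenSub 𝒯 c ↔ ∀ i, 𝒯 i x = c i • x := Iff.rfl

variable {𝒯 c}

/-- The eigen-submodule is saturated. -/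
theorem mem_eigenSub_of_smul_mem [IsDomain O] [Module.IsTorsionFree O V] {a : O} (ha : a ≠ 0)
    {x : V} (h : a • x ∈ eigenSub 𝒯 c) : x ∈ eigenSub 𝒯 c := by
  intro i
  have h1 := h i
  rw [map_smul, smul_comm] at h1
  exact smul_right_injective V ha h1

/-- An endomorphism commuting with the `𝒯 i` preserves the eigen-submodule. -/
theorem map_mem_eigenSub {f : Module.End O V} (hf : ∀ i x, 𝒯 i (f x) = f (𝒯 i x)) {x : V}
    (hx : x ∈ eigenSub 𝒯 c) : f x ∈ eigenSub 𝒯 c := by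
  intro i
  rw [hf i x, hx i, map_smul]

variable {G : Type*} [Group G]

/-- The restriction of a representation commuting with the `𝒯 i` to the eigen-submodule. -/
def eigenRep (ρ : G →* Module.End O V) (hcomm : ∀ g i x, 𝒯 i (ρ g x) = ρ g (𝒯 i x)) :
    G →* Module.End O (eigenSub 𝒯 c) where
  toFun g := (ρ g).restrict (fun _ hx => map_mem_eigenSub (hcomm g) hx)
  map_one' := by
    ext x
    rw [LinearMap.restrict_apply]
    simp
  map_mul' g g' := by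
    ext x
    rw [LinearMap.restrict_apply]
    simp [LinearMap.restrict_apply]

theorem eigenRep_apply_coe (ρ : G →* Module.End O V)
    (hcomm : ∀ g i x, 𝒯 i (ρ g x) = ρ g (𝒯 i x)) (g : G) (x : eigenSub 𝒯 c) :
    ((eigenRep ρ hcomm g x : eigenSub 𝒯 c) : V) = ρ g x := rfl

end Eigen

section Mid

open CuspForm

local notation "Qbar" => AlgebraicClosure ℚ
local notation "GQ" => (AlgebraicClosure ℚ ≃ₐ[ℚ] AlgebraicClosure ℚ)

/-- **Midpoint from an eigenvector.** -/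
theorem midpoint_of_eigen (p N : ℕ) [NeZero N] (S : Finset ℕ)
    (𝒪' : Type) [CommRing 𝒪'] [IsDomain 𝒪'] [IsDiscreteValuationRing 𝒪']
    (χ : heckeAlgebra N 2 (↑S : Set ℕ) →+* 𝒪')
    (V : Type) [AddCommGroup V] [Module 𝒪' V] [Module.Free 𝒪' V] [Module.Finite 𝒪' V]
    (ρ : GQ →* Module.End 𝒪' V) (TV : ℕ → Module.End 𝒪' V)
    (hcomm : ∀ (g : GQ) (ℓ : ℕ), ℓ.Prime → ¬ ℓ ∣ N → ℓ ∉ (↑S : Set ℕ) →
      ∀ x : V, TV ℓ (ρ g x) = ρ g (TV ℓ x))
    (hcont : GaloisActionIsAdicContinuous 𝒪' ρ)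
    (hunr : ∀ q : ℕ, q.Prime → ¬ q ∣ N → q ≠ p → ∀ P : ValuationSubring Qbar,
      P.LiesOverPrime q → ∀ σ ∈ P.inertiaSubgroupIn ℚ, ρ σ = 1)
    (hfrob : ∀ ℓ : ℕ, ℓ.Prime → ¬ ℓ ∣ N → ℓ ∉ (↑S : Set ℕ) →
      ∀ A : ValuationSubring Qbar, A.LiesOverPrime ℓ → ∀ σ : GQ, A.IsFrobeniusAt σ ℓ →
        ∀ x : V, ρ σ (ρ σ x) = TV ℓ (ρ σ x) - (ℓ : 𝒪') • x)
    (u : V) (hu : u ≠ 0)
    (hue : ∀ (ℓ : ℕ) (hℓ : ℓ.Prime) (hℓN : ¬ ℓ ∣ N) (hℓS : ℓ ∉ (↑S : Set ℕ)),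
      TV ℓ u = χ (heckeAlgebra.T hℓ hℓN hℓS) • u) :
    H57.Midpoint p N S 𝒪' χ := by
  classical
  -- the index set of good primes
  let ι := {ℓ : ℕ // ℓ.Prime ∧ ¬ ℓ ∣ N ∧ ℓ ∉ (↑S : Set ℕ)}
  let 𝒯 : ι → Module.End 𝒪' V := fun i => TV i.1
  let c : ι → 𝒪' := fun i => χ (heckeAlgebra.T i.2.1 i.2.2.1 i.2.2.2)
  have hcomm' : ∀ (g : GQ) (i : ι) (x : V), 𝒯 i (ρ g x) = ρ g (𝒯 i x) := fun g i x =>
    hcomm g i.1 i.2.1 i.2.2.1 i.2.2.2 x
  have huM : u ∈ eigenSub 𝒯 c := fun i => hue i.1 i.2.1 i.2.2.1 i.2.2.2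
  obtain ⟨ϖ, hϖ⟩ := IsDiscreteValuationRing.exists_irreducible 𝒪'
  have hϖ0 : ∀ n : ℕ, ϖ ^ n ≠ 0 := fun n => pow_ne_zero n hϖ.ne_zero
  have h𝔪ϖ : ∀ n : ℕ, IsLocalRing.maximalIdeal 𝒪' ^ n = Ideal.span {ϖ ^ n} := by
    intro n
    rw [hϖ.maximalIdeal_eq, Ideal.span_singleton_pow]
  refine ⟨eigenSub 𝒯 c, inferInstance, inferInstance, inferInstance, inferInstance,
    eigenRep ρ hcomm', ?_, ?_, ?_, ?_⟩
  · exact ⟨⟨⟨u, huM⟩, 0, fun h => hu (congrArg Subtype.val h)⟩⟩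
  · -- continuity
    intro n
    obtain ⟨L, hLf, hL⟩ := hcont n
    refine ⟨L, hLf, fun σ hσ m => ?_⟩
    have h1 := hL σ hσ (m : V)
    rw [h𝔪ϖ n, Submodule.ideal_span_singleton_smul,
      Submodule.mem_smul_pointwise_iff_exists] at h1
    obtain ⟨y, -, hy⟩ := h1
    have hmem : ρ σ (m : V) - (m : V) ∈ eigenSub 𝒯 c :=
      Submodule.sub_mem _ (map_mem_eigenSub (hcomm' σ) m.2) m.2
    have hyM : y ∈ eigenSub 𝒯 c := by
      rw [← hy] at hmem
      exact mem_eigenSub_of_smul_mem (hϖ0 n) hmem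
    have h2 : eigenRep ρ hcomm' σ m - m = ϖ ^ n • (⟨y, hyM⟩ : eigenSub 𝒯 c) := by
      apply Subtype.ext
      rw [Submodule.coe_sub, eigenRep_apply_coe, Submodule.coe_smul, Submodule.coe_mk, hy]
    rw [h2, h𝔪ϖ n]
    exact Submodule.smul_mem_smul (Ideal.mem_span_singleton_self _) Submodule.mem_top
  · -- unramified
    intro q hq hqN hqp P hP σ hσ
    ext m
    rw [eigenRep_apply_coe, hunr q hq hqN hqp P hP σ hσ]
    rfl
  · -- Frobenius relation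
    intro ℓ hℓ hℓN hℓS A hA σ hσ
    ext m
    have h1 := hfrob ℓ hℓ hℓN hℓS A hA σ hσ (m : V)
    have h2 : TV ℓ (ρ σ (m : V)) = χ (heckeAlgebra.T hℓ hℓN hℓS) • ρ σ (m : V) :=
      (map_mem_eigenSub (hcomm' σ) m.2 : ρ σ (m : V) ∈ eigenSub 𝒯 c) ⟨ℓ, hℓ, hℓN, hℓS⟩
    rw [h2] at h1
    simp only [Module.End.mul_apply, LinearMap.sub_apply, LinearMap.smul_apply,
      Module.End.one_apply, Submodule.coe_sub, Submodule.coe_smul, eigenRep_apply_coe]
    exact h1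

end Mid

end Fermat.Agent.S30.H31
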