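/-
S30, package ALG-adic-quadratic-rep (helper31): ASSEMBLY.

From a "midpoint" (a nonzero finite free `𝒪'`-module `M` with an adically continuous action `ρ`
of `G_ℚ`, unramified outside `Np`, all of whose elements satisfy
`ρ(g)² = t(g) ρ(g) - ε_p(g)` with `t(Frob_ℓ) = χ(T_ℓ)`) to the conclusion of the frozen
statement S30, with `𝒪'' := 𝒪'`.
-/
import Mathlib
import Fermat.Statements.S30
import Fermat.Agent.S30.H31_AdicLattice
import Fermat.Agent.S30.H68_CycloAdic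

set_option autoImplicit false

namespace Fermat.Agent.S30.H31

open Matrix Module Polynomial

section Generic

variable {O : Type*} [CommRing O] [IsDomain O] [IsPrincipalIdealRing O] {G : Type*} [Group G]
  {M : Type*} [AddCommGroup M] [Module O M] [Module.Free O M] [Module.Finite O M] [Nontrivial M]

omit [IsDomain O] [IsPrincipalIdealRing O] [Module.Free O M] [Module.Finite O M]
  [Nontrivial M] in
/-- coordinates of an element of `J • ⊤` lie in `J` -/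
theorem repr_mem_of_mem_smul_top {ι : Type*} (b : Basis ι O M) (J : Ideal O) {x : M}
    (hx : x ∈ J • (⊤ : Submodule O M)) (i : ι) : b.repr x i ∈ J := by
  refine Submodule.smul_induction_on (p := fun x => b.repr x i ∈ J) hx ?_ ?_
  · intro a ha m _
    rw [map_smul, Finsupp.smul_apply, smul_eq_mul]
    exact J.mul_mem_right _ ha
  · intro x y hx hy
    rw [map_add, Finsupp.add_apply]
    exact J.add_mem hx hy

/-- **(A3), module form.** -/
theorem exists_matrixRep_of_module (h2 : (2 : O) ≠ 0) (ρ : G →* Module.End O M) (t : G → O)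
    (d : G →* Oˣ)
    (hrel : ∀ g, ρ g * ρ g = t g • ρ g - ((d g : Oˣ) : O) • (1 : Module.End O M))
    (c : G) (hc : c * c = 1) (hdc : d c = -1) :
    ∃ σ : G →* Matrix (Fin 2) (Fin 2) O,
      (∀ g, (σ g).trace = t g ∧ (σ g).det = ((d g : Oˣ) : O)) ∧
      ∀ (a : O) (g : G), (∀ v, ρ g v - v ∈ Ideal.span {a} • (⊤ : Submodule O M)) →
        a ∣ ((d g : Oˣ) : O) - 1 → ∀ i j, a ∣ (σ g - 1) i j := by
  classical
  set ι := Module.Free.ChooseBasisIndex O M with hι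
  set b : Basis (Fin (Fintype.card ι)) O M :=
    (Module.Free.chooseBasis O M).reindex (Fintype.equivFin ι) with hb
  have hr : 0 < Fintype.card ι := Fintype.card_pos
  let ρm : G →* Matrix (Fin (Fintype.card ι)) (Fin (Fintype.card ι)) O :=
    ((LinearMap.toMatrixAlgEquiv b : Module.End O M ≃ₐ[O] _) : Module.End O M →* _).comp ρ
  have hρm : ∀ g, ρm g = LinearMap.toMatrixAlgEquiv b (ρ g) := fun g => rfl
  have hrelm : ∀ g, ρm g * ρm g = t g • ρm g - ((d g : Oˣ) : O) • 1 := by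
    intro g
    rw [hρm, ← map_mul, hrel g, map_sub, map_smul, map_smul, map_one]
  obtain ⟨σ, hσ, hcont⟩ := exists_matrixRep_of_quadRel_odd ρm hr h2 t d hrelm c hc hdc
  refine ⟨σ, hσ, fun a g hv hd => hcont a g (fun i j => ?_) hd⟩
  have h1 : (ρm g - 1) i j = b.repr (ρ g (b j) - b j) i := by
    rw [Matrix.sub_apply, hρm, LinearMap.toMatrixAlgEquiv_apply, map_sub, Finsupp.sub_apply,
      Matrix.one_apply, Basis.repr_self, Finsupp.single_apply]
    simp only [eq_comm]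
  rw [h1]
  exact Ideal.mem_span_singleton.mp (repr_mem_of_mem_smul_top b _ (hv (b j)) i)

end Generic

section Galois

local notation "Qbar" => AlgebraicClosure ℚ
local notation "GQ" => (AlgebraicClosure ℚ ≃ₐ[ℚ] AlgebraicClosure ℚ)

variable {O : Type} [CommRing O]

/-- the linear representation on `O²` attached to a matrix representation -/
noncomputable def linOfMatrix {G : Type*} [Group G] (σ : G →* Matrix (Fin 2) (Fin 2) O) :
    G →* Module.End O (Fin 2 → O) :=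
  ((Matrix.toLinAlgEquiv' : Matrix (Fin 2) (Fin 2) O ≃ₐ[O] _) :
    Matrix (Fin 2) (Fin 2) O →* Module.End O (Fin 2 → O)).comp σ

theorem linOfMatrix_apply {G : Type*} [Group G] (σ : G →* Matrix (Fin 2) (Fin 2) O) (g : G) :
    linOfMatrix σ g = Matrix.toLin' (σ g) := rfl

theorem mem_smul_top_of_forall_mem (J : Ideal O) (w : Fin 2 → O) (h : ∀ i, w i ∈ J) :
    w ∈ J • (⊤ : Submodule O (Fin 2 → O)) := by
  have hw : w = ∑ i, w i • (Pi.single i (1 : O) : Fin 2 → O) := by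
    ext k
    simp [Finset.sum_apply, Pi.single_apply]
  rw [hw]
  exact Submodule.sum_mem _ fun i _ => Submodule.smul_mem_smul (h i) Submodule.mem_top

end Galois

section Assembly

open CuspForm IsLocalRing

local notation "Qbar" => AlgebraicClosure ℚ
local notation "GQ" => (AlgebraicClosure ℚ ≃ₐ[ℚ] AlgebraicClosure ℚ)

/-- **S30 from the quadratic midpoint** (with `𝒪'' := 𝒪'`). -/
theorem s30_of_quadRel (p : ℕ) [Fact p.Prime] (N : ℕ) [NeZero N] (S : Finset ℕ) (hpS : p ∈ S)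
    (𝒪' : Type) [CommRing 𝒪'] [IsDomain 𝒪'] [IsDiscreteValuationRing 𝒪']
    [IsAdicComplete (IsLocalRing.maximalIdeal 𝒪') 𝒪'] [Finite (IsLocalRing.ResidueField 𝒪')]
    [CharZero 𝒪'] (hp𝒪' : (p : 𝒪') ∈ IsLocalRing.maximalIdeal 𝒪')
    (χ : CuspForm.heckeAlgebra N 2 (↑S : Set ℕ) →+* 𝒪')
    (M : Type) [AddCommGroup M] [Module 𝒪' M] [Module.Free 𝒪' M] [Module.Finite 𝒪' M]
    [Nontrivial M] (ρ : GQ →* Module.End 𝒪' M) (hcont : GaloisActionIsAdicContinuous 𝒪' ρ)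
    (hunr : ∀ q : ℕ, q.Prime → ¬ q ∣ N → q ≠ p → ∀ P : ValuationSubring Qbar,
      P.LiesOverPrime q → ∀ σ ∈ P.inertiaSubgroupIn ℚ, ρ σ = 1)
    (t : GQ → 𝒪')
    (hquad : ∀ g, ρ g * ρ g = t g • ρ g -
      ((H68.cycloAdic p (IsLocalRing.maximalIdeal 𝒪') hp𝒪' g : 𝒪'ˣ) : 𝒪') • (1 : Module.End 𝒪' M))
    (ht : ∀ (ℓ : ℕ) (hℓ : ℓ.Prime) (hℓN : ¬ ℓ ∣ N) (hℓS : ℓ ∉ (↑S : Set ℕ)),
      ∀ A : ValuationSubring Qbar, A.LiesOverPrime ℓ → ∀ σ : GQ, A.IsFrobeniusAt σ ℓ →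
        t σ = χ (CuspForm.heckeAlgebra.T hℓ hℓN hℓS)) :
    ∃ (𝒪'' : Type) (_ : CommRing 𝒪'') (_ : IsDomain 𝒪'') (_ : IsDiscreteValuationRing 𝒪'')
      (_ : IsAdicComplete (IsLocalRing.maximalIdeal 𝒪'') 𝒪'')
      (_ : Finite (IsLocalRing.ResidueField 𝒪'')) (_ : CharZero 𝒪'')
      (_ : Algebra 𝒪' 𝒪'') (_ : Module.Finite 𝒪' 𝒪'') (_ : IsLocalHom (algebraMap 𝒪' 𝒪'')),
    Function.Injective (algebraMap 𝒪' 𝒪'') ∧
    ∃ ρ : GaloisRepAdic 𝒪'',
      (∀ (ℓ : ℕ) (hℓ : ℓ.Prime) (hℓN : ¬ ℓ ∣ N) (hℓS : ℓ ∉ (↑S : Set ℕ)),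
        ∀ A : ValuationSubring (AlgebraicClosure ℚ), A.LiesOverPrime ℓ →
          ∀ σ : AlgebraicClosure ℚ ≃ₐ[ℚ] AlgebraicClosure ℚ, A.IsFrobeniusAt σ ℓ →
            LinearMap.charpoly (ρ.ρ σ) =
              X ^ 2 - C (algebraMap 𝒪' 𝒪'' (χ (CuspForm.heckeAlgebra.T hℓ hℓN hℓS))) * X
                + C ((ℓ : 𝒪''))) ∧
      (∀ q : ℕ, q.Prime → ¬ q ∣ N → q ≠ p → ρ.IsUnramifiedAt q) := by
  classical
  set 𝔪 := IsLocalRing.maximalIdeal 𝒪' with h𝔪
  set d := H68.cycloAdic p 𝔪 hp𝒪' with hd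
  obtain ⟨σ, hσ, hσc⟩ := exists_matrixRep_of_module (two_ne_zero : (2 : 𝒪') ≠ 0) ρ t d hquad
    complexConjugation complexConjugation_mul_self (H68.cycloAdic_complexConjugation p 𝔪 hp𝒪')
  obtain ⟨ϖ, hϖ⟩ := IsDiscreteValuationRing.exists_irreducible 𝒪'
  have h𝔪ϖ : ∀ n : ℕ, 𝔪 ^ n = Ideal.span {ϖ ^ n} := by
    intro n
    rw [h𝔪, hϖ.maximalIdeal_eq, Ideal.span_singleton_pow]
  -- continuity
  have hcontσ : GaloisActionIsAdicContinuous 𝒪' (linOfMatrix σ) := by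
    intro n
    obtain ⟨L₁, hL₁f, hL₁⟩ := hcont n
    obtain ⟨L₂, hL₂f, hL₂⟩ := H68.cycloAdic_continuity p 𝔪 hp𝒪' n
    refine ⟨L₁ ⊔ L₂, IntermediateField.finiteDimensional_sup L₁ L₂, fun τ hτ v => ?_⟩
    have hτ₁ : ∀ x ∈ L₁, τ x = x := fun x hx => hτ x ((le_sup_left : L₁ ≤ L₁ ⊔ L₂) hx)
    have hτ₂ : ∀ x ∈ L₂, τ x = x := fun x hx => hτ x ((le_sup_right : L₂ ≤ L₁ ⊔ L₂) hx)
    have h1 : ∀ v, ρ τ v - v ∈ Ideal.span {ϖ ^ n} • (⊤ : Submodule 𝒪' M) := by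
      intro v
      rw [← h𝔪ϖ n]
      exact hL₁ τ hτ₁ v
    have h2 : ϖ ^ n ∣ ((d τ : 𝒪'ˣ) : 𝒪') - 1 := by
      rw [← Ideal.mem_span_singleton, ← h𝔪ϖ n]
      exact H68.span_natCast_pow_le p 𝔪 hp𝒪' n (hL₂ τ hτ₂)
    have h3 := hσc (ϖ ^ n) τ h1 h2
    rw [h𝔪ϖ n]
    apply mem_smul_top_of_forall_mem
    intro i
    have h4 : (linOfMatrix σ τ v - v) i = ∑ j, (σ τ - 1) i j * v j := by
      rw [linOfMatrix_apply, Pi.sub_apply, Matrix.toLin'_apply, Matrix.mulVec, dotProduct]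
      have : v i = ∑ j, (1 : Matrix (Fin 2) (Fin 2) 𝒪') i j * v j := by
        simp [Matrix.one_apply]
      rw [this, ← Finset.sum_sub_distrib]
      refine Finset.sum_congr rfl fun j _ => ?_
      rw [Matrix.sub_apply, sub_mul]
    rw [h4]
    exact Ideal.sum_mem _ fun j _ =>
      Ideal.mul_mem_right _ _ (Ideal.mem_span_singleton.mpr (h3 i j))
  refine ⟨𝒪', inferInstance, inferInstance, inferInstance, inferInstance, inferInstance,
    inferInstance, Algebra.id 𝒪', Module.Finite.self 𝒪', ?_, Function.injective_id, ?_⟩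
  · exact ⟨fun a ha => ha⟩
  refine ⟨{ V := Fin 2 → 𝒪'
            finrank_eq := by rw [Module.finrank_fin_fun]
            ρ := linOfMatrix σ
            isAdicContinuous := hcontσ }, ?_, ?_⟩
  · intro ℓ hℓ hℓN hℓS A hA τ hτ
    have hℓp : ℓ ≠ p := by
      rintro rfl
      exact hℓS (Finset.mem_coe.mpr hpS)
    show LinearMap.charpoly (linOfMatrix σ τ) = _
    rw [linOfMatrix_apply, Matrix.charpoly_toLin', Matrix.charpoly_fin_two, (hσ τ).1, (hσ τ).2,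
      ht ℓ hℓ hℓN hℓS A hA τ hτ, hd, H68.cycloAdic_frobenius p 𝔪 hp𝒪' hℓ hℓp hA hτ]
    rfl
  · intro q hq hqN hqp P hP τ hτ
    show linOfMatrix σ τ = 1
    have h1 : ∀ v, ρ τ v - v ∈ Ideal.span {(0 : 𝒪')} • (⊤ : Submodule 𝒪' M) := by
      intro v
      rw [hunr q hq hqN hqp P hP τ hτ, Module.End.one_apply, sub_self]
      exact Submodule.zero_mem _
    have h2 : (0 : 𝒪') ∣ ((d τ : 𝒪'ˣ) : 𝒪') - 1 := by
      rw [hd, H68.cycloAdic_inertia p 𝔪 hp𝒪' hq hqp hP hτ, Units.val_one, sub_self]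
    have h3 := hσc 0 τ h1 h2
    have h4 : σ τ = 1 := by
      ext i j
      have := zero_dvd_iff.mp (h3 i j)
      rw [Matrix.sub_apply, sub_eq_zero] at this
      exact this
    rw [linOfMatrix, MonoidHom.comp_apply, h4, map_one]

end Assembly

end Fermat.Agent.S30.H31
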