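/-
S30 (helper31, deputy): (C4) FINAL WRAPPER.

The conclusion of the frozen statement S30 from
* (T1) `HeckeOperatorsCommuteBar N`,
* the conclusion of the frozen S37 (`SpecializationExists` for `JZero N`),
* a nonzero `χ`-eigenvector in `𝒪' ⊗[ℤ_p] T_p J₀(N)` (cut (C1), from the Kummer injections),
using `H62.finite_torsion_JZero` (FIN, hypothesis-free), `H57.midpoint_of_eigenvector`
(ASSEMBLY-A) and `H31.s30_of_midpoint` (ASSEMBLY-B).
-/
import Mathlib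
import Fermat.Statements.S30
import Fermat.Agent.S30.H31_S30FromMidpoint
import Fermat.Agent.S30.H31_MidpointGlue
import Fermat.Agent.S30.H57_S30Input
import Fermat.Agent.S29.H62_BcFinal

set_option autoImplicit false

namespace Fermat.Agent.S30.H31

open ModularCurve CuspForm Polynomial
open scoped TensorProduct

local notation "Qbar" => AlgebraicClosure ℚ
local notation "GQ" => (AlgebraicClosure ℚ ≃ₐ[ℚ] AlgebraicClosure ℚ)

/-- `J₀(N)(ℚ̄)[p]` is finite, in the `ℕ`-scalar form used by the Tate module. -/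
theorem finite_torsion_JZero_nat (N : ℕ) [NeZero N] {p : ℕ} (hp : 0 < p) :
    Set.Finite {y : JZero N | p • y = 0} := by
  have h := Fermat.Agent.S29.H62.finite_torsion_JZero N hp
  have hset : {y : JZero N | p • y = 0} = {y : JZero N | (p : ℤ) • y = 0} := by
    ext y
    show p • y = 0 ↔ (p : ℤ) • y = 0
    rw [natCast_zsmul]
  rw [hset]
  exact Set.finite_coe_iff.mp h

/-- **(C4)** The frozen S30 conclusion from the stage inputs and the eigenvector. -/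
theorem s30_of_stages (p : ℕ) [hp : Fact p.Prime] (N : ℕ) [NeZero N] (S : Finset ℕ)
    (hpS : p ∈ S)
    (𝒪' : Type) [CommRing 𝒪'] [IsDomain 𝒪'] [IsDiscreteValuationRing 𝒪']
    [IsAdicComplete (IsLocalRing.maximalIdeal 𝒪') 𝒪'] [Finite (IsLocalRing.ResidueField 𝒪')]
    [CharZero 𝒪'] (hp𝒪' : (p : 𝒪') ∈ IsLocalRing.maximalIdeal 𝒪')
    (χ : CuspForm.heckeAlgebra N 2 (↑S : Set ℕ) →+* 𝒪')
    (hcommBar : HeckeOperatorsCommuteBar N)
    (hS37 : letI := heckeModuleBar N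
      ∀ (_ : SMulCommClass GQ HeckeAlg (JZero N)),
        SpecializationExists (K := ℚ) (L := Qbar) N p (JZero N))
    (hne : letI : Algebra ℤ_[p] 𝒪' := (H83.zpTo p 𝒪' hp𝒪').toAlgebra
      ∃ m : 𝒪' ⊗[ℤ_[p]] H57.Tate p (JZero N), m ≠ 0 ∧
        ∀ ℓ : H57.GoodPrime N S,
          H57.tateRep p (JZero N) 𝒪' (H57.heckeJ N S ℓ) m = H57.eigenval N χ ℓ • m) :
    ∃ (𝒪'' : Type) (_ : CommRing 𝒪'') (_ : IsDomain 𝒪'') (_ : IsDiscreteValuationRing 𝒪'')
      (_ : IsAdicComplete (IsLocalRing.maximalIdeal 𝒪'') 𝒪'')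
      (_ : Finite (IsLocalRing.ResidueField 𝒪'')) (_ : CharZero 𝒪'')
      (_ : Algebra 𝒪' 𝒪'') (_ : Module.Finite 𝒪' 𝒪'') (_ : IsLocalHom (algebraMap 𝒪' 𝒪'')),
    Function.Injective (algebraMap 𝒪' 𝒪'') ∧
    ∃ ρ : GaloisRepAdic 𝒪'',
      (∀ (ℓ : ℕ) (hℓ : ℓ.Prime) (hℓN : ¬ ℓ ∣ N) (hℓS : ℓ ∉ (↑S : Set ℕ)),
        ∀ A : ValuationSubring (AlgebraicClosure ℚ), A.LiesOverPrime ℓ →
          ∀ σ : AlgebraicClosure ℚ ≃ₐ[ℚ] AlgebraicClosure ℚ, A.IsFrobeniusAt σ ℓ →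
            LinearMap.charpoly (ρ.ρ σ) =
              X ^ 2 - C (algebraMap 𝒪' 𝒪'' (χ (CuspForm.heckeAlgebra.T hℓ hℓN hℓS))) * X
                + C ((ℓ : 𝒪''))) ∧
      (∀ q : ℕ, q.Prime → ¬ q ∣ N → q ≠ p → ρ.IsUnramifiedAt q) := by
  obtain ⟨hunr, hfrob⟩ := unr_frob_of_specializationExists p N hcommBar hS37
  have hmid : H57.Midpoint p N S 𝒪' χ :=
    H57.midpoint_of_eigenvector N p S hpS 𝒪' hp𝒪' χ hunr hfrob
      (finite_torsion_JZero_nat N hp.out.pos) hne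
  exact s30_of_midpoint p N S hpS 𝒪' hp𝒪' χ hmid

end Fermat.Agent.S30.H31
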