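/-
S30 (helper31, deputy): the frozen S30 conclusion from the frozen S37 statement ALONE.

Everything else is now hypothesis-free on main:
* (T1) `H80.heckeOperatorsCommuteBar`, the Kummer injections `H80.exists_lam_JZero` at all `p^k`
  (Stage 3), FIN `H62.finite_torsion_JZero`;
* (C1) `H57.exists_eigenvector_tate`; (C2)+(C3) `H57.midpoint_of_eigenvector`;
* (C4) `H31.s30_of_stages` (ASSEMBLY-B inside).
-/
import Mathlib
import Fermat.Statements.S30
import Fermat.Agent.S30.H31_S30Final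
import Fermat.Agent.S30.H57_Eigenvector
import Fermat.Agent.S29.H80_KummerPoincare

set_option autoImplicit false

namespace Fermat.Agent.S30.H31

open ModularCurve CuspForm Polynomial
open scoped TensorProduct

local notation "Qbar" => AlgebraicClosure ℚ
local notation "GQ" => (AlgebraicClosure ℚ ≃ₐ[ℚ] AlgebraicClosure ℚ)

/-- **S30 from S37.** `hS37` is the frozen statement S37 at `(N, p)`, verbatim. -/
theorem s30_of_s37 (p : ℕ) [hp : Fact p.Prime] (N : ℕ) [NeZero N] (S : Finset ℕ)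
    (hpS : p ∈ S)
    (𝒪' : Type) [CommRing 𝒪'] [IsDomain 𝒪'] [IsDiscreteValuationRing 𝒪']
    [IsAdicComplete (IsLocalRing.maximalIdeal 𝒪') 𝒪'] [Finite (IsLocalRing.ResidueField 𝒪')]
    [CharZero 𝒪'] (hp𝒪' : (p : 𝒪') ∈ IsLocalRing.maximalIdeal 𝒪')
    (χ : CuspForm.heckeAlgebra N 2 (↑S : Set ℕ) →+* 𝒪')
    (hS37 : ModularCurve.HeckeOperatorsCommuteBar N →
      letI := ModularCurve.heckeModuleBar N
      ∀ (_ : SMulCommClass GQ ModularCurve.HeckeAlg (ModularCurve.JZero N)),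
        ModularCurve.SpecializationExists (K := ℚ) (L := Qbar) N p (ModularCurve.JZero N)) :
    ∃ (𝒪'' : Type) (_ : CommRing 𝒪'') (_ : IsDomain 𝒪'') (_ : IsDiscreteValuationRing 𝒪'')
      (_ : IsAdicComplete (IsLocalRing.maximalIdeal 𝒪'') 𝒪'')
      (_ : Finite (IsLocalRing.ResidueField 𝒪'')) (_ : CharZero 𝒪'')
      (_ : Algebra 𝒪' 𝒪'') (_ : Module.Finite 𝒪' 𝒪'') (_ : IsLocalHom (algebraMap 𝒪' 𝒪'')),
    Function.Injective (algebraMap 𝒪' 𝒪'') ∧
    ∃ ρ : GaloisRepAdic 𝒪'',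
      (∀ (ℓ : ℕ) (hℓ : ℓ.Prime) (hℓN : ¬ ℓ ∣ N) (hℓS : ℓ ∉ (↑S : Set ℕ)),
        ∀ A : ValuationSubring (AlgebraicClosure ℚ), A.LiesOverPrime ℓ →
          ∀ σ : AlgebraicClosure ℚ ≃ₐ[ℚ] AlgebraicClosure ℚ, A.IsFrobeniusAt σ ℓ →
            LinearMap.charpoly (ρ.ρ σ) =
              X ^ 2 - C (algebraMap 𝒪' 𝒪'' (χ (CuspForm.heckeAlgebra.T hℓ hℓN hℓS))) * X
                + C ((ℓ : 𝒪''))) ∧
      (∀ q : ℕ, q.Prime → ¬ q ∣ N → q ≠ p → ρ.IsUnramifiedAt q) := by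
  have hcommBar : HeckeOperatorsCommuteBar N := Fermat.Agent.S29.H80.heckeOperatorsCommuteBar N
  have hfin : Set.Finite {y : JZero N | p • y = 0} := finite_torsion_JZero_nat N hp.out.pos
  have hne := H57.exists_eigenvector_tate N p S 𝒪' hp𝒪' χ hfin
    (fun k => Fermat.Agent.S29.H80.exists_lam_JZero N (pow_pos hp.out.pos k))
  exact s30_of_stages p N S hpS 𝒪' hp𝒪' χ hcommBar (hS37 hcommBar) hne

end Fermat.Agent.S30.H31
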