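import Mathlib

set_option autoImplicit false

/-!
# The canonical `ℤ_[p]`-algebra structure on a complete local ring of residue characteristic `p`

(S30 package (ZP), helper52.)  Mathlib only.

For a commutative local ring `O`, adically complete for its maximal ideal, with
`(p : O) ∈ maximalIdeal O`, we construct the ring homomorphism `zpHom : ℤ_[p] →+* O`,
show it is the unique ring homomorphism `ℤ_[p] →+* O`, that it is local, maps `p ^ n ℤ_[p]`
into `𝔪 ^ n`, and is injective when `O` has characteristic zero.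
-/

noncomputable section

open IsLocalRing

namespace Fermat.Agent.S30.H52

variable (p : ℕ) [hp : Fact p.Prime]

/-! ### Ring homomorphisms out of `ℤ_[p]` into rings killed by `p ^ n` -/

section Killed

variable {p}
variable {R : Type*} [CommRing R]

/-- A ring hom from `ℤ_[p]` to a ring in which `p ^ n = 0` is computed by the `n`-th
approximation. -/
theorem ringHom_apply_eq_natCast_appr (g : ℤ_[p] →+* R) (n : ℕ) (h : (p : R) ^ n = 0)
    (x : ℤ_[p]) : g x = ((x.appr n : ℕ) : R) := by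
  have h1 := PadicInt.appr_spec n x
  rw [Ideal.mem_span_singleton] at h1
  obtain ⟨c, hc⟩ := h1
  have h2 : x = (x.appr n : ℤ_[p]) + (p : ℤ_[p]) ^ n * c := by
    rw [← hc]; ring
  have h3 : g x = g (x.appr n : ℤ_[p]) + g ((p : ℤ_[p]) ^ n * c) := by
    conv_lhs => rw [h2]
    exact map_add g _ _
  rw [h3, map_mul, map_pow, map_natCast, map_natCast, h, zero_mul, add_zero]

/-- Two ring homs from `ℤ_[p]` to a ring in which `p ^ n = 0` coincide. -/
theorem ringHom_ext_of_pow_eq_zero (g₁ g₂ : ℤ_[p] →+* R) (n : ℕ) (h : (p : R) ^ n = 0) :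
    g₁ = g₂ :=
  RingHom.ext fun x => by
    rw [ringHom_apply_eq_natCast_appr g₁ n h, ringHom_apply_eq_natCast_appr g₂ n h]

end Killed

section Construction

variable {O : Type*} [CommRing O] [IsLocalRing O]

omit hp in
/-- `p ^ n` dies in `O ⧸ 𝔪 ^ n` when `p ∈ 𝔪`. -/
theorem natCast_pow_quot_eq_zero (hpO : (p : O) ∈ maximalIdeal O) (n : ℕ) :
    ((p : O ⧸ maximalIdeal O ^ n)) ^ n = 0 := by
  have h1 : ((p : O) ^ n) ∈ maximalIdeal O ^ n := Ideal.pow_mem_pow hpO n
  have h2 : Ideal.Quotient.mk (maximalIdeal O ^ n) ((p : O) ^ n) = 0 :=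
    Ideal.Quotient.eq_zero_iff_mem.mpr h1
  rwa [map_pow, map_natCast] at h2

/-- The ring hom `ZMod (p ^ n) →+* O ⧸ 𝔪 ^ n`. -/
def zmodToQuot (hpO : (p : O) ∈ maximalIdeal O) (n : ℕ) :
    ZMod (p ^ n) →+* O ⧸ maximalIdeal O ^ n :=
  (Int.castRingHom (ZMod (p ^ n))).liftOfRightInverse ZMod.cast ZMod.intCast_rightInverse
    ⟨Int.castRingHom (O ⧸ maximalIdeal O ^ n), by
      intro x hx
      rw [RingHom.mem_ker] at hx ⊢
      have hx' : ((x : ℤ) : ZMod (p ^ n)) = 0 := by simpa using hx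
      rw [ZMod.intCast_zmod_eq_zero_iff_dvd] at hx'
      obtain ⟨c, rfl⟩ := hx'
      have h0 := natCast_pow_quot_eq_zero p hpO n
      simp only [eq_intCast, Int.cast_mul, Int.cast_natCast, Int.cast_pow, Nat.cast_pow]
      rw [h0, zero_mul]⟩

variable [IsAdicComplete (maximalIdeal O) O]

/-- **(ZP)** The canonical ring homomorphism `ℤ_[p] →+* O` for a complete local ring `O` with
`p ∈ 𝔪`. -/
def zpHom (hpO : (p : O) ∈ maximalIdeal O) : ℤ_[p] →+* O :=
  IsAdicComplete.liftRingHom (maximalIdeal O)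
    (fun n => (zmodToQuot p hpO n).comp (PadicInt.toZModPow n))
    (fun {m _} _ =>
      ringHom_ext_of_pow_eq_zero _ _ m (natCast_pow_quot_eq_zero p hpO m))

variable (hpO : (p : O) ∈ maximalIdeal O)

theorem mk_zpHom (n : ℕ) (x : ℤ_[p]) :
    Ideal.Quotient.mk (maximalIdeal O ^ n) (zpHom p hpO x) = ((x.appr n : ℕ) : O ⧸ maximalIdeal O ^ n) :=
  ringHom_apply_eq_natCast_appr ((Ideal.Quotient.mk (maximalIdeal O ^ n)).comp (zpHom p hpO)) n
    (natCast_pow_quot_eq_zero p hpO n) x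

/-- `zpHom x ≡ x.appr n` modulo `𝔪 ^ n`. -/
theorem zpHom_sub_appr_mem (n : ℕ) (x : ℤ_[p]) :
    zpHom p hpO x - ((x.appr n : ℕ) : O) ∈ maximalIdeal O ^ n := by
  rw [← Ideal.Quotient.eq_zero_iff_mem, map_sub, mk_zpHom, map_natCast, sub_self]

theorem zpHom_natCast (k : ℕ) : zpHom p hpO (k : ℤ_[p]) = (k : O) := map_natCast _ k

theorem zpHom_intCast (k : ℤ) : zpHom p hpO (k : ℤ_[p]) = (k : O) := map_intCast _ k

/-- `zpHom` maps `p ^ n ℤ_[p]` into `𝔪 ^ n`. -/
theorem zpHom_mem_pow {n : ℕ} {a : ℤ_[p]} (ha : a ∈ Ideal.span {(p : ℤ_[p]) ^ n}) :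
    zpHom p hpO a ∈ maximalIdeal O ^ n := by
  rw [Ideal.mem_span_singleton] at ha
  obtain ⟨c, rfl⟩ := ha
  rw [map_mul, map_pow, map_natCast]
  exact Ideal.mul_mem_right _ _ (Ideal.pow_mem_pow hpO n)

theorem zpHom_mem_pow' {n : ℕ} {a : ℤ_[p]} (ha : a ∈ Ideal.span {(p : ℤ_[p])} ^ n) :
    zpHom p hpO a ∈ maximalIdeal O ^ n := by
  rw [Ideal.span_singleton_pow] at ha
  exact zpHom_mem_pow p hpO ha

/-- `zpHom` maps the maximal ideal into the maximal ideal. -/
theorem zpHom_mem_maximalIdeal {a : ℤ_[p]} (ha : a ∈ maximalIdeal ℤ_[p]) :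
    zpHom p hpO a ∈ maximalIdeal O := by
  rw [PadicInt.maximalIdeal_eq_span_p] at ha
  have h := zpHom_mem_pow p hpO (n := 1) (a := a) (by simpa using ha)
  simpa using h

/-- `zpHom` is a local homomorphism. -/
theorem isLocalHom_zpHom : IsLocalHom (zpHom p hpO) := by
  refine ⟨fun a ha => ?_⟩
  by_contra hna
  have h1 : a ∈ maximalIdeal ℤ_[p] := (mem_maximalIdeal a).mpr hna
  exact (mem_maximalIdeal _).mp (zpHom_mem_maximalIdeal p hpO h1) ha

/-- Uniqueness: `zpHom` is the only ring homomorphism `ℤ_[p] →+* O`. -/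
theorem eq_zpHom (ψ : ℤ_[p] →+* O) : ψ = zpHom p hpO :=
  IsAdicComplete.eq_liftRingHom (maximalIdeal O)
    (fun n => (zmodToQuot p hpO n).comp (PadicInt.toZModPow n))
    (fun {m _} _ =>
      ringHom_ext_of_pow_eq_zero _ _ m (natCast_pow_quot_eq_zero p hpO m)) ψ fun n =>
    ringHom_ext_of_pow_eq_zero _ _ n (natCast_pow_quot_eq_zero p hpO n)

/-- `zpHom` is injective when `O` has characteristic zero. -/
theorem zpHom_injective [CharZero O] : Function.Injective (zpHom p hpO) := by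
  rw [injective_iff_map_eq_zero]
  intro a ha
  by_contra ha0
  have hker : RingHom.ker (zpHom p hpO) ≠ ⊥ := by
    intro h
    have : a ∈ RingHom.ker (zpHom p hpO) := ha
    rw [h] at this
    exact ha0 this
  obtain ⟨n, hn⟩ := PadicInt.ideal_eq_span_pow_p hker
  have h1 : (p : ℤ_[p]) ^ n ∈ RingHom.ker (zpHom p hpO) := by
    rw [hn]; exact Ideal.subset_span rfl
  rw [RingHom.mem_ker, map_pow, map_natCast] at h1
  have h2 : ((p ^ n : ℕ) : O) = 0 := by rw [Nat.cast_pow]; exact h1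
  rw [Nat.cast_eq_zero] at h2
  exact (pow_ne_zero n hp.out.ne_zero) h2

/-- The `ℤ_[p]`-algebra structure on `O` (a `def`, not an instance). -/
@[reducible] def zpAlgebra : Algebra ℤ_[p] O := (zpHom p hpO).toAlgebra

theorem zpAlgebra_algebraMap :
    @algebraMap ℤ_[p] O _ _ (zpAlgebra p hpO) = zpHom p hpO := rfl

end Construction

end Fermat.Agent.S30.H52
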