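/-
S30, package (DI) DENSITY-INST of helper57's blueprint (#1986), by helper63.

From `GaloisActionIsAdicContinuous` (prelude) + the `p`-adic cyclotomic character of helper68
(`H68_CycloAdic`) + helper31's Frobenius density theorem in the prelude vocabulary
(`S14.H31.exists_isFrobeniusAt_map_eq_zpow`): the density hypothesis `hdense` of
`H31.exists_trace_of_dense_zpow`, for the matrix form (in any basis) of a Galois action on a finite
free module, and the resulting quadratic relation for ALL elements of the Galois group.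
-/
import Mathlib
import Fermat.Prelude.Def_GaloisRep_Adic
import Fermat.Agent.S14.H31_FrobPrelude
import Fermat.Agent.S30.H31_AdicQuad
import Fermat.Agent.S30.H68_CycloAdic

set_option autoImplicit false

noncomputable section

namespace Fermat.Agent.S30.H63

open Fermat.Agent.S30

local notation "Qbar" => AlgebraicClosure ℚ
local notation "GQ" => (AlgebraicClosure ℚ ≃ₐ[ℚ] AlgebraicClosure ℚ)

/-! ### Frobenius density, "coset" form -/

/-- **Frobenius density, coset form.**  `F/ℚ` finite inside `ℚ̄` (not necessarily normal),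
`g ∈ G_ℚ`, `T` a finite set of integers.  There are a prime `q ∉ T`, a place `A` over `q`, a
Frobenius element `φ` at `A` and `j : ℤ` such that `g⁻¹ * φ ^ j` fixes `F` pointwise. -/
theorem exists_isFrobeniusAt_zpow_fixes (F : IntermediateField ℚ Qbar) [FiniteDimensional ℚ F]
    (g : GQ) (T : Finset ℕ) :
    ∃ (q : ℕ) (A : ValuationSubring Qbar) (φ : GQ) (j : ℤ), q.Prime ∧ q ∉ T ∧
      A.LiesOverPrime q ∧ A.IsFrobeniusAt φ q ∧ ∀ x ∈ F, (g⁻¹ * φ ^ j) x = x := by
  have : Normal ℚ Qbar := (Fermat.Agent.S54.H69.isGaloisQb).to_normal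
  set F' : IntermediateField ℚ Qbar := IntermediateField.normalClosure ℚ F Qbar with hF'
  have : FiniteDimensional ℚ F' := normalClosure.is_finiteDimensional ℚ F Qbar
  have : Normal ℚ F' := normalClosure.normal ℚ F Qbar
  have h1 : (AlgEquiv.restrictNormalHom (F := ℚ) (K₁ := Qbar) F').ker = F'.fixingSubgroup :=
    IntermediateField.restrictNormalHom_ker F'
  obtain ⟨q, A, φ, j, -, hq, hqT, hA1, hA2, -, hj⟩ :=
    Fermat.Agent.S14.H31.exists_isFrobeniusAt_map_eq_zpow F'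
      (AlgEquiv.restrictNormalHom (F := ℚ) (K₁ := Qbar) F') h1.ge g T
  refine ⟨q, A, φ, j, hq, hqT, hA1, hA2, fun x hx => ?_⟩
  have hmem : g⁻¹ * φ ^ j ∈ (AlgEquiv.restrictNormalHom (F := ℚ) (K₁ := Qbar) F').ker := by
    rw [MonoidHom.mem_ker, map_mul, map_inv, map_zpow, ← hj, inv_mul_cancel]
  rw [h1, IntermediateField.mem_fixingSubgroup_iff] at hmem
  exact hmem x (IntermediateField.le_normalClosure F hx)

/-! ### Matrix form of a representation on a free module -/

section MatRep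

variable {O : Type*} [CommRing O] {M : Type*} [AddCommGroup M] [Module O M] {r : ℕ}
  {G : Type*} [Monoid G]

/-- The matrix form of a representation, in a basis. -/
def matRep (b : Module.Basis (Fin r) O M) (ρ : G →* Module.End O M) :
    G →* Matrix (Fin r) (Fin r) O where
  toFun g := LinearMap.toMatrix b b (ρ g)
  map_one' := by rw [map_one]; exact LinearMap.toMatrix_one b
  map_mul' g h := by rw [map_mul]; exact LinearMap.toMatrix_mul b (ρ g) (ρ h)

theorem matRep_apply (b : Module.Basis (Fin r) O M) (ρ : G →* Module.End O M) (g : G) :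
    matRep b ρ g = LinearMap.toMatrix b b (ρ g) := rfl

/-- Coordinates of an element of `J • ⊤` lie in `J`. -/
theorem repr_mem_of_mem_smul_top (b : Module.Basis (Fin r) O M) (J : Ideal O) {x : M}
    (hx : x ∈ J • (⊤ : Submodule O M)) (i : Fin r) : b.repr x i ∈ J := by
  refine Submodule.smul_induction_on (p := fun x => b.repr x i ∈ J) hx ?_ ?_
  · intro a ha w _
    rw [map_smul, Finsupp.smul_apply, smul_eq_mul]
    exact J.mul_mem_right _ ha
  · intro x y hx hy
    rw [map_add, Finsupp.add_apply]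
    exact J.add_mem hx hy

/-- `J • ⊤` is stable under every endomorphism. -/
theorem map_mem_smul_top (J : Ideal O) (f : Module.End O M) {x : M}
    (hx : x ∈ J • (⊤ : Submodule O M)) : f x ∈ J • (⊤ : Submodule O M) := by
  refine Submodule.smul_induction_on (p := fun x => f x ∈ J • (⊤ : Submodule O M)) hx ?_ ?_
  · intro a ha w _
    rw [map_smul]
    exact Submodule.smul_mem_smul ha Submodule.mem_top
  · intro x y hx hy
    rw [map_add]
    exact Submodule.add_mem _ hx hy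

/-- An endomorphism with values in `J • ⊤` has all its matrix entries in `J`. -/
theorem entriesIn_toMatrix (b : Module.Basis (Fin r) O M) (J : Ideal O) (f : Module.End O M)
    (hf : ∀ v, f v ∈ J • (⊤ : Submodule O M)) :
    H31.EntriesIn J (LinearMap.toMatrix b b f) := by
  intro i j
  rw [LinearMap.toMatrix_apply]
  exact repr_mem_of_mem_smul_top b J (hf (b j)) i

end MatRep

/-! ### The density hypothesis -/

section Dense

variable {O : Type} [CommRing O] [IsLocalRing O] {M : Type} [AddCommGroup M] [Module O M]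
  {r : ℕ}

/-- **(DI), general character.**  `ρ` an adically continuous action of `G_ℚ` on a free module with
basis `b`, `d : G_ℚ →* Oˣ` a character which is `≡ 1 mod 𝔪ⁿ` on the fixing subgroup of a finite
extension (for every `n`), `Fr` a relation which holds (for a suitable second argument) at every
Frobenius element at a prime outside the finite set `T`.  Then the density hypothesis `hdense` of
`H31.exists_trace_of_dense_zpow` holds for `matRep b ρ`, `d` and `I = 𝔪`. -/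
theorem hdense_of_adicContinuous (b : Module.Basis (Fin r) O M) (ρ : GQ →* Module.End O M)
    (hcont : GaloisActionIsAdicContinuous O ρ) (d : GQ →* Oˣ)
    (hd : ∀ n : ℕ, ∃ L : IntermediateField ℚ Qbar, FiniteDimensional ℚ L ∧
      ∀ σ : GQ, (∀ x ∈ L, σ x = x) →
        ((d σ : Oˣ) : O) - 1 ∈ IsLocalRing.maximalIdeal O ^ n)
    (T : Finset ℕ) (Fr : GQ → O → Prop)
    (hFrob : ∀ ℓ : ℕ, ℓ.Prime → ℓ ∉ T → ∀ A : ValuationSubring Qbar, A.LiesOverPrime ℓ →
      ∀ s : GQ, A.IsFrobeniusAt s ℓ → ∃ a : O, Fr s a) (g : GQ) (n : ℕ) :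
    ∃ (s : GQ) (a : O) (j : ℤ), Fr s a ∧
      H31.EntriesIn (IsLocalRing.maximalIdeal O ^ n) (matRep b ρ (s ^ j) - matRep b ρ g) ∧
      ((d (s ^ j) : Oˣ) : O) - ((d g : Oˣ) : O) ∈ IsLocalRing.maximalIdeal O ^ n := by
  obtain ⟨L₁, hL₁, h₁⟩ := hcont n
  obtain ⟨L₂, hL₂, h₂⟩ := hd n
  have := hL₁
  have := hL₂
  have : FiniteDimensional ℚ (L₁ ⊔ L₂ : IntermediateField ℚ Qbar) :=
    IntermediateField.finiteDimensional_sup L₁ L₂
  obtain ⟨q, A, φ, j, hq, hqT, hA1, hA2, hfix⟩ :=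
    exists_isFrobeniusAt_zpow_fixes (L₁ ⊔ L₂) g T
  obtain ⟨a, ha⟩ := hFrob q hq hqT A hA1 φ hA2
  set τ : GQ := g⁻¹ * φ ^ j with hτ
  have hφj : φ ^ j = g * τ := by rw [hτ, mul_inv_cancel_left]
  have hτ1 : ∀ x ∈ L₁, τ x = x := fun x hx => hfix x ((le_sup_left : L₁ ≤ L₁ ⊔ L₂) hx)
  have hτ2 : ∀ x ∈ L₂, τ x = x := fun x hx => hfix x ((le_sup_right : L₂ ≤ L₁ ⊔ L₂) hx)
  refine ⟨φ, a, j, ha, ?_, ?_⟩
  · have e1 : matRep b ρ (φ ^ j) - matRep b ρ g =
        LinearMap.toMatrix b b (ρ g * (ρ τ - 1)) := by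
      rw [matRep_apply, matRep_apply, hφj, map_mul, mul_sub, mul_one, map_sub]
    rw [e1]
    refine entriesIn_toMatrix b _ _ fun v => ?_
    rw [Module.End.mul_apply]
    refine map_mem_smul_top _ (ρ g) ?_
    rw [LinearMap.sub_apply, Module.End.one_apply]
    exact h₁ τ hτ1 v
  · have e2 : ((d (φ ^ j) : Oˣ) : O) - ((d g : Oˣ) : O) =
        ((d g : Oˣ) : O) * (((d τ : Oˣ) : O) - 1) := by
      rw [hφj, map_mul, Units.val_mul]; ring
    rw [e2]
    exact Ideal.mul_mem_left _ _ (h₂ τ hτ2)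

variable (p : ℕ) [hp : Fact p.Prime] [IsAdicComplete (IsLocalRing.maximalIdeal O) O]

/-- Finite-level continuity of `H68.cycloAdic` in the shape needed above. -/
theorem cycloAdic_continuity_maximalIdeal (hpO : (p : O) ∈ IsLocalRing.maximalIdeal O) (n : ℕ) :
    ∃ L : IntermediateField ℚ Qbar, FiniteDimensional ℚ L ∧
      ∀ σ : GQ, (∀ x ∈ L, σ x = x) →
        ((H68.cycloAdic p (IsLocalRing.maximalIdeal O) hpO σ : Oˣ) : O) - 1 ∈
          IsLocalRing.maximalIdeal O ^ n := by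
  obtain ⟨L, hL, h⟩ := H68.cycloAdic_continuity p (IsLocalRing.maximalIdeal O) hpO n
  exact ⟨L, hL, fun σ hσ =>
    H68.span_natCast_pow_le p (IsLocalRing.maximalIdeal O) hpO n (h σ hσ)⟩

/-- **(DI), cyclotomic character.**  The density hypothesis of `H31.exists_trace_of_dense_zpow` for
`matRep b ρ`, `d := H68.cycloAdic p 𝔪 hpO`, `I := 𝔪`. -/
theorem hdense_cycloAdic (hpO : (p : O) ∈ IsLocalRing.maximalIdeal O)
    (b : Module.Basis (Fin r) O M) (ρ : GQ →* Module.End O M)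
    (hcont : GaloisActionIsAdicContinuous O ρ) (T : Finset ℕ) (Fr : GQ → O → Prop)
    (hFrob : ∀ ℓ : ℕ, ℓ.Prime → ℓ ∉ T → ∀ A : ValuationSubring Qbar, A.LiesOverPrime ℓ →
      ∀ s : GQ, A.IsFrobeniusAt s ℓ → ∃ a : O, Fr s a) (g : GQ) (n : ℕ) :
    ∃ (s : GQ) (a : O) (j : ℤ), Fr s a ∧
      H31.EntriesIn (IsLocalRing.maximalIdeal O ^ n) (matRep b ρ (s ^ j) - matRep b ρ g) ∧
      ((H68.cycloAdic p (IsLocalRing.maximalIdeal O) hpO (s ^ j) : Oˣ) : O) -
        ((H68.cycloAdic p (IsLocalRing.maximalIdeal O) hpO g : Oˣ) : O) ∈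
          IsLocalRing.maximalIdeal O ^ n :=
  hdense_of_adicContinuous b ρ hcont _ (cycloAdic_continuity_maximalIdeal p hpO) T Fr hFrob g n

/-- **(DI) + (A1), module form.**  `M` free of rank `r > 0` over the complete local ring `O`
(`p ∈ 𝔪`), with an adically continuous action `ρ` of `G_ℚ` such that every Frobenius element `s`
at a prime `ℓ ∉ T` (`p ∈ T`) satisfies `ρ(s)² = a ℓ • ρ(s) - ℓ`.  Then there is `t : G_ℚ → O` with
`ρ(g)² = t(g) • ρ(g) - ε(g)` for ALL `g` (`ε` the `p`-adic cyclotomic character), and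
`t(s) = a ℓ` for the Frobenius elements. -/
theorem exists_trace_of_frobenius_relations (hpO : (p : O) ∈ IsLocalRing.maximalIdeal O)
    (hr : 0 < r) (b : Module.Basis (Fin r) O M) (ρ : GQ →* Module.End O M)
    (hcont : GaloisActionIsAdicContinuous O ρ) (T : Finset ℕ) (hpT : p ∈ T) (a : ℕ → O)
    (hrel : ∀ ℓ : ℕ, ℓ.Prime → ℓ ∉ T → ∀ A : ValuationSubring Qbar, A.LiesOverPrime ℓ →
      ∀ s : GQ, A.IsFrobeniusAt s ℓ → ρ s * ρ s = a ℓ • ρ s - (ℓ : O) • (1 : Module.End O M)) :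
    ∃ t : GQ → O,
      (∀ g : GQ, ρ g * ρ g = t g • ρ g -
        ((H68.cycloAdic p (IsLocalRing.maximalIdeal O) hpO g : Oˣ) : O) • (1 : Module.End O M)) ∧
      ∀ ℓ : ℕ, ℓ.Prime → ℓ ∉ T → ∀ A : ValuationSubring Qbar, A.LiesOverPrime ℓ →
        ∀ s : GQ, A.IsFrobeniusAt s ℓ → t s = a ℓ := by
  set d : GQ →* Oˣ := H68.cycloAdic p (IsLocalRing.maximalIdeal O) hpO with hd
  set Fr : GQ → O → Prop := fun s x => ∃ ℓ : ℕ, ℓ.Prime ∧ ℓ ∉ T ∧
    ∃ A : ValuationSubring Qbar, A.LiesOverPrime ℓ ∧ A.IsFrobeniusAt s ℓ ∧ x = a ℓ with hFrdef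
  have hne : ∀ ℓ : ℕ, ℓ ∉ T → ℓ ≠ p := fun ℓ hℓ h => hℓ (h ▸ hpT)
  have hFr : ∀ s x, Fr s x → matRep b ρ s * matRep b ρ s =
      x • matRep b ρ s - ((d s : Oˣ) : O) • (1 : Matrix (Fin r) (Fin r) O) := by
    rintro s x ⟨ℓ, hℓ, hℓT, A, hA1, hA2, rfl⟩
    have h1 := hrel ℓ hℓ hℓT A hA1 s hA2
    have h2 : ((d s : Oˣ) : O) = (ℓ : O) :=
      H68.cycloAdic_frobenius p _ hpO hℓ (hne ℓ hℓT) hA1 hA2
    rw [h2, matRep_apply, ← LinearMap.toMatrix_mul, h1, map_sub, map_smul, map_smul,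
      LinearMap.toMatrix_one]
  obtain ⟨t, ht, huniq⟩ := H31.exists_trace_of_dense_zpow (IsLocalRing.maximalIdeal O) hr
    (matRep b ρ) d Fr hFr
    (hdense_cycloAdic p hpO b ρ hcont T Fr
      (fun ℓ hℓ hℓT A hA1 s hA2 => ⟨a ℓ, ℓ, hℓ, hℓT, A, hA1, hA2, rfl⟩))
  refine ⟨t, fun g => ?_, fun ℓ hℓ hℓT A hA1 s hA2 =>
    huniq s (a ℓ) ⟨ℓ, hℓ, hℓT, A, hA1, hA2, rfl⟩⟩
  apply (LinearMap.toMatrix b b).injective
  have := ht g
  rw [matRep_apply, ← LinearMap.toMatrix_mul] at this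
  rw [this, map_sub, map_smul, map_smul, LinearMap.toMatrix_one]

end Dense

end Fermat.Agent.S30.H63
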